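/-
T16 / LB-Θ (hedge for the lower bound of S16): shared definitions.  FROZEN once landed (helper3).
namespace Fermat.Agent.S16.Theta

`QuatLattice p` : an even positive definite quaternary lattice `(ℤ⁴, A)` with `det A = p²` and
`p A⁻¹ =: Adj` integral with even diagonal (level `p`).  `Q(y) = ½ yᵀ A y`.
`theta L ξ τ = Σ_{x ∈ ℤ⁴} e(τ Q(x + A⁻¹ ξ))`,  `A⁻¹ ξ = Adj ξ / p`.
`chi L ξ = e(ξᵀ Adj ξ / (2p))`,  `psi L ξ η = e(ξᵀ Adj η / p)`.
-/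
import Mathlib

set_option autoImplicit false

open Complex Matrix
open scoped UpperHalfPlane
open scoped Real

namespace Fermat.Agent.S16.Theta

/-- An even positive definite quaternary lattice of determinant `p²` and level `p`. -/
structure QuatLattice (p : ℕ) where
  A : Matrix (Fin 4) (Fin 4) ℤ
  Adj : Matrix (Fin 4) (Fin 4) ℤ
  symm : A.IsSymm
  even : ∀ i, Even (A i i)
  posDef : (A.map (Int.cast : ℤ → ℝ)).PosDef
  mul_adj : A * Adj = (p : ℤ) • (1 : Matrix (Fin 4) (Fin 4) ℤ)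
  adj_even : ∀ i, Even (Adj i i)
  det_eq : A.det = (p : ℤ) ^ 2

namespace QuatLattice

variable {p : ℕ} (L : QuatLattice p)

/-- the real Gram matrix -/
noncomputable def AR : Matrix (Fin 4) (Fin 4) ℝ := L.A.map (Int.cast : ℤ → ℝ)

/-- `Q(y) = ½ yᵀ A y` on real vectors -/
noncomputable def Qr (y : Fin 4 → ℝ) : ℝ := (1 / 2 : ℝ) * (y ⬝ᵥ L.AR.mulVec y)

/-- `x + A⁻¹ ξ` as a real vector -/
noncomputable def shift (ξ x : Fin 4 → ℤ) : Fin 4 → ℝ :=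
  fun i => (x i : ℝ) + ((L.Adj.mulVec ξ) i : ℝ) / p

/-- the theta function with characteristic `ξ ∈ ℤ⁴ / A ℤ⁴` -/
noncomputable def theta (ξ : Fin 4 → ℤ) (τ : ℍ) : ℂ :=
  ∑' x : Fin 4 → ℤ, cexp (2 * π * I * τ * L.Qr (L.shift ξ x))

/-- `ξᵀ Adj η ∈ ℤ` -/
def pair (ξ η : Fin 4 → ℤ) : ℤ := ξ ⬝ᵥ L.Adj.mulVec η

/-- `χ(ξ) = e(ξᵀ Adj ξ / (2p))` -/
noncomputable def chi (ξ : Fin 4 → ℤ) : ℂ := cexp (π * I * (L.pair ξ ξ : ℂ) / p)

/-- `ψ(ξ, η) = e(ξᵀ Adj η / p)` -/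
noncomputable def psi (ξ η : Fin 4 → ℤ) : ℂ := cexp (2 * π * I * (L.pair ξ η : ℂ) / p)

/-- the sublattice `A ℤ⁴` -/
def range : AddSubgroup (Fin 4 → ℤ) := (L.A.mulVecLin).range.toAddSubgroup

/-- number of representations of `n` by `Q` -/
noncomputable def rep (n : ℕ) : ℕ :=
  Nat.card {x : Fin 4 → ℤ // x ⬝ᵥ L.A.mulVec x = 2 * (n : ℤ)}

/-- the discriminant group `D = ℤ⁴ / A ℤ⁴` -/
abbrev D : Type := (Fin 4 → ℤ) ⧸ L.range

end QuatLattice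

/-- Abstract finite "Weil representation" data: a finite abelian group `D` of order `p²` killed by
`p`, a quadratic character `χ` with bicharacter `ψ`, and functions `θ_d` on the upper half plane
satisfying the `T`-law, the `S`-law (weight 2) and the limits at `i∞`.
Produced by package Θ-b from a `QuatLattice`, consumed by package Θ-c. -/
structure WeilData (p : ℕ) (D : Type) [AddCommGroup D] [Fintype D] where
  χ : D → ℂ
  ψ : D → D → ℂ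
  θ : D → ℍ → ℂ
  card_eq : Fintype.card D = p ^ 2
  p_nsmul : ∀ d : D, p • d = 0
  χ_zero : χ 0 = 1
  χ_neg : ∀ d, χ (-d) = χ d
  χ_add : ∀ d e, χ (d + e) = χ d * χ e * ψ d e
  χ_pow : ∀ d, χ d ^ p = 1
  ψ_add_left : ∀ d e f, ψ (d + e) f = ψ d f * ψ e f
  ψ_symm : ∀ d e, ψ d e = ψ e d
  ψ_nondeg : ∀ d, d ≠ 0 → ∑ e, ψ d e = 0
  θ_neg : ∀ d, θ (-d) = θ d
  θ_T : ∀ d (τ : ℍ), θ d ((1 : ℝ) +ᵥ τ) = χ d * θ d τ
  θ_S : ∀ d (τ : ℍ), θ d (ModularGroup.S • τ) = -((τ : ℂ) ^ 2 / p) * ∑ e, ψ d e * θ e τ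
  θ_lim_zero : Filter.Tendsto (θ 0) UpperHalfPlane.atImInfty (nhds (1 : ℂ))
  θ_lim_ne : ∀ d, d ≠ 0 → Filter.Tendsto (θ d) UpperHalfPlane.atImInfty (nhds (0 : ℂ))

end Fermat.Agent.S16.Theta
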