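/-
T16 / LB-Θ, package Θ-b (analytic half, helper39): the theta functions `L.theta ξ` of a
`QuatLattice` are holomorphic on the upper half plane and tend to `1` (if `ξ ∈ A ℤ⁴`) resp. `0`
(if `ξ ∉ A ℤ⁴`) at `i∞`.

Self-contained on top of `Theta/Defs.lean` (Mathlib only); all auxiliary lemmas live in the
namespace `Fermat.Agent.S16.Theta.LTA` so that they cannot clash with the other Θ-b files.
-/
import Fermat.Agent.S16.Theta.Defs

set_option autoImplicit false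

open Complex Matrix Filter Topology
open scoped UpperHalfPlane Real Manifold

namespace Fermat.Agent.S16.Theta

namespace LTA

/-! ### Coercivity of a positive definite real form -/

theorem continuous_quadForm (M : Matrix (Fin 4) (Fin 4) ℝ) :
    Continuous fun y : Fin 4 → ℝ => y ⬝ᵥ M.mulVec y := by
  simp only [dotProduct, mulVec]
  fun_prop

theorem quadForm_smul (M : Matrix (Fin 4) (Fin 4) ℝ) (c : ℝ) (y : Fin 4 → ℝ) :
    (c • y) ⬝ᵥ M.mulVec (c • y) = c ^ 2 * (y ⬝ᵥ M.mulVec y) := by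
  rw [mulVec_smul, dotProduct_smul, smul_dotProduct, smul_eq_mul, smul_eq_mul]
  ring

theorem dotProduct_self_le (y : Fin 4 → ℝ) : y ⬝ᵥ y ≤ 4 * ‖y‖ ^ 2 := by
  have h : ∀ i : Fin 4, y i * y i ≤ ‖y‖ ^ 2 := by
    intro i
    have h1 : |y i| ≤ ‖y‖ := by
      simpa [Real.norm_eq_abs] using norm_le_pi_norm y i
    have h2 : y i * y i = |y i| ^ 2 := by rw [sq_abs]; ring
    rw [h2]
    exact pow_le_pow_left₀ (abs_nonneg _) h1 2
  calc y ⬝ᵥ y = ∑ i : Fin 4, y i * y i := rfl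
    _ ≤ ∑ _i : Fin 4, ‖y‖ ^ 2 := Finset.sum_le_sum fun i _ => h i
    _ = 4 * ‖y‖ ^ 2 := by simp

theorem exists_coercive_of_posDef (M : Matrix (Fin 4) (Fin 4) ℝ) (hM : M.PosDef) :
    ∃ m : ℝ, 0 < m ∧ ∀ y : Fin 4 → ℝ, m * (y ⬝ᵥ y) ≤ y ⬝ᵥ M.mulVec y := by
  have hne : (Metric.sphere (0 : Fin 4 → ℝ) 1).Nonempty :=
    NormedSpace.sphere_nonempty.mpr zero_le_one
  obtain ⟨y₀, hy₀, hmin⟩ := (isCompact_sphere (0 : Fin 4 → ℝ) 1).exists_isMinOn hne
    (continuous_quadForm M).continuousOn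
  have hy₀ne : y₀ ≠ 0 := by
    intro h
    rw [h] at hy₀
    simp at hy₀
  have hpos : 0 < y₀ ⬝ᵥ M.mulVec y₀ := by
    have := hM.dotProduct_mulVec_pos hy₀ne
    simpa using this
  refine ⟨(y₀ ⬝ᵥ M.mulVec y₀) / 4, by positivity, fun y => ?_⟩
  by_cases hy : y = 0
  · subst hy; simp
  have hn : 0 < ‖y‖ := norm_pos_iff.mpr hy
  have hu : ‖y‖⁻¹ • y ∈ Metric.sphere (0 : Fin 4 → ℝ) 1 := by
    rw [mem_sphere_zero_iff_norm, norm_smul, norm_inv, norm_norm, inv_mul_cancel₀ hn.ne']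
  have h1 : y₀ ⬝ᵥ M.mulVec y₀ ≤ (‖y‖⁻¹ • y) ⬝ᵥ M.mulVec (‖y‖⁻¹ • y) := hmin hu
  rw [quadForm_smul] at h1
  have h2 : (y₀ ⬝ᵥ M.mulVec y₀) * ‖y‖ ^ 2 ≤ y ⬝ᵥ M.mulVec y := by
    have := mul_le_mul_of_nonneg_right h1 (sq_nonneg ‖y‖)
    calc (y₀ ⬝ᵥ M.mulVec y₀) * ‖y‖ ^ 2
        ≤ ‖y‖⁻¹ ^ 2 * (y ⬝ᵥ M.mulVec y) * ‖y‖ ^ 2 := this
      _ = y ⬝ᵥ M.mulVec y := by
        field_simp
  calc (y₀ ⬝ᵥ M.mulVec y₀) / 4 * (y ⬝ᵥ y)
      ≤ (y₀ ⬝ᵥ M.mulVec y₀) / 4 * (4 * ‖y‖ ^ 2) :=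
        mul_le_mul_of_nonneg_left (dotProduct_self_le y) (by positivity)
    _ = (y₀ ⬝ᵥ M.mulVec y₀) * ‖y‖ ^ 2 := by ring
    _ ≤ y ⬝ᵥ M.mulVec y := h2

/-! ### Summability of Gaussians over `ℤ⁴` -/

theorem summable_gauss_shift {a : ℝ} (ha : 0 < a) (v : ℝ) :
    Summable fun n : ℤ => Real.exp (-(a * ((n : ℝ) + v) ^ 2)) := by
  have hT : 0 < a / π := div_pos ha Real.pi_pos
  have hb := summable_pow_mul_jacobiTheta₂_term_bound (a * |v| / π) hT 0
  refine Summable.of_nonneg_of_le (fun n => (Real.exp_pos _).le) (fun n => ?_) hb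
  rw [pow_zero, one_mul, Real.exp_le_exp, Int.cast_abs]
  have h1 : -π * (a / π * (n : ℝ) ^ 2 - 2 * (a * |v| / π) * |(n : ℝ)|)
      = -(a * (n : ℝ) ^ 2) + 2 * a * (|v| * |(n : ℝ)|) := by
    field_simp
    ring
  rw [h1]
  have h2 : -(v * (n : ℝ)) ≤ |v| * |(n : ℝ)| := by
    rw [← abs_mul]; exact neg_le_abs _
  nlinarith [sq_nonneg v, h2, ha]

theorem summable_pi_prod {n : ℕ} (g : Fin n → ℤ → ℝ) (hg0 : ∀ i k, 0 ≤ g i k)
    (hg : ∀ i, Summable (g i)) :
    Summable fun x : Fin n → ℤ => ∏ i, g i (x i) := by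
  induction n with
  | zero => exact (hasSum_fintype _).summable
  | succ n ih =>
    have h1 := Summable.mul_of_nonneg (hg 0)
      (ih (fun i => g i.succ) (fun i => hg0 _) (fun i => hg _)) (fun k => hg0 0 k)
      (fun x => Finset.prod_nonneg (fun i _ => hg0 _ _))
    have h2 := ((Fin.consEquiv (fun _ : Fin (n + 1) => ℤ)).symm).summable_iff.mpr h1
    refine h2.congr fun x => ?_
    simp [Fin.prod_univ_succ, Fin.consEquiv, Fin.tail]

end LTA

namespace QuatLattice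

variable {p : ℕ} (L : QuatLattice p)

theorem lta_exists_coercive :
    ∃ m : ℝ, 0 < m ∧ ∀ y : Fin 4 → ℝ, m * (y ⬝ᵥ y) ≤ L.Qr y := by
  obtain ⟨m, hm, h⟩ := LTA.exists_coercive_of_posDef L.AR L.posDef
  refine ⟨m / 2, by positivity, fun y => ?_⟩
  have := h y
  unfold Qr
  linarith

theorem lta_Qr_nonneg (y : Fin 4 → ℝ) : 0 ≤ L.Qr y := by
  obtain ⟨m, hm, h⟩ := L.lta_exists_coercive
  have h1 : 0 ≤ y ⬝ᵥ y := by
    simp only [dotProduct]
    exact Finset.sum_nonneg fun i _ => mul_self_nonneg _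
  exact le_trans (by positivity) (h y)

theorem lta_Qr_zero : L.Qr 0 = 0 := by simp [Qr]

theorem lta_Qr_pos {y : Fin 4 → ℝ} (hy : y ≠ 0) : 0 < L.Qr y := by
  have h := L.posDef.dotProduct_mulVec_pos hy
  have h' : 0 < y ⬝ᵥ L.AR.mulVec y := by simpa [AR] using h
  unfold Qr
  linarith

theorem lta_norm_term (q : ℝ) (τ : ℂ) :
    ‖cexp (2 * π * I * τ * q)‖ = Real.exp (-(2 * π * τ.im * q)) := by
  rw [Complex.norm_exp]
  congr 1
  have : (2 * (π : ℂ) * I * τ * (q : ℂ)) = ((2 * π * q : ℝ) : ℂ) * (I * τ) := by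
    push_cast; ring
  rw [this, re_ofReal_mul]
  simp
  ring

theorem lta_summable_exp_neg (ξ : Fin 4 → ℤ) {c : ℝ} (hc : 0 < c) :
    Summable fun x : Fin 4 → ℤ => Real.exp (-(c * L.Qr (L.shift ξ x))) := by
  obtain ⟨m, hm, h⟩ := L.lta_exists_coercive
  have hcm : 0 < c * m := mul_pos hc hm
  have hs := LTA.summable_pi_prod
    (fun (i : Fin 4) (k : ℤ) =>
      Real.exp (-(c * m * ((k : ℝ) + ((L.Adj.mulVec ξ) i : ℝ) / p) ^ 2)))
    (fun _ _ => (Real.exp_pos _).le) (fun i => LTA.summable_gauss_shift hcm _)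
  refine Summable.of_nonneg_of_le (fun x => (Real.exp_pos _).le) (fun x => ?_) hs
  rw [← Real.exp_sum, Real.exp_le_exp, Finset.sum_neg_distrib, neg_le_neg_iff]
  have h1 := h (L.shift ξ x)
  have h2 : ∑ i : Fin 4, c * m * ((x i : ℝ) + ((L.Adj.mulVec ξ) i : ℝ) / p) ^ 2
      = c * (m * (L.shift ξ x ⬝ᵥ L.shift ξ x)) := by
    simp only [dotProduct, shift, Finset.mul_sum]
    refine Finset.sum_congr rfl fun i _ => ?_
    ring
  rw [h2]
  exact mul_le_mul_of_nonneg_left h1 hc.le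

theorem lta_summable_term (ξ : Fin 4 → ℤ) {τ : ℂ} (hτ : 0 < τ.im) :
    Summable fun x : Fin 4 → ℤ => cexp (2 * π * I * τ * L.Qr (L.shift ξ x)) := by
  have hc : 0 < 2 * π * τ.im := by positivity
  refine Summable.of_norm_bounded (L.lta_summable_exp_neg ξ hc) (fun x => ?_)
  rw [lta_norm_term]

/-! ### `shift ξ x = 0` -/

theorem lta_det_ne_zero (hp : 0 < p) : L.A.det ≠ 0 := by
  rw [L.det_eq]
  exact pow_ne_zero 2 (by exact_mod_cast hp.ne')

theorem lta_adj_mulVec_A (hp : 0 < p) (y : Fin 4 → ℤ) :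
    L.Adj.mulVec (L.A.mulVec y) = (p : ℤ) • y := by
  have h0 : L.A.mulVec (L.Adj.mulVec (L.A.mulVec y) - (p : ℤ) • y) = 0 := by
    rw [mulVec_sub, mulVec_mulVec, L.mul_adj, mulVec_smul, smul_mulVec, one_mulVec, sub_self]
  have := eq_zero_of_mulVec_eq_zero (L.lta_det_ne_zero hp) h0
  exact sub_eq_zero.mp this

theorem lta_shift_injective (ξ : Fin 4 → ℤ) : Function.Injective (L.shift ξ) := by
  intro x x' h
  funext i
  have := congrFun h i
  simp only [shift, add_left_inj] at this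
  exact_mod_cast this

theorem lta_shift_neg_of_eq (hp : 0 < p) (y : Fin 4 → ℤ) :
    L.shift (L.A.mulVec y) (-y) = 0 := by
  funext i
  have hp' : (p : ℝ) ≠ 0 := by exact_mod_cast hp.ne'
  simp only [shift, lta_adj_mulVec_A L hp y, Pi.neg_apply, Pi.smul_apply, smul_eq_mul,
    Pi.zero_apply]
  push_cast
  field_simp
  ring

theorem lta_mem_range_of_shift_eq_zero (hp : 0 < p) {ξ x : Fin 4 → ℤ} (h : L.shift ξ x = 0) :
    ξ ∈ L.range := by
  have hp' : (p : ℝ) ≠ 0 := by exact_mod_cast hp.ne'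
  have h1 : L.Adj.mulVec ξ = (p : ℤ) • (-x) := by
    funext i
    have := congrFun h i
    simp only [shift, Pi.zero_apply] at this
    have h2 : ((L.Adj.mulVec ξ) i : ℝ) = -((p : ℝ) * (x i : ℝ)) := by
      field_simp at this
      linarith
    have h3 : ((L.Adj.mulVec ξ) i : ℝ) = (((p : ℤ) • (-x)) i : ℤ) := by
      rw [h2]; simp
    exact_mod_cast h3
  have h4 : (p : ℤ) • ξ = (p : ℤ) • L.A.mulVec (-x) := by
    have : L.A.mulVec (L.Adj.mulVec ξ) = (p : ℤ) • ξ := by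
      rw [mulVec_mulVec, L.mul_adj, smul_mulVec, one_mulVec]
    rw [← this, h1, mulVec_smul]
  have h5 : ξ = L.A.mulVec (-x) := by
    have hpz : (p : ℤ) ≠ 0 := by exact_mod_cast hp.ne'
    exact smul_right_injective _ hpz h4
  refine ⟨-x, ?_⟩
  simp [h5]

end QuatLattice

/-! ### The three deliverables -/

section main

variable {p : ℕ} (L : QuatLattice p)

set_option linter.unusedVariables false in
theorem mdifferentiable_theta (hp : 0 < p) (ξ : Fin 4 → ℤ) :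
    MDifferentiable 𝓘(ℂ) 𝓘(ℂ) (L.theta ξ) := by
  intro τ
  rw [UpperHalfPlane.mdifferentiableAt_iff]
  set δ : ℝ := τ.im / 2 with hδ
  have hδpos : 0 < δ := by have := τ.im_pos; positivity
  set U : Set ℂ := {z | δ < z.im} with hU
  have hUo : IsOpen U := isOpen_lt continuous_const Complex.continuous_im
  have hτU : (τ : ℂ) ∈ U := by
    show δ < (τ : ℂ).im
    have := τ.im_pos
    rw [hδ, UpperHalfPlane.coe_im]; linarith
  have hdiff : DifferentiableOn ℂ
      (fun z : ℂ => ∑' x : Fin 4 → ℤ, cexp (2 * π * I * z * L.Qr (L.shift ξ x))) U := by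
    refine differentiableOn_tsum_of_summable_norm
      (L.lta_summable_exp_neg ξ (c := 2 * π * δ) (by positivity)) (fun x => ?_) hUo
      (fun x z hz => ?_)
    · apply Differentiable.differentiableOn
      fun_prop
    · rw [QuatLattice.lta_norm_term, Real.exp_le_exp, neg_le_neg_iff]
      have hz' : δ ≤ z.im := le_of_lt hz
      have hQ := L.lta_Qr_nonneg (L.shift ξ x)
      have : 2 * π * δ ≤ 2 * π * z.im := by
        have := Real.pi_pos
        nlinarith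
      exact mul_le_mul_of_nonneg_right this hQ
  have hat := (hdiff (τ : ℂ) hτU).differentiableAt (hUo.mem_nhds hτU)
  refine hat.congr_of_eventuallyEq ?_
  filter_upwards [hUo.mem_nhds hτU] with z hz
  have hz0 : 0 < z.im := lt_trans hδpos hz
  simp only [Function.comp_apply, QuatLattice.theta]
  rw [UpperHalfPlane.ofComplex_apply_of_im_pos hz0]

theorem lta_tendsto_term_zero {q : ℝ} (hq : 0 < q) :
    Tendsto (fun τ : ℍ => cexp (2 * π * I * (τ : ℂ) * q)) UpperHalfPlane.atImInfty (nhds 0) := by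
  rw [tendsto_zero_iff_norm_tendsto_zero]
  simp_rw [QuatLattice.lta_norm_term]
  refine Real.tendsto_exp_atBot.comp ?_
  rw [tendsto_neg_atBot_iff]
  have him : Tendsto (fun τ : ℍ => τ.im) UpperHalfPlane.atImInfty atTop := tendsto_comap
  have h2 : Tendsto (fun τ : ℍ => (2 * π * q) * τ.im) UpperHalfPlane.atImInfty atTop :=
    him.const_mul_atTop (by positivity)
  refine h2.congr fun τ => ?_
  rw [UpperHalfPlane.coe_im]; ring

theorem lta_tendsto_theta (ξ : Fin 4 → ℤ) :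
    Tendsto (L.theta ξ) UpperHalfPlane.atImInfty
      (nhds (∑' x : Fin 4 → ℤ, if L.shift ξ x = 0 then (1 : ℂ) else 0)) := by
  classical
  unfold QuatLattice.theta
  refine tendsto_tsum_of_dominated_convergence
    (bound := fun x : Fin 4 → ℤ => Real.exp (-(2 * π * L.Qr (L.shift ξ x))))
    (L.lta_summable_exp_neg ξ (c := 2 * π) (by positivity)) (fun x => ?_) ?_
  · by_cases hx : L.shift ξ x = 0
    · simp [hx, L.lta_Qr_zero]
    · simp only [hx, if_false]
      exact lta_tendsto_term_zero (L.lta_Qr_pos hx)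
  · rw [Filter.eventually_iff, UpperHalfPlane.atImInfty_mem]
    refine ⟨1, fun τ hτ x => ?_⟩
    rw [QuatLattice.lta_norm_term, Real.exp_le_exp, neg_le_neg_iff]
    have hQ := L.lta_Qr_nonneg (L.shift ξ x)
    have h1 : (1 : ℝ) ≤ (τ : ℂ).im := by rwa [UpperHalfPlane.coe_im]
    have : 2 * π * 1 ≤ 2 * π * (τ : ℂ).im := by
      have := Real.pi_pos
      nlinarith
    calc 2 * π * L.Qr (L.shift ξ x) = 2 * π * 1 * L.Qr (L.shift ξ x) := by ring
      _ ≤ 2 * π * (τ : ℂ).im * L.Qr (L.shift ξ x) := mul_le_mul_of_nonneg_right this hQ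

theorem tendsto_theta_of_mem (hp : 0 < p) (ξ : Fin 4 → ℤ) (hξ : ξ ∈ L.range) :
    Tendsto (L.theta ξ) UpperHalfPlane.atImInfty (nhds 1) := by
  classical
  obtain ⟨y, hy⟩ := hξ
  have hy' : L.A.mulVec y = ξ := by simpa using hy
  have h0 : L.shift ξ (-y) = 0 := by rw [← hy']; exact L.lta_shift_neg_of_eq hp y
  have hiff : ∀ x : Fin 4 → ℤ, L.shift ξ x = 0 ↔ x = -y := by
    intro x
    constructor
    · intro hx
      exact L.lta_shift_injective ξ (hx.trans h0.symm)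
    · rintro rfl; exact h0
  have hsum : (∑' x : Fin 4 → ℤ, if L.shift ξ x = 0 then (1 : ℂ) else 0) = 1 := by
    simp_rw [hiff]
    exact tsum_ite_eq (-y) (fun _ => (1 : ℂ))
  have := lta_tendsto_theta L ξ
  rwa [hsum] at this

theorem tendsto_theta_of_not_mem (hp : 0 < p) (ξ : Fin 4 → ℤ) (hξ : ξ ∉ L.range) :
    Tendsto (L.theta ξ) UpperHalfPlane.atImInfty (nhds 0) := by
  classical
  have hne : ∀ x : Fin 4 → ℤ, L.shift ξ x ≠ 0 :=
    fun x hx => hξ (L.lta_mem_range_of_shift_eq_zero hp hx)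
  have hsum : (∑' x : Fin 4 → ℤ, if L.shift ξ x = 0 then (1 : ℂ) else 0) = 0 := by
    simp [hne]
  have := lta_tendsto_theta L ξ
  rwa [hsum] at this

end main

end Fermat.Agent.S16.Theta
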