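/-
T16 / LB-Θ package Θ-b, finite/algebraic half (helper77): the discriminant group `D = ℤ⁴ / A ℤ⁴` of a
`QuatLattice`, its quadratic character `χ` and bicharacter `ψ`.
Exports (namespace Fermat.Agent.S16.Theta.QuatLattice): `mem_range`, `adj_mul`, `adj_symm`, `pair_*`,
`even_pair_self`, `fintypeD`, `card_D`, `p_nsmul_D`, `chiD`, `psiD` and the seven identities in the
field shapes of `WeilData`.
-/
import Fermat.Agent.S16.Theta.Defs

set_option autoImplicit false

open Complex Matrix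
open scoped Real

namespace Fermat.Agent.S16.Theta

/-- a symmetric integral matrix with even diagonal has even quadratic form (`n = 4`). -/
theorem even_quadForm_four (M : Matrix (Fin 4) (Fin 4) ℤ) (hs : M.IsSymm) (he : ∀ i, Even (M i i))
    (x : Fin 4 → ℤ) : Even (x ⬝ᵥ M.mulVec x) := by
  obtain ⟨c0, h0⟩ := he 0
  obtain ⟨c1, h1⟩ := he 1
  obtain ⟨c2, h2⟩ := he 2
  obtain ⟨c3, h3⟩ := he 3
  have s10 : M 1 0 = M 0 1 := hs.apply 0 1
  have s20 : M 2 0 = M 0 2 := hs.apply 0 2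
  have s30 : M 3 0 = M 0 3 := hs.apply 0 3
  have s21 : M 2 1 = M 1 2 := hs.apply 1 2
  have s31 : M 3 1 = M 1 3 := hs.apply 1 3
  have s32 : M 3 2 = M 2 3 := hs.apply 2 3
  refine ⟨c0 * x 0 ^ 2 + c1 * x 1 ^ 2 + c2 * x 2 ^ 2 + c3 * x 3 ^ 2 + M 0 1 * x 0 * x 1 +
    M 0 2 * x 0 * x 2 + M 0 3 * x 0 * x 3 + M 1 2 * x 1 * x 2 + M 1 3 * x 1 * x 3 +
    M 2 3 * x 2 * x 3, ?_⟩
  simp only [dotProduct, mulVec, Fin.sum_univ_four]
  rw [s10, s20, s30, s21, s31, s32, h0, h1, h2, h3]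
  ring

namespace QuatLattice

variable {p : ℕ} (L : QuatLattice p)

theorem mem_range {ξ : Fin 4 → ℤ} : ξ ∈ L.range ↔ ∃ y : Fin 4 → ℤ, L.A.mulVec y = ξ := by
  simp [range, LinearMap.mem_range]

theorem det_ne_zero (hp : 0 < p) : L.A.det ≠ 0 := by
  rw [L.det_eq]
  positivity

/-- `Adj * A = p` as well. -/
theorem adj_mul (hp : 0 < p) : L.Adj * L.A = (p : ℤ) • (1 : Matrix (Fin 4) (Fin 4) ℤ) := by
  have hp0 : (p : ℤ) ≠ 0 := by exact_mod_cast hp.ne'
  -- `p • Adj = adjugate A`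
  have h1 : (p : ℤ) ^ 2 • L.Adj = (p : ℤ) • L.A.adjugate := by
    have := congrArg (fun X => L.A.adjugate * X) L.mul_adj
    simp only [← Matrix.mul_assoc, Matrix.adjugate_mul, L.det_eq, Matrix.smul_mul, Matrix.one_mul,
      Matrix.mul_smul, Matrix.mul_one] at this
    exact this
  have h2 : (p : ℤ) • L.Adj = L.A.adjugate := by
    ext i j
    have := congrFun (congrFun h1 i) j
    simp only [Matrix.smul_apply, smul_eq_mul] at this ⊢
    have h3 : (p : ℤ) * ((p : ℤ) * L.Adj i j) = (p : ℤ) * L.A.adjugate i j := by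
      rw [← this]; ring
    exact mul_left_cancel₀ hp0 h3
  have h4 : (p : ℤ) • (L.Adj * L.A) = (p : ℤ) • ((p : ℤ) • (1 : Matrix (Fin 4) (Fin 4) ℤ)) := by
    rw [← Matrix.smul_mul, h2, Matrix.adjugate_mul, L.det_eq, smul_smul, sq]
  ext i j
  have := congrFun (congrFun h4 i) j
  simp only [Matrix.smul_apply, smul_eq_mul] at this ⊢
  exact mul_left_cancel₀ hp0 this

/-- `Adj` is symmetric. -/
theorem adj_symm (hp : 0 < p) : L.Adj.IsSymm := by
  have hp0 : (p : ℤ) ≠ 0 := by exact_mod_cast hp.ne'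
  have h1 : L.Adjᵀ * L.A = (p : ℤ) • (1 : Matrix (Fin 4) (Fin 4) ℤ) := by
    have := congrArg Matrix.transpose L.mul_adj
    rw [Matrix.transpose_mul, L.symm.eq, Matrix.transpose_smul, Matrix.transpose_one] at this
    exact this
  have h2 : (p : ℤ) • L.Adjᵀ = (p : ℤ) • L.Adj := by
    calc (p : ℤ) • L.Adjᵀ = L.Adjᵀ * (L.A * L.Adj) := by rw [L.mul_adj, Matrix.mul_smul, Matrix.mul_one]
      _ = (L.Adjᵀ * L.A) * L.Adj := by rw [Matrix.mul_assoc]
      _ = (p : ℤ) • L.Adj := by rw [h1, Matrix.smul_mul, Matrix.one_mul]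
  ext i j
  have := congrFun (congrFun h2 i) j
  simp only [Matrix.smul_apply, smul_eq_mul] at this
  exact mul_left_cancel₀ hp0 this

theorem mulVec_adj_mulVec (ξ : Fin 4 → ℤ) : L.A.mulVec (L.Adj.mulVec ξ) = (p : ℤ) • ξ := by
  rw [Matrix.mulVec_mulVec, L.mul_adj, Matrix.smul_mulVec, Matrix.one_mulVec]

theorem adj_mulVec_mulVec (hp : 0 < p) (y : Fin 4 → ℤ) :
    L.Adj.mulVec (L.A.mulVec y) = (p : ℤ) • y := by
  rw [Matrix.mulVec_mulVec, L.adj_mul hp, Matrix.smul_mulVec, Matrix.one_mulVec]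

/-! ### the pairing -/

theorem pair_add_left (ξ ξ' η : Fin 4 → ℤ) : L.pair (ξ + ξ') η = L.pair ξ η + L.pair ξ' η := by
  simp [pair, add_dotProduct]

theorem pair_add_right (ξ η η' : Fin 4 → ℤ) : L.pair ξ (η + η') = L.pair ξ η + L.pair ξ η' := by
  simp [pair, Matrix.mulVec_add, dotProduct_add]

theorem pair_neg_left (ξ η : Fin 4 → ℤ) : L.pair (-ξ) η = -L.pair ξ η := by
  simp [pair]

theorem pair_neg_right (ξ η : Fin 4 → ℤ) : L.pair ξ (-η) = -L.pair ξ η := by
  simp [pair, Matrix.mulVec_neg]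

theorem pair_zero_left (η : Fin 4 → ℤ) : L.pair 0 η = 0 := by
  simp [pair]

theorem pair_symm (hp : 0 < p) (ξ η : Fin 4 → ℤ) : L.pair ξ η = L.pair η ξ := by
  unfold pair
  rw [Matrix.dotProduct_mulVec, ← Matrix.mulVec_transpose, (L.adj_symm hp).eq, dotProduct_comm]

theorem pair_mulVec_right (hp : 0 < p) (ξ y : Fin 4 → ℤ) :
    L.pair ξ (L.A.mulVec y) = (p : ℤ) * (ξ ⬝ᵥ y) := by
  unfold pair
  rw [L.adj_mulVec_mulVec hp, dotProduct_smul, smul_eq_mul]

theorem pair_mulVec_left (hp : 0 < p) (y η : Fin 4 → ℤ) :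
    L.pair (L.A.mulVec y) η = (p : ℤ) * (y ⬝ᵥ η) := by
  rw [L.pair_symm hp, L.pair_mulVec_right hp, dotProduct_comm]

theorem even_pair_self (hp : 0 < p) (ξ : Fin 4 → ℤ) : Even (L.pair ξ ξ) :=
  even_quadForm_four L.Adj (L.adj_symm hp) L.adj_even ξ

theorem even_quadForm (y : Fin 4 → ℤ) : Even (y ⬝ᵥ L.A.mulVec y) :=
  even_quadForm_four L.A L.symm L.even y

/-! ### the discriminant group -/

theorem mulVec_injective (hp : 0 < p) : Function.Injective L.A.mulVec := by
  intro y y' h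
  have h0 : L.A.mulVec (y - y') = 0 := by rw [Matrix.mulVec_sub, h, sub_self]
  have := Matrix.eq_zero_of_mulVec_eq_zero (L.det_ne_zero hp) h0
  exact sub_eq_zero.1 this

theorem card_D (hp : 0 < p) : Nat.card L.D = p ^ 2 := by
  classical
  have hinj : Function.Injective L.A.mulVecLin := fun y y' h => L.mulVec_injective hp (by simpa using h)
  let e : (Fin 4 → ℤ) ≃ₗ[ℤ] LinearMap.range L.A.mulVecLin := LinearEquiv.ofInjective _ hinj
  let bN : Module.Basis (Fin 4) ℤ (LinearMap.range L.A.mulVecLin) := (Pi.basisFun ℤ (Fin 4)).map e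
  have h := Submodule.natAbs_det_basis_change (Pi.basisFun ℤ (Fin 4))
    (LinearMap.range L.A.mulVecLin) bN
  have hmat : (Pi.basisFun ℤ (Fin 4)).toMatrix ((↑) ∘ bN) = L.A := by
    ext i j
    simp [Module.Basis.toMatrix_apply, bN, e]
  rw [Module.Basis.det_apply, hmat, L.det_eq] at h
  have hcard : Nat.card L.D = Nat.card ((Fin 4 → ℤ) ⧸ LinearMap.range L.A.mulVecLin) := rfl
  rw [hcard, ← h]
  simp [Int.natAbs_pow]

/-- `D` is finite. -/
theorem finite_D (hp : 0 < p) : Finite L.D :=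
  Nat.finite_of_card_ne_zero (by rw [L.card_D hp]; positivity)

/-- a `Fintype` structure on `D` -/
@[reducible] noncomputable def fintypeD (hp : 0 < p) : Fintype L.D :=
  haveI := L.finite_D hp
  Fintype.ofFinite _

theorem fintype_card_D (hp : 0 < p) : @Fintype.card L.D (L.fintypeD hp) = p ^ 2 := by
  rw [← L.card_D hp]
  exact (@Nat.card_eq_fintype_card L.D (L.fintypeD hp)).symm

theorem p_nsmul_D (d : L.D) : p • d = 0 := by
  induction d using QuotientAddGroup.induction_on with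
  | H ξ =>
    rw [← QuotientAddGroup.mk_nsmul, QuotientAddGroup.eq_zero_iff, L.mem_range]
    refine ⟨L.Adj.mulVec ξ, ?_⟩
    rw [L.mulVec_adj_mulVec]
    simp

theorem mk_eq_mk_iff {ξ ξ' : Fin 4 → ℤ} :
    (QuotientAddGroup.mk ξ : L.D) = QuotientAddGroup.mk ξ' ↔ ∃ y : Fin 4 → ℤ, ξ' = ξ + L.A.mulVec y := by
  rw [QuotientAddGroup.eq, L.mem_range]
  constructor
  · rintro ⟨y, hy⟩
    exact ⟨y, by rw [hy]; abel⟩
  · rintro ⟨y, rfl⟩
    exact ⟨y, by abel⟩

/-! ### the characters -/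

theorem cexp_add_int (a : ℂ) (k : ℤ) : cexp (a + 2 * π * I * k) = cexp a := by
  rw [Complex.exp_add]
  have : (2 * π * I * k : ℂ) = k * (2 * π * I) := by ring
  rw [this, Complex.exp_int_mul_two_pi_mul_I, mul_one]

theorem chi_add_mulVec (hp : 0 < p) (ξ y : Fin 4 → ℤ) : L.chi (ξ + L.A.mulVec y) = L.chi ξ := by
  have hp0 : (p : ℂ) ≠ 0 := by exact_mod_cast hp.ne'
  obtain ⟨c, hc⟩ := L.even_quadForm y
  have hpair : L.pair (ξ + L.A.mulVec y) (ξ + L.A.mulVec y) =
      L.pair ξ ξ + (p : ℤ) * (2 * (ξ ⬝ᵥ y + c)) := by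
    rw [L.pair_add_left, L.pair_add_right, L.pair_add_right, L.pair_mulVec_right hp,
      L.pair_mulVec_left hp, L.pair_mulVec_left hp, hc, dotProduct_comm y ξ]
    ring
  unfold chi
  rw [hpair]
  have : (π * I * ((L.pair ξ ξ + (p : ℤ) * (2 * (ξ ⬝ᵥ y + c)) : ℤ) : ℂ) / p : ℂ) =
      π * I * (L.pair ξ ξ : ℂ) / p + 2 * π * I * ((ξ ⬝ᵥ y + c : ℤ) : ℂ) := by
    push_cast
    field_simp
  rw [this, cexp_add_int]

theorem psi_add_mulVec_left (hp : 0 < p) (ξ y η : Fin 4 → ℤ) :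
    L.psi (ξ + L.A.mulVec y) η = L.psi ξ η := by
  have hp0 : (p : ℂ) ≠ 0 := by exact_mod_cast hp.ne'
  unfold psi
  rw [L.pair_add_left, L.pair_mulVec_left hp]
  have : (2 * π * I * ((L.pair ξ η + (p : ℤ) * (y ⬝ᵥ η) : ℤ) : ℂ) / p : ℂ) =
      2 * π * I * (L.pair ξ η : ℂ) / p + 2 * π * I * ((y ⬝ᵥ η : ℤ) : ℂ) := by
    push_cast
    field_simp
  rw [this, cexp_add_int]

theorem psi_symm (hp : 0 < p) (ξ η : Fin 4 → ℤ) : L.psi ξ η = L.psi η ξ := by
  unfold psi
  rw [L.pair_symm hp]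

theorem psi_add_mulVec_right (hp : 0 < p) (ξ η y : Fin 4 → ℤ) :
    L.psi ξ (η + L.A.mulVec y) = L.psi ξ η := by
  rw [L.psi_symm hp, L.psi_add_mulVec_left hp, L.psi_symm hp]

/-- `χ` on the discriminant group -/
noncomputable def chiD (hp : 0 < p) : L.D → ℂ :=
  fun d => Quotient.liftOn' d (fun ξ => L.chi ξ) (by
    intro ξ ξ' h
    have h' : (QuotientAddGroup.mk ξ : L.D) = QuotientAddGroup.mk ξ' := Quotient.sound' h
    obtain ⟨y, rfl⟩ := L.mk_eq_mk_iff.1 h'
    exact (L.chi_add_mulVec hp ξ y).symm)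

/-- `ψ` on the discriminant group -/
noncomputable def psiD (hp : 0 < p) : L.D → L.D → ℂ :=
  fun d e => Quotient.liftOn₂' d e (fun ξ η => L.psi ξ η) (by
    intro ξ η ξ' η' h1 h2
    have h1' : (QuotientAddGroup.mk ξ : L.D) = QuotientAddGroup.mk ξ' := Quotient.sound' h1
    have h2' : (QuotientAddGroup.mk η : L.D) = QuotientAddGroup.mk η' := Quotient.sound' h2
    obtain ⟨y, rfl⟩ := L.mk_eq_mk_iff.1 h1'
    obtain ⟨z, rfl⟩ := L.mk_eq_mk_iff.1 h2'
    show L.psi ξ η = L.psi (ξ + L.A.mulVec y) (η + L.A.mulVec z)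
    rw [L.psi_add_mulVec_left hp, L.psi_add_mulVec_right hp])

@[simp] theorem chiD_mk (hp : 0 < p) (ξ : Fin 4 → ℤ) :
    L.chiD hp (QuotientAddGroup.mk ξ) = L.chi ξ := rfl

@[simp] theorem psiD_mk (hp : 0 < p) (ξ η : Fin 4 → ℤ) :
    L.psiD hp (QuotientAddGroup.mk ξ) (QuotientAddGroup.mk η) = L.psi ξ η := rfl

theorem chiD_zero (hp : 0 < p) : L.chiD hp 0 = 1 := by
  show L.chi 0 = 1
  simp [chi, pair]

theorem chiD_neg (hp : 0 < p) (d : L.D) : L.chiD hp (-d) = L.chiD hp d := by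
  induction d using QuotientAddGroup.induction_on with
  | H ξ =>
    show L.chi (-ξ) = L.chi ξ
    unfold chi
    rw [L.pair_neg_left, L.pair_neg_right, neg_neg]

theorem chiD_add (hp : 0 < p) (d e : L.D) :
    L.chiD hp (d + e) = L.chiD hp d * L.chiD hp e * L.psiD hp d e := by
  induction d using QuotientAddGroup.induction_on with
  | H ξ =>
    induction e using QuotientAddGroup.induction_on with
    | H η =>
      show L.chi (ξ + η) = L.chi ξ * L.chi η * L.psi ξ η
      have hp0 : (p : ℂ) ≠ 0 := by exact_mod_cast hp.ne'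
      unfold chi psi
      rw [L.pair_add_left, L.pair_add_right, L.pair_add_right, L.pair_symm hp η ξ,
        ← Complex.exp_add, ← Complex.exp_add]
      congr 1
      push_cast
      field_simp
      ring

theorem chiD_pow (hp : 0 < p) (d : L.D) : L.chiD hp d ^ p = 1 := by
  induction d using QuotientAddGroup.induction_on with
  | H ξ =>
    show L.chi ξ ^ p = 1
    have hp0 : (p : ℂ) ≠ 0 := by exact_mod_cast hp.ne'
    obtain ⟨c, hc⟩ := L.even_pair_self hp ξ
    unfold chi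
    rw [← Complex.exp_nat_mul, hc]
    have : ((p : ℕ) : ℂ) * (π * I * ((c + c : ℤ) : ℂ) / p) = (c : ℂ) * (2 * π * I) := by
      push_cast
      field_simp
      ring
    rw [this, Complex.exp_int_mul_two_pi_mul_I]

theorem psiD_add_left (hp : 0 < p) (d e f : L.D) :
    L.psiD hp (d + e) f = L.psiD hp d f * L.psiD hp e f := by
  induction d using QuotientAddGroup.induction_on with
  | H ξ =>
    induction e using QuotientAddGroup.induction_on with
    | H η =>
      induction f using QuotientAddGroup.induction_on with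
      | H ζ =>
        show L.psi (ξ + η) ζ = L.psi ξ ζ * L.psi η ζ
        unfold psi
        rw [L.pair_add_left, ← Complex.exp_add]
        congr 1
        push_cast
        ring

theorem psiD_symm (hp : 0 < p) (d e : L.D) : L.psiD hp d e = L.psiD hp e d := by
  induction d using QuotientAddGroup.induction_on with
  | H ξ =>
    induction e using QuotientAddGroup.induction_on with
    | H η => exact L.psi_symm hp ξ η

theorem psiD_add_right (hp : 0 < p) (d e f : L.D) :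
    L.psiD hp d (e + f) = L.psiD hp d e * L.psiD hp d f := by
  rw [L.psiD_symm hp, L.psiD_add_left hp, L.psiD_symm hp e d, L.psiD_symm hp f d]

/-- non-degeneracy: a class pairing trivially with everything is zero. -/
theorem eq_zero_of_forall_psiD_eq_one (hp : 0 < p) (d : L.D)
    (h : ∀ e : L.D, L.psiD hp d e = 1) : d = 0 := by
  induction d using QuotientAddGroup.induction_on with
  | H ξ =>
    have hp0 : (p : ℂ) ≠ 0 := by exact_mod_cast hp.ne'
    have hpz : (p : ℤ) ≠ 0 := by exact_mod_cast hp.ne'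
    have hdiv : ∀ j : Fin 4, ∃ n : ℤ, L.Adj.mulVec ξ j = n * p := by
      intro j
      have hj := h (QuotientAddGroup.mk (Pi.single j 1))
      rw [psiD_mk, psi, Complex.exp_eq_one_iff] at hj
      obtain ⟨n, hn⟩ := hj
      refine ⟨n, ?_⟩
      have hpair : L.pair ξ (Pi.single j 1) = L.Adj.mulVec ξ j := by
        rw [L.pair_symm hp]
        simp [pair]
      rw [hpair] at hn
      have h2 : ((L.Adj.mulVec ξ j : ℤ) : ℂ) = ((n * p : ℤ) : ℂ) := by
        have hpi : (2 * π * I : ℂ) ≠ 0 := by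
          simp [Real.pi_ne_zero, Complex.I_ne_zero]
        have : (2 * π * I) * ((L.Adj.mulVec ξ j : ℤ) : ℂ) = (2 * π * I) * ((n : ℂ) * p) := by
          rw [div_eq_iff hp0] at hn
          rw [hn]; ring
        have := mul_left_cancel₀ hpi this
        rw [this]; push_cast; ring
      exact_mod_cast h2
    choose z hz using hdiv
    rw [QuotientAddGroup.eq_zero_iff, L.mem_range]
    refine ⟨z, ?_⟩
    have h1 : L.Adj.mulVec ξ = (p : ℤ) • z := by
      ext j
      rw [hz j]; simp [mul_comm]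
    have h2 : (p : ℤ) • L.A.mulVec z = (p : ℤ) • ξ := by
      rw [← L.mulVec_adj_mulVec ξ, h1, Matrix.mulVec_smul]
    ext j
    have := congrFun h2 j
    simp only [Pi.smul_apply, smul_eq_mul] at this
    exact mul_left_cancel₀ hpz this

theorem sum_psiD_eq_zero [Fintype L.D] (hp : 0 < p) (d : L.D) (hd : d ≠ 0) :
    ∑ e : L.D, L.psiD hp d e = 0 := by
  obtain ⟨e₀, he₀⟩ : ∃ e₀ : L.D, L.psiD hp d e₀ ≠ 1 := by
    by_contra hcon
    push Not at hcon
    exact hd (L.eq_zero_of_forall_psiD_eq_one hp d hcon)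
  have hshift : ∑ e : L.D, L.psiD hp d e = (∑ e : L.D, L.psiD hp d e) * L.psiD hp d e₀ := by
    rw [Finset.sum_mul, ← Equiv.sum_comp (Equiv.addRight e₀)]
    refine Finset.sum_congr rfl fun e _ => ?_
    simp [L.psiD_add_right hp]
  have h2 : (∑ e : L.D, L.psiD hp d e) * (1 - L.psiD hp d e₀) = 0 := by
    rw [mul_sub, mul_one, ← hshift, sub_self]
  rcases mul_eq_zero.1 h2 with h | h
  · exact h
  · exact absurd (sub_eq_zero.1 h).symm he₀

end QuatLattice

end Fermat.Agent.S16.Theta
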