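/-
T16 / LB-Θ, package Θ-b (helper84): summability core for the theta functions of a `QuatLattice`.
Mathlib + Theta/Defs.lean + Theta/DiscGroup.lean (helper77) only.
-/
import Fermat.Agent.S16.Theta.Defs
import Fermat.Agent.S16.Theta.DiscGroup

set_option autoImplicit false

open Complex Matrix
open scoped UpperHalfPlane
open scoped Real

namespace Fermat.Agent.S16.Theta

/-! ### generic lemmas -/

/-- a product of nonnegative summable families over `Fin n → ℤ` is summable -/
theorem summable_pi_prod_of_nonneg {n : ℕ} (g : Fin n → ℤ → ℝ) (hg : ∀ i, Summable (g i))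
    (hnn : ∀ i a, 0 ≤ g i a) : Summable fun x : Fin n → ℤ => ∏ i, g i (x i) := by
  induction n with
  | zero =>
    have : Finite (Fin 0 → ℤ) := inferInstance
    exact Summable.of_finite
  | succ n ih =>
    have h1 : Summable fun x : Fin n → ℤ => ∏ i : Fin n, g i.succ (x i) :=
      ih (fun i => g i.succ) (fun i => hg _) (fun i a => hnn _ a)
    have h2 := Summable.mul_of_nonneg (f := g 0)
        (g := fun x : Fin n → ℤ => ∏ i : Fin n, g i.succ (x i)) (hg 0) h1 (fun a => hnn 0 a)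
        (fun x => Finset.prod_nonneg fun i _ => hnn _ _)
    refine ((Fin.consEquiv (fun _ : Fin (n + 1) => ℤ)).summable_iff.mp ?_)
    refine h2.congr ?_
    rintro ⟨a, y⟩
    simp [Fin.consEquiv, Fin.prod_univ_succ]

/-- one-dimensional shifted Gaussian sums converge -/
theorem summable_exp_neg_mul_add_sq {c : ℝ} (hc : 0 < c) (v : ℝ) :
    Summable fun a : ℤ => Real.exp (-(c * ((a : ℝ) + v) ^ 2)) := by
  have h := (summable_jacobiTheta₂_term_iff (I * (c * v / π : ℝ)) (I * (c / π : ℝ))).mpr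
    (by simp; positivity)
  have h2 := h.norm
  simp only [norm_jacobiTheta₂_term] at h2
  have h3 := h2.mul_left (Real.exp (-(c * v ^ 2)))
  refine h3.congr ?_
  intro a
  rw [← Real.exp_add]
  congr 1
  simp
  field_simp
  ring

/-- Gaussian sums over `ℤⁿ` shifted by a real vector converge -/
theorem summable_exp_neg_mul_sum_sq {n : ℕ} {c : ℝ} (hc : 0 < c) (v : Fin n → ℝ) :
    Summable fun x : Fin n → ℤ => Real.exp (-(c * ∑ i, ((x i : ℝ) + v i) ^ 2)) := by
  have h := summable_pi_prod_of_nonneg (fun i (a : ℤ) => Real.exp (-(c * ((a : ℝ) + v i) ^ 2)))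
    (fun i => summable_exp_neg_mul_add_sq hc (v i)) (fun i a => (Real.exp_pos _).le)
  refine h.congr ?_
  intro x
  rw [← Real.exp_sum]
  congr 1
  rw [Finset.mul_sum, Finset.sum_neg_distrib]

namespace QuatLattice

theorem p_pos {p : ℕ} (L : QuatLattice p) : 0 < p := by
  have h := L.posDef.det_pos
  have h2 : (L.A.map (Int.cast : ℤ → ℝ)).det = ((L.A.det : ℤ) : ℝ) :=
    ((Int.castRingHom ℝ).map_det L.A).symm
  rw [h2, L.det_eq] at h
  rcases Nat.eq_zero_or_pos p with h0 | h0
  · subst h0; simp at h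
  · exact h0

variable {p : ℕ} (L : QuatLattice p)

theorem Qr_smul (c : ℝ) (y : Fin 4 → ℝ) : L.Qr (c • y) = c ^ 2 * L.Qr y := by
  unfold Qr
  rw [mulVec_smul, smul_dotProduct, dotProduct_smul]
  simp only [smul_eq_mul]
  ring

theorem Qr_pos {y : Fin 4 → ℝ} (hy : y ≠ 0) : 0 < L.Qr y := by
  have h := L.posDef.dotProduct_mulVec_pos hy
  unfold Qr AR
  simp only [star_trivial] at h
  linarith

theorem Qr_zero : L.Qr 0 = 0 := by
  simp [Qr]

theorem Qr_nonneg (y : Fin 4 → ℝ) : 0 ≤ L.Qr y := by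
  by_cases hy : y = 0
  · subst hy; rw [Qr_zero]
  · exact (L.Qr_pos hy).le

theorem Qr_eq_zero_iff (y : Fin 4 → ℝ) : L.Qr y = 0 ↔ y = 0 := by
  constructor
  · intro h
    by_contra hy
    exact (L.Qr_pos hy).ne' h
  · rintro rfl; exact L.Qr_zero

theorem continuous_Qr : Continuous L.Qr := by
  unfold Qr
  simp only [dotProduct, mulVec]
  fun_prop

theorem Qr_neg (y : Fin 4 → ℝ) : L.Qr (-y) = L.Qr y := by
  have := L.Qr_smul (-1) y
  simpa using this

/-- coercivity of the quadratic form -/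
theorem exists_coercive : ∃ m : ℝ, 0 < m ∧ ∀ y : Fin 4 → ℝ, m * (y ⬝ᵥ y) ≤ L.Qr y := by
  set S : Set (Fin 4 → ℝ) := {y | y ⬝ᵥ y = 1} with hS
  have hclosed : IsClosed S := by
    apply isClosed_eq
    · simp only [dotProduct]; fun_prop
    · exact continuous_const
  have hbdd : Bornology.IsBounded S := by
    refine (Metric.isBounded_closedBall (x := (0 : Fin 4 → ℝ)) (r := 1)).subset ?_
    intro y hy
    rw [mem_closedBall_zero_iff, pi_norm_le_iff_of_nonneg zero_le_one]
    intro i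
    have h1 : y i * y i ≤ y ⬝ᵥ y := by
      unfold dotProduct
      exact Finset.single_le_sum (f := fun j => y j * y j) (fun j _ => mul_self_nonneg _)
        (Finset.mem_univ i)
    rw [hy] at h1
    rw [Real.norm_eq_abs]
    exact abs_le_one_iff_mul_self_le_one.mpr h1
  have hcompact : IsCompact S := Metric.isCompact_of_isClosed_isBounded hclosed hbdd
  have hne : S.Nonempty := ⟨Pi.single 0 1, by simp [hS]⟩
  obtain ⟨y₀, hy₀, hmin⟩ := hcompact.exists_isMinOn hne L.continuous_Qr.continuousOn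
  have hy₀ne : y₀ ≠ 0 := by
    rintro rfl
    simp [hS] at hy₀
  refine ⟨L.Qr y₀, L.Qr_pos hy₀ne, ?_⟩
  intro y
  by_cases hy : y = 0
  · subst hy; simp [Qr_zero]
  have hpos : 0 < y ⬝ᵥ y := by
    have := dotProduct_star_self_pos_iff.mpr hy
    simpa using this
  set s := Real.sqrt (y ⬝ᵥ y) with hs
  have hspos : 0 < s := Real.sqrt_pos.mpr hpos
  have hs2 : s ^ 2 = y ⬝ᵥ y := Real.sq_sqrt hpos.le
  have hz : s⁻¹ • y ∈ S := by
    simp only [hS, Set.mem_ofPred_eq, smul_dotProduct, dotProduct_smul, smul_eq_mul]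
    rw [← hs2]
    field_simp
  have h1 := hmin hz
  simp only [Set.mem_ofPred_eq] at h1
  rw [Qr_smul] at h1
  rw [← hs2]
  have h2 : L.Qr y₀ * s ^ 2 ≤ s⁻¹ ^ 2 * L.Qr y * s ^ 2 :=
    mul_le_mul_of_nonneg_right h1 (sq_nonneg s)
  have h3 : s⁻¹ ^ 2 * L.Qr y * s ^ 2 = L.Qr y := by
    field_simp
  linarith

theorem norm_term (ξ x : Fin 4 → ℤ) (τ : ℂ) :
    ‖cexp (2 * π * I * τ * L.Qr (L.shift ξ x))‖ =
      Real.exp (-(2 * π * τ.im * L.Qr (L.shift ξ x))) := by
  rw [Complex.norm_exp]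
  congr 1
  simp

/-- the basic Gaussian summability: `Σ_x exp(-c Q(x + v))` converges for every real shift `v` -/
theorem summable_exp_neg_add (v : Fin 4 → ℝ) {c : ℝ} (hc : 0 < c) :
    Summable fun x : Fin 4 → ℤ => Real.exp (-(c * L.Qr (fun i => (x i : ℝ) + v i))) := by
  obtain ⟨m, hm, hle⟩ := L.exists_coercive
  have h := summable_exp_neg_mul_sum_sq (n := 4) (c := c * m) (by positivity) v
  refine Summable.of_nonneg_of_le (fun x => (Real.exp_pos _).le) (fun x => ?_) h
  apply Real.exp_le_exp.mpr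
  have h1 := hle (fun i => (x i : ℝ) + v i)
  have h2 : (fun i => (x i : ℝ) + v i) ⬝ᵥ (fun i => (x i : ℝ) + v i)
      = ∑ i, ((x i : ℝ) + v i) ^ 2 := by
    simp [dotProduct, sq]
  rw [h2] at h1
  have := mul_le_mul_of_nonneg_left h1 hc.le
  linarith

theorem summable_exp_neg (ξ : Fin 4 → ℤ) {c : ℝ} (hc : 0 < c) :
    Summable fun x : Fin 4 → ℤ => Real.exp (-(c * L.Qr (L.shift ξ x))) :=
  L.summable_exp_neg_add (fun i => ((L.Adj.mulVec ξ) i : ℝ) / p) hc

theorem summable_term (ξ : Fin 4 → ℤ) (τ : ℍ) :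
    Summable fun x : Fin 4 → ℤ => cexp (2 * π * I * τ * L.Qr (L.shift ξ x)) := by
  apply Summable.of_norm
  simp only [norm_term]
  have h := L.summable_exp_neg ξ (c := 2 * π * τ.im) (by have := τ.im_pos; positivity)
  refine h.congr ?_
  intro x
  simp [UpperHalfPlane.coe_im]

/-! ### vanishing of the shift, `Q` on integer points (uses `adj_mul` of DiscGroup.lean) -/

theorem shift_eq_zero_iff (ξ x : Fin 4 → ℤ) : L.shift ξ x = 0 ↔ ξ = L.A.mulVec (-x) := by
  have hp : (p : ℤ) ≠ 0 := by exact_mod_cast L.p_pos.ne'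
  have hpR : (p : ℝ) ≠ 0 := by exact_mod_cast L.p_pos.ne'
  have hA : L.A.mulVec (L.Adj.mulVec ξ) = (p : ℤ) • ξ := by
    rw [Matrix.mulVec_mulVec, L.mul_adj, Matrix.smul_mulVec, Matrix.one_mulVec]
  constructor
  · intro h
    have h1 : L.Adj.mulVec ξ = (p : ℤ) • (-x) := by
      ext i
      have hi := congrFun h i
      simp only [shift, Pi.zero_apply] at hi
      have : ((L.Adj.mulVec ξ) i : ℝ) = -(p : ℝ) * (x i : ℝ) := by
        field_simp at hi
        linarith
      have h' : ((L.Adj.mulVec ξ) i : ℝ) = (((p : ℤ) * (-(x i)) : ℤ) : ℝ) := by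
        rw [this]; push_cast; ring
      have := Int.cast_injective h'
      simpa using this
    rw [h1, Matrix.mulVec_smul] at hA
    exact (smul_right_injective _ hp hA).symm
  · intro h
    have h1 : L.Adj.mulVec ξ = (p : ℤ) • (-x) := by
      rw [h, Matrix.mulVec_mulVec, L.adj_mul L.p_pos, Matrix.smul_mulVec, Matrix.one_mulVec]
    ext i
    simp only [shift, Pi.zero_apply, h1]
    simp
    field_simp
    ring

theorem Qr_shift_zero (x : Fin 4 → ℤ) :
    L.Qr (L.shift 0 x) = ((x ⬝ᵥ L.A.mulVec x : ℤ) : ℝ) / 2 := by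
  have h : L.shift 0 x = fun i => (x i : ℝ) := by
    ext i
    simp [shift]
  rw [h]
  simp [Qr, AR, dotProduct, mulVec]
  ring

end QuatLattice

end Fermat.Agent.S16.Theta
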