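/-
T16 / LB-Θ, package Θ-b (helper84): elementary laws of the theta functions of a `QuatLattice`:
`Q(x + A⁻¹ξ) = pair z z / (2p)` with `z = ξ + A x`, periodicity `θ_{ξ + A y} = θ_ξ`, evenness
`θ_{-ξ} = θ_ξ`, the `T`-law, and the descent `thetaD` to the discriminant group `L.D`.
-/
import Fermat.Agent.S16.Theta.LatticeThetaSummable

set_option autoImplicit false

open Complex Matrix
open scoped UpperHalfPlane
open scoped Real

namespace Fermat.Agent.S16.Theta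

namespace QuatLattice

variable {p : ℕ} (L : QuatLattice p)

/-- `Q` on (casts of) integer vectors -/
theorem Qr_intCast (x : Fin 4 → ℤ) :
    L.Qr (fun i => (x i : ℝ)) = ((x ⬝ᵥ L.A.mulVec x : ℤ) : ℝ) / 2 := by
  simp [Qr, AR, dotProduct, mulVec]
  ring

/-- `x + A⁻¹ ξ = A⁻¹ (ξ + A x)` -/
theorem shift_eq (ξ x : Fin 4 → ℤ) :
    L.shift ξ x = fun i => ((L.Adj.mulVec (ξ + L.A.mulVec x)) i : ℝ) / p := by
  have hpR : (p : ℝ) ≠ 0 := by exact_mod_cast L.p_pos.ne'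
  ext i
  rw [Matrix.mulVec_add, L.adj_mulVec_mulVec L.p_pos]
  simp only [shift, Pi.add_apply, Pi.smul_apply, smul_eq_mul]
  push_cast
  field_simp
  ring

/-- `Q(A⁻¹ z) = zᵀ Adj z / (2p)` -/
theorem Qr_adj_div (z : Fin 4 → ℤ) :
    L.Qr (fun i => ((L.Adj.mulVec z) i : ℝ) / p) = (L.pair z z : ℝ) / (2 * p) := by
  have hpR : (p : ℝ) ≠ 0 := by exact_mod_cast L.p_pos.ne'
  have h1 : (fun i => ((L.Adj.mulVec z) i : ℝ) / p) =
      ((p : ℝ)⁻¹) • (fun i => ((L.Adj.mulVec z) i : ℝ)) := by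
    ext i
    simp only [Pi.smul_apply, smul_eq_mul]
    field_simp
  rw [h1, Qr_smul, Qr_intCast, L.mulVec_adj_mulVec, dotProduct_smul, smul_eq_mul]
  have h2 : L.Adj.mulVec z ⬝ᵥ z = L.pair z z := by
    unfold pair
    rw [dotProduct_comm]
  rw [h2]
  push_cast
  field_simp

/-- the key identity: `Q(x + A⁻¹ξ) = zᵀ Adj z / (2p)` with `z = ξ + A x` -/
theorem Qr_shift_eq (ξ x : Fin 4 → ℤ) :
    L.Qr (L.shift ξ x) =
      (L.pair (ξ + L.A.mulVec x) (ξ + L.A.mulVec x) : ℝ) / (2 * p) := by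
  rw [shift_eq, Qr_adj_div]

/-- `e(Q(x + A⁻¹ξ)) = χ(ξ)` -/
theorem cexp_Qr_shift (ξ x : Fin 4 → ℤ) :
    cexp (2 * π * I * L.Qr (L.shift ξ x)) = L.chi ξ := by
  have hp0 : (p : ℂ) ≠ 0 := by exact_mod_cast L.p_pos.ne'
  rw [← L.chi_add_mulVec L.p_pos ξ x, Qr_shift_eq]
  unfold chi
  congr 1
  push_cast
  field_simp

/-! ### periodicity, evenness -/

theorem shift_add_mulVec (ξ y x : Fin 4 → ℤ) :
    L.shift (ξ + L.A.mulVec y) x = L.shift ξ (x + y) := by
  rw [shift_eq, shift_eq]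
  ext i
  rw [Matrix.mulVec_add L.A x y]
  congr 3
  abel

theorem theta_add_mulVec (ξ y : Fin 4 → ℤ) (τ : ℍ) :
    L.theta (ξ + L.A.mulVec y) τ = L.theta ξ τ := by
  unfold theta
  simp only [shift_add_mulVec]
  exact (Equiv.addRight y).tsum_eq
    (fun x : Fin 4 → ℤ => cexp (2 * π * I * τ * L.Qr (L.shift ξ x)))

theorem shift_neg (ξ x : Fin 4 → ℤ) : L.shift (-ξ) x = -(L.shift ξ (-x)) := by
  ext i
  simp only [shift, Matrix.mulVec_neg, Pi.neg_apply]
  push_cast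
  ring

theorem theta_neg (ξ : Fin 4 → ℤ) (τ : ℍ) : L.theta (-ξ) τ = L.theta ξ τ := by
  unfold theta
  simp only [shift_neg, Qr_neg]
  exact (Equiv.neg (Fin 4 → ℤ)).tsum_eq
    (fun x : Fin 4 → ℤ => cexp (2 * π * I * τ * L.Qr (L.shift ξ x)))

/-! ### the `T`-law -/

theorem theta_T (ξ : Fin 4 → ℤ) (τ : ℍ) :
    L.theta ξ ((1 : ℝ) +ᵥ τ) = L.chi ξ * L.theta ξ τ := by
  unfold theta
  rw [← tsum_mul_left]
  congr 1
  ext x
  rw [← L.cexp_Qr_shift ξ x, ← Complex.exp_add]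
  congr 1
  rw [UpperHalfPlane.coe_vadd]
  push_cast
  ring

/-! ### descent to the discriminant group -/

/-- `θ` on the discriminant group -/
noncomputable def thetaD : L.D → ℍ → ℂ :=
  fun d => Quotient.liftOn' d (fun ξ => L.theta ξ) (by
    intro ξ ξ' h
    have h' : (QuotientAddGroup.mk ξ : L.D) = QuotientAddGroup.mk ξ' := Quotient.sound' h
    obtain ⟨y, rfl⟩ := L.mk_eq_mk_iff.1 h'
    funext τ
    exact (L.theta_add_mulVec ξ y τ).symm)

@[simp] theorem thetaD_mk (ξ : Fin 4 → ℤ) : L.thetaD (QuotientAddGroup.mk ξ) = L.theta ξ := rfl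

theorem thetaD_zero : L.thetaD 0 = L.theta 0 := rfl

theorem thetaD_neg (d : L.D) : L.thetaD (-d) = L.thetaD d := by
  induction d using QuotientAddGroup.induction_on with
  | H ξ =>
    rw [← QuotientAddGroup.mk_neg, thetaD_mk, thetaD_mk]
    funext τ
    exact L.theta_neg ξ τ

theorem thetaD_T (d : L.D) (τ : ℍ) :
    L.thetaD d ((1 : ℝ) +ᵥ τ) = L.chiD L.p_pos d * L.thetaD d τ := by
  induction d using QuotientAddGroup.induction_on with
  | H ξ =>
    rw [thetaD_mk, chiD_mk]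
    exact L.theta_T ξ τ

theorem thetaD_eq_out (d : L.D) : L.thetaD d = L.theta (Quotient.out d) := by
  conv_lhs => rw [← QuotientAddGroup.out_eq' d]
  rfl

end QuatLattice

end Fermat.Agent.S16.Theta
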