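/-
T16 / LB-Θ, package Θ-a (helper10): the inversion formula for Gaussian theta series of a
positive definite real quadratic form in `n` variables, by successive one-dimensional
Poisson summation (Mathlib's `jacobiTheta₂_functional_equation`).  Mathlib only.
-/
import Mathlib

set_option autoImplicit false
set_option linter.unusedSectionVars false

open Complex Real Matrix

namespace Fermat.Agent.S16.Theta.P4

/-! ### Definitions -/

section Defs

variable {ι : Type} [Fintype ι]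

/-- The real quadratic form `y ↦ yᵀ M y`. -/
noncomputable def qf (M : Matrix ι ι ℝ) (y : ι → ℝ) : ℝ := y ⬝ᵥ M.mulVec y

/-- The general term of the theta series with shift `v` and character `u`. -/
noncomputable def thetaTerm (M : Matrix ι ι ℝ) (τ : ℂ) (v u : ι → ℝ) (x : ι → ℤ) : ℂ :=
  cexp (π * I * τ * (qf M (fun i => (x i : ℝ) + v i) : ℝ)
    + 2 * π * I * ((∑ i, u i * (x i : ℝ) : ℝ) : ℂ))

/-- The general term of the dual theta series. -/
noncomputable def dualTerm [DecidableEq ι] (M : Matrix ι ι ℝ) (τ : ℂ) (v u : ι → ℝ)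
    (ξ : ι → ℤ) : ℂ :=
  cexp (-(π * I / τ) * (qf M⁻¹ (fun i => (ξ i : ℝ) - u i) : ℝ)
    + 2 * π * I * ((∑ i, ((ξ i : ℝ) - u i) * v i : ℝ) : ℂ))

theorem norm_thetaTerm (M : Matrix ι ι ℝ) (τ : ℂ) (v u : ι → ℝ) (x : ι → ℤ) :
    ‖thetaTerm M τ v u x‖ = Real.exp (-π * τ.im * qf M (fun i => (x i : ℝ) + v i)) := by
  unfold thetaTerm
  rw [Complex.norm_exp]
  congr 1
  simp only [add_re, mul_re, mul_im, ofReal_re, ofReal_im, I_re, I_im, re_ofNat, im_ofNat]
  ring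

theorem norm_dualTerm [DecidableEq ι] (M : Matrix ι ι ℝ) (τ : ℂ) (v u : ι → ℝ) (ξ : ι → ℤ) :
    ‖dualTerm M τ v u ξ‖
      = Real.exp (-π * (-1 / τ).im * qf M⁻¹ (fun i => (ξ i : ℝ) + -u i)) := by
  unfold dualTerm
  rw [Complex.norm_exp]
  congr 1
  have h1 : (-(π * I / τ)).re = -π * (-1 / τ).im := by
    have : -(↑π * I / τ) = ↑π * I * (-1 / τ) := by ring
    rw [this]
    simp only [mul_re, mul_im, ofReal_re, ofReal_im, I_re, I_im]
    ring
  simp only [add_re, mul_re, mul_im, ofReal_re, ofReal_im, I_re, I_im, re_ofNat, im_ofNat, h1]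
  simp only [sub_eq_add_neg]
  ring

end Defs

/-! ### The one-dimensional formula -/

theorem one_dim_term (τ₁ v u : ℂ) (t : ℤ) :
    cexp (π * I * τ₁ * ((t : ℂ) + v) ^ 2 + 2 * π * I * u * t)
      = cexp (π * I * τ₁ * v ^ 2) * jacobiTheta₂_term t (τ₁ * v + u) τ₁ := by
  rw [jacobiTheta₂_term, ← Complex.exp_add]
  congr 1
  ring

theorem one_dim_dual_term (τ₁ v u : ℂ) (hτ₁ : τ₁ ≠ 0) (η : ℤ) :
    cexp (-(π * I / τ₁) * ((η : ℂ) - u) ^ 2 + 2 * π * I * ((η : ℂ) - u) * v)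
      = cexp (-(π * I / τ₁) * u ^ 2 - 2 * π * I * u * v)
        * jacobiTheta₂_term η ((τ₁ * v + u) / τ₁) (-1 / τ₁) := by
  rw [jacobiTheta₂_term, ← Complex.exp_add]
  congr 1
  field_simp
  ring

theorem one_dim_summable (τ₁ : ℂ) (hτ₁ : 0 < τ₁.im) (v u : ℂ) :
    Summable (fun t : ℤ => cexp (π * I * τ₁ * ((t : ℂ) + v) ^ 2 + 2 * π * I * u * t)) := by
  simp_rw [one_dim_term]
  exact ((summable_jacobiTheta₂_term_iff _ _).mpr hτ₁).mul_left _

/-- One-dimensional theta inversion with shift and character. -/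
theorem one_dim (τ₁ : ℂ) (hτ₁ : 0 < τ₁.im) (v u : ℂ) :
    ∑' t : ℤ, cexp (π * I * τ₁ * ((t : ℂ) + v) ^ 2 + 2 * π * I * u * t)
      = 1 / (-I * τ₁) ^ (1 / 2 : ℂ)
        * ∑' η : ℤ, cexp (-(π * I / τ₁) * ((η : ℂ) - u) ^ 2 + 2 * π * I * ((η : ℂ) - u) * v) := by
  have hτ0 : τ₁ ≠ 0 := by
    rintro rfl
    simp at hτ₁
  simp_rw [one_dim_term, one_dim_dual_term τ₁ v u hτ0]
  rw [tsum_mul_left, tsum_mul_left]
  change _ * jacobiTheta₂ (τ₁ * v + u) τ₁ = _ * (_ * jacobiTheta₂ ((τ₁ * v + u) / τ₁) (-1 / τ₁))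
  rw [jacobiTheta₂_functional_equation]
  have : cexp (π * I * τ₁ * v ^ 2) * cexp (-π * I * (τ₁ * v + u) ^ 2 / τ₁)
      = cexp (-(π * I / τ₁) * u ^ 2 - 2 * π * I * u * v) := by
    rw [← Complex.exp_add]
    congr 1
    field_simp
    ring
  rw [← this]
  ring

/-! ### The inductive package -/

/-- The inversion package for an index type: summability of all Gaussian sums, and the inversion
formula with shift `v` and character `u`. -/
def Inv (ι : Type) [Fintype ι] [DecidableEq ι] : Prop :=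
  ∀ M : Matrix ι ι ℝ, M.PosDef →
    (∀ y : ℝ, 0 < y → ∀ v : ι → ℝ,
      Summable fun x : ι → ℤ => Real.exp (-π * y * qf M (fun i => (x i : ℝ) + v i))) ∧
    (∀ τ : ℂ, 0 < τ.im → ∀ v u : ι → ℝ,
      ∑' x, thetaTerm M τ v u x
        = (((-I * τ) ^ (1 / 2 : ℂ)) ^ Fintype.card ι * (Real.sqrt M.det : ℂ))⁻¹
          * ∑' ξ, dualTerm M τ v u ξ)

theorem qf_of_isEmpty {ι : Type} [Fintype ι] [IsEmpty ι] (M : Matrix ι ι ℝ) (y : ι → ℝ) :
    qf M y = 0 := by
  simp [qf]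

/-- Base case. -/
theorem inv_of_isEmpty (ι : Type) [Fintype ι] [DecidableEq ι] [IsEmpty ι] : Inv ι := by
  intro M _
  refine ⟨fun y _ v => ?_, fun τ _ v u => ?_⟩
  · exact Summable.of_finite
  · have h1 : ∀ x : ι → ℤ, thetaTerm M τ v u x = 1 := by
      intro x
      simp [thetaTerm, qf_of_isEmpty]
    have h2 : ∀ x : ι → ℤ, dualTerm M τ v u x = 1 := by
      intro x
      simp [dualTerm, qf_of_isEmpty]
    simp_rw [h1, h2]
    rw [tsum_eq_single (default : ι → ℤ) (fun b hb => absurd (Subsingleton.elim b default) hb)]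
    simp [Matrix.det_isEmpty, Fintype.card_eq_zero]

section Transport

variable {ι κ : Type} [Fintype ι] [DecidableEq ι] [Fintype κ] [DecidableEq κ]

theorem qf_submatrix_equiv (e : ι ≃ κ) (M : Matrix κ κ ℝ) (y : κ → ℝ) :
    qf (M.submatrix e e) (y ∘ e) = qf M y := by
  unfold qf
  rw [Matrix.submatrix_mulVec_equiv]
  have : (y ∘ e) ∘ e.symm = y := by
    funext k; simp
  rw [this, comp_equiv_dotProduct_comp_equiv]

theorem thetaTerm_submatrix_equiv (e : ι ≃ κ) (M : Matrix κ κ ℝ) (τ : ℂ) (v u : κ → ℝ)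
    (x : ι → ℤ) :
    thetaTerm M τ v u (x ∘ e.symm) = thetaTerm (M.submatrix e e) τ (v ∘ e) (u ∘ e) x := by
  unfold thetaTerm
  have h1 : qf M (fun k => ((x ∘ e.symm) k : ℝ) + v k)
      = qf (M.submatrix e e) (fun i => (x i : ℝ) + (v ∘ e) i) := by
    rw [← qf_submatrix_equiv e]
    congr 1
    funext i
    simp
  have h2 : ∑ k, u k * ((x ∘ e.symm) k : ℝ) = ∑ i, (u ∘ e) i * (x i : ℝ) := by
    rw [← Equiv.sum_comp e]
    simp
  rw [h1, h2]

theorem dualTerm_submatrix_equiv (e : ι ≃ κ) (M : Matrix κ κ ℝ) (τ : ℂ) (v u : κ → ℝ)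
    (x : ι → ℤ) :
    dualTerm M τ v u (x ∘ e.symm) = dualTerm (M.submatrix e e) τ (v ∘ e) (u ∘ e) x := by
  unfold dualTerm
  have h1 : qf M⁻¹ (fun k => ((x ∘ e.symm) k : ℝ) - u k)
      = qf (M.submatrix e e)⁻¹ (fun i => (x i : ℝ) - (u ∘ e) i) := by
    rw [Matrix.inv_submatrix_equiv, ← qf_submatrix_equiv e]
    congr 1
    funext i
    simp
  have h2 : ∑ k, (((x ∘ e.symm) k : ℝ) - u k) * v k
      = ∑ i, ((x i : ℝ) - (u ∘ e) i) * (v ∘ e) i := by
    rw [← Equiv.sum_comp e]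
    simp
  rw [h1, h2]

/-- Transport of the package along a bijection of index types. -/
theorem Inv.congr (e : ι ≃ κ) (h : Inv ι) : Inv κ := by
  intro M hM
  have hM' : (M.submatrix e e).PosDef := hM.submatrix e.injective
  obtain ⟨ha, hc⟩ := h _ hM'
  let E : (ι → ℤ) ≃ (κ → ℤ) := Equiv.arrowCongr e (Equiv.refl ℤ)
  have hE : ∀ x : ι → ℤ, E x = x ∘ e.symm := fun x => rfl
  refine ⟨fun y hy v => ?_, fun τ hτ v u => ?_⟩
  · rw [← E.summable_iff]
    have := ha y hy (v ∘ e)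
    refine this.congr fun x => ?_
    simp only [Function.comp_apply, hE]
    rw [← qf_submatrix_equiv e]
    congr 3
    funext i
    simp
  · rw [← E.tsum_eq, ← E.tsum_eq (fun ξ => dualTerm M τ v u ξ)]
    simp_rw [hE, thetaTerm_submatrix_equiv, dualTerm_submatrix_equiv]
    rw [hc τ hτ, Matrix.det_submatrix_equiv_self, Fintype.card_congr e]

end Transport

/-! ### Block decomposition on `ι ⊕ Unit`: algebra -/

section StepAlgebra

variable {ι : Type} [Fintype ι] [DecidableEq ι]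

open Sum in
/-- The upper left block. -/
def blkA (M : Matrix (ι ⊕ Unit) (ι ⊕ Unit) ℝ) : Matrix ι ι ℝ := M.submatrix Sum.inl Sum.inl

/-- The off-diagonal column. -/
def blkB (M : Matrix (ι ⊕ Unit) (ι ⊕ Unit) ℝ) : ι → ℝ := fun i => M (Sum.inl i) (Sum.inr ())

/-- The corner entry. -/
def blkC (M : Matrix (ι ⊕ Unit) (ι ⊕ Unit) ℝ) : ℝ := M (Sum.inr ()) (Sum.inr ())

/-- `A⁻¹ b`. -/
noncomputable def blkG (M : Matrix (ι ⊕ Unit) (ι ⊕ Unit) ℝ) : ι → ℝ :=
  (blkA M)⁻¹.mulVec (blkB M)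

/-- The Schur complement `c - bᵀ A⁻¹ b`. -/
noncomputable def blkS (M : Matrix (ι ⊕ Unit) (ι ⊕ Unit) ℝ) : ℝ := blkC M - blkB M ⬝ᵥ blkG M

theorem transpose_eq_of_posDef {κ : Type} [Fintype κ] {M : Matrix κ κ ℝ} (hM : M.PosDef) :
    Mᵀ = M := by
  have := hM.isHermitian
  rwa [Matrix.IsHermitian, Matrix.conjTranspose_eq_transpose_of_trivial] at this

theorem dot_mulVec_comm {κ : Type} [Fintype κ] {A : Matrix κ κ ℝ} (hA : Aᵀ = A) (x y : κ → ℝ) :
    x ⬝ᵥ A.mulVec y = y ⬝ᵥ A.mulVec x := by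
  rw [Matrix.dotProduct_mulVec, ← Matrix.mulVec_transpose, hA, dotProduct_comm]

theorem qf_add_smul {κ : Type} [Fintype κ] {A : Matrix κ κ ℝ} (hA : Aᵀ = A) (y g : κ → ℝ)
    (s : ℝ) :
    qf A (y + s • g) = qf A y + 2 * s * (A.mulVec g ⬝ᵥ y) + s ^ 2 * (A.mulVec g ⬝ᵥ g) := by
  unfold qf
  rw [Matrix.mulVec_add, Matrix.mulVec_smul, add_dotProduct, dotProduct_add, dotProduct_add,
    smul_dotProduct, smul_dotProduct, dotProduct_smul, dotProduct_smul,
    dot_mulVec_comm hA g y, dotProduct_comm y (A.mulVec g), dotProduct_comm g (A.mulVec g)]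
  simp only [smul_eq_mul]
  ring

variable (M : Matrix (ι ⊕ Unit) (ι ⊕ Unit) ℝ)

theorem blkA_posDef (hM : M.PosDef) : (blkA M).PosDef := hM.submatrix Sum.inl_injective

theorem blk_symm (hM : M.PosDef) (j : ι) : M (Sum.inr ()) (Sum.inl j) = blkB M j := by
  have := congrFun (congrFun (transpose_eq_of_posDef hM) (Sum.inl j)) (Sum.inr ())
  simpa [blkB] using this

theorem blkA_mulVec_blkG (hM : M.PosDef) : (blkA M).mulVec (blkG M) = blkB M := by
  have hu : IsUnit (blkA M).det :=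
    (Matrix.isUnit_iff_isUnit_det _).mp (blkA_posDef M hM).isUnit
  rw [blkG, Matrix.mulVec_mulVec, Matrix.mul_nonsing_inv _ hu, Matrix.one_mulVec]

theorem qf_sum_elim (hM : M.PosDef) (y : ι → ℝ) (s : ℝ) :
    qf M (Sum.elim y (fun _ => s))
      = qf (blkA M) y + 2 * s * (blkB M ⬝ᵥ y) + blkC M * s ^ 2 := by
  unfold qf
  simp only [dotProduct, Matrix.mulVec, Fintype.sum_sum_type, Sum.elim_inl, Sum.elim_inr,
    Finset.univ_unique, Finset.sum_singleton, blk_symm M hM, blkA, Matrix.submatrix_apply]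
  have h1 : ∀ i, M (Sum.inl i) (Sum.inr default) = blkB M i := fun i => rfl
  have h2 : M (Sum.inr default) (Sum.inr default) = blkC M := rfl
  simp only [h1, h2, mul_add, Finset.sum_add_distrib]
  have e1 : ∑ i, y i * (blkB M i * s) = s * ∑ i, blkB M i * y i := by
    rw [Finset.mul_sum]
    exact Finset.sum_congr rfl fun i _ => by ring
  rw [e1]
  ring

theorem qf_complete_square (hM : M.PosDef) (y : ι → ℝ) (s : ℝ) :
    qf M (Sum.elim y (fun _ => s)) = qf (blkA M) (y + s • blkG M) + blkS M * s ^ 2 := by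
  rw [qf_sum_elim M hM, qf_add_smul (transpose_eq_of_posDef (blkA_posDef M hM)),
    blkA_mulVec_blkG M hM, blkS]
  ring

theorem blkS_pos (hM : M.PosDef) : 0 < blkS M := by
  have hne : (Sum.elim (-(blkG M)) (fun _ => (1 : ℝ)) : ι ⊕ Unit → ℝ) ≠ 0 := by
    intro h
    have := congrFun h (Sum.inr ())
    simp at this
  have h := hM.dotProduct_mulVec_pos hne
  have h2 := qf_complete_square M hM (-(blkG M)) 1
  rw [qf] at h2
  simp only [star_trivial] at h
  rw [h2] at h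
  simpa [qf] using h

theorem det_eq_blk (hM : M.PosDef) : M.det = (blkA M).det * blkS M := by
  have hu : IsUnit (blkA M).det :=
    (Matrix.isUnit_iff_isUnit_det _).mp (blkA_posDef M hM).isUnit
  let _ : Invertible (blkA M) := Matrix.invertibleOfIsUnitDet _ hu
  have hA : M.toBlocks₁₁ = blkA M := rfl
  conv_lhs => rw [← Matrix.fromBlocks_toBlocks M]
  rw [hA, Matrix.det_fromBlocks₁₁]
  congr 1
  rw [Matrix.det_unique, Matrix.sub_apply, Matrix.invOf_eq_nonsing_inv, Matrix.mul_assoc, Matrix.mul_apply, blkS,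
    blkC]
  congr 1
  simp only [dotProduct, blkG, Matrix.mulVec, Matrix.mul_apply, Matrix.toBlocks₂₁,
    Matrix.toBlocks₁₂, Matrix.of_apply]
  refine Finset.sum_congr rfl fun i _ => ?_
  rw [show (default : Unit) = () from rfl, blk_symm M hM]
  rfl

theorem mulVec_sum_elim (hM : M.PosDef) (y : ι → ℝ) (s : ℝ) :
    M.mulVec (Sum.elim y (fun _ => s))
      = Sum.elim ((blkA M).mulVec y + s • blkB M) (fun _ => blkB M ⬝ᵥ y + blkC M * s) := by
  funext a
  rcases a with i | u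
  · simp only [Matrix.mulVec, dotProduct, Fintype.sum_sum_type, Sum.elim_inl, Sum.elim_inr,
      Finset.univ_unique, Finset.sum_singleton, Pi.add_apply, Pi.smul_apply, smul_eq_mul, blkA,
      Matrix.submatrix_apply]
    rw [mul_comm s]
    rfl
  · simp only [Matrix.mulVec, dotProduct, Fintype.sum_sum_type, Sum.elim_inl, Sum.elim_inr,
      Finset.univ_unique, Finset.sum_singleton]
    rw [show u = () from rfl]
    simp only [blk_symm M hM]
    rfl

/-- The dual quadratic form in block coordinates. -/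
theorem qf_inv_sum_elim (hM : M.PosDef) (w : ι → ℝ) (ω : ℝ) :
    qf M⁻¹ (Sum.elim w (fun _ => ω))
      = qf (blkA M)⁻¹ w + (ω - blkG M ⬝ᵥ w) ^ 2 / blkS M := by
  have hA := blkA_posDef M hM
  have hAt := transpose_eq_of_posDef hA
  have huA : IsUnit (blkA M).det := (Matrix.isUnit_iff_isUnit_det _).mp hA.isUnit
  have huM : IsUnit M.det := (Matrix.isUnit_iff_isUnit_det _).mp hM.isUnit
  have hS := (blkS_pos M hM).ne'
  set s : ℝ := (ω - blkG M ⬝ᵥ w) / blkS M with hs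
  set y : ι → ℝ := (blkA M)⁻¹.mulVec w - s • blkG M with hy
  -- `M y = w`
  have h1 : (blkA M).mulVec y = w - s • blkB M := by
    rw [hy, Matrix.mulVec_sub, Matrix.mulVec_mulVec, Matrix.mul_nonsing_inv _ huA,
      Matrix.one_mulVec, Matrix.mulVec_smul, blkA_mulVec_blkG M hM]
  have h2 : blkB M ⬝ᵥ (blkA M)⁻¹.mulVec w = blkG M ⬝ᵥ w := by
    conv_lhs => rw [← blkA_mulVec_blkG M hM]
    rw [dotProduct_comm, dot_mulVec_comm hAt, Matrix.mulVec_mulVec, Matrix.mul_nonsing_inv _ huA,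
      Matrix.one_mulVec]
  have h3 : blkB M ⬝ᵥ y + blkC M * s = ω := by
    rw [hy, dotProduct_sub, dotProduct_smul, h2, smul_eq_mul]
    have : blkC M = blkS M + blkB M ⬝ᵥ blkG M := by rw [blkS]; ring
    rw [this, hs]
    field_simp
    ring
  have hMy : M.mulVec (Sum.elim y (fun _ => s)) = Sum.elim w (fun _ => ω) := by
    rw [mulVec_sum_elim M hM, h1, h3]
    congr 1
    funext i
    simp
  have hinv : M⁻¹.mulVec (Sum.elim w (fun _ => ω)) = Sum.elim y (fun _ => s) := by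
    rw [← hMy, Matrix.mulVec_mulVec, Matrix.nonsing_inv_mul _ huM, Matrix.one_mulVec]
  unfold qf
  rw [hinv, sumElim_dotProduct_sumElim]
  have h4 : (fun _ : Unit => ω) ⬝ᵥ (fun _ : Unit => s) = ω * s := by
    simp [dotProduct]
  rw [h4, hy, dotProduct_sub, dotProduct_smul, smul_eq_mul, dotProduct_comm w (blkG M), hs]
  field_simp
  ring

end StepAlgebra

/-! ### Block decomposition on `ι ⊕ Unit`: analysis -/

section StepAnalysis

variable {ι : Type} [Fintype ι] [DecidableEq ι]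

/-- Splitting off the last coordinate. -/
def splitEquiv (ι : Type) : (ι ⊕ Unit → ℤ) ≃ ℤ × (ι → ℤ) where
  toFun x := (x (Sum.inr ()), fun i => x (Sum.inl i))
  invFun p := Sum.elim p.2 (fun _ => p.1)
  left_inv x := by
    funext a
    rcases a with i | u
    · rfl
    · rfl
  right_inv p := rfl

theorem splitEquiv_symm_apply (t : ℤ) (x : ι → ℤ) :
    (splitEquiv ι).symm (t, x) = Sum.elim x (fun _ => t) := rfl

theorem shift_sum_elim (x : ι → ℤ) (t : ℤ) (v : ι ⊕ Unit → ℝ) :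
    (fun a => ((Sum.elim x (fun _ => t) a : ℤ) : ℝ) + v a)
      = Sum.elim (fun i => (x i : ℝ) + v (Sum.inl i)) (fun _ => (t : ℝ) + v (Sum.inr ())) := by
  funext a
  rcases a with i | u
  · rfl
  · rfl

variable (M : Matrix (ι ⊕ Unit) (ι ⊕ Unit) ℝ)

/-- The shift of the inner sum. -/
noncomputable def vs (v : ι ⊕ Unit → ℝ) (t : ℤ) : ι → ℝ :=
  fun i => v (Sum.inl i) + ((t : ℝ) + v (Sum.inr ())) * blkG M i

theorem qf_split (hM : M.PosDef) (v : ι ⊕ Unit → ℝ) (t : ℤ) (x : ι → ℤ) :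
    qf M (fun a => (((splitEquiv ι).symm (t, x) a : ℤ) : ℝ) + v a)
      = qf (blkA M) (fun i => (x i : ℝ) + vs M v t i)
        + blkS M * ((t : ℝ) + v (Sum.inr ())) ^ 2 := by
  rw [splitEquiv_symm_apply, shift_sum_elim, qf_complete_square M hM]
  congr 2
  funext i
  simp only [vs, Pi.add_apply, Pi.smul_apply, smul_eq_mul]
  ring

theorem exp_qf_split (hM : M.PosDef) (y : ℝ) (v : ι ⊕ Unit → ℝ) (t : ℤ) (x : ι → ℤ) :
    Real.exp (-π * y * qf M (fun a => (((splitEquiv ι).symm (t, x) a : ℤ) : ℝ) + v a))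
      = Real.exp (-π * y * qf (blkA M) (fun i => (x i : ℝ) + vs M v t i))
        * Real.exp (-π * (y * blkS M) * ((t : ℝ) + v (Sum.inr ())) ^ 2) := by
  rw [qf_split M hM, ← Real.exp_add]
  congr 1
  ring

theorem thetaTerm_split (hM : M.PosDef) (τ : ℂ) (v u : ι ⊕ Unit → ℝ) (t : ℤ) (x : ι → ℤ) :
    thetaTerm M τ v u ((splitEquiv ι).symm (t, x))
      = thetaTerm (blkA M) τ (vs M v t) (u ∘ Sum.inl) x
        * cexp (π * I * (τ * (blkS M : ℝ)) * ((t : ℂ) + (v (Sum.inr ()) : ℝ)) ^ 2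
          + 2 * π * I * (u (Sum.inr ()) : ℝ) * t) := by
  unfold thetaTerm
  rw [qf_split M hM, ← Complex.exp_add]
  congr 1
  simp only [splitEquiv_symm_apply, Fintype.sum_sum_type, Sum.elim_inl, Sum.elim_inr,
    Finset.univ_unique, Finset.sum_singleton, Function.comp_apply]
  push_cast
  ring

/-- One-dimensional Gaussian sums converge. -/
theorem summable_gauss_one (a : ℝ) (ha : 0 < a) (v₀ : ℝ) :
    Summable fun t : ℤ => Real.exp (-π * a * ((t : ℝ) + v₀) ^ 2) := by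
  have h := (one_dim_summable (I * a) (by simpa using ha) v₀ 0).norm
  refine h.congr fun t => ?_
  rw [Complex.norm_exp]
  congr 1
  have : (π : ℂ) * I * (I * a) * ((t : ℂ) + v₀) ^ 2 + 2 * π * I * 0 * t
      = ((-π * a * ((t : ℝ) + v₀) ^ 2 : ℝ) : ℂ) := by
    push_cast
    ring_nf
    rw [I_sq]
    ring
  rw [this, ofReal_re]

theorem thetaTerm_imag (A : Matrix ι ι ℝ) (y : ℝ) (v : ι → ℝ) (x : ι → ℤ) :
    thetaTerm A (I * y) v 0 x
      = ((Real.exp (-π * y * qf A (fun i => (x i : ℝ) + v i)) : ℝ) : ℂ) := by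
  unfold thetaTerm
  rw [Complex.ofReal_exp]
  congr 1
  simp only [Pi.zero_apply, zero_mul, Finset.sum_const_zero, ofReal_zero, mul_zero, add_zero]
  push_cast
  ring_nf
  rw [I_sq]
  ring

/-- Uniform bound for the Gaussian sums in the shift, from the inversion formula itself. -/
theorem exists_bound (h : Inv ι) (A : Matrix ι ι ℝ) (hA : A.PosDef) (y : ℝ) (hy : 0 < y) :
    ∃ C : ℝ, ∀ v : ι → ℝ,
      ∑' x : ι → ℤ, Real.exp (-π * y * qf A (fun i => (x i : ℝ) + v i)) ≤ C := by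
  obtain ⟨_, hc⟩ := h A hA
  obtain ⟨ha', _⟩ := h A⁻¹ hA.inv
  have hτ : 0 < (I * (y : ℂ)).im := by simpa using hy
  have hτ' : 0 < (-1 / (I * (y : ℂ))).im := by
    have : -1 / (I * (y : ℂ)) = I * ((1 / y : ℝ) : ℂ) := by
      have hy0 : (y : ℂ) ≠ 0 := ofReal_ne_zero.mpr hy.ne'
      push_cast
      field_simp
      rw [I_sq]
    rw [this]
    simpa using hy
  refine ⟨‖(((-I * (I * (y : ℂ))) ^ (1 / 2 : ℂ)) ^ Fintype.card ι * (Real.sqrt A.det : ℂ))⁻¹‖
    * ∑' ξ : ι → ℤ, Real.exp (-π * (-1 / (I * (y : ℂ))).im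
        * qf A⁻¹ (fun i => (ξ i : ℝ) + -(0 : ι → ℝ) i)), fun v => ?_⟩
  have key := hc (I * y) hτ v 0
  simp_rw [thetaTerm_imag] at key
  rw [← Complex.ofReal_tsum] at key
  have hnn : 0 ≤ ∑' x : ι → ℤ, Real.exp (-π * y * qf A (fun i => (x i : ℝ) + v i)) :=
    tsum_nonneg fun _ => (Real.exp_pos _).le
  have h1 : ∑' x : ι → ℤ, Real.exp (-π * y * qf A (fun i => (x i : ℝ) + v i))
      = ‖((∑' x : ι → ℤ, Real.exp (-π * y * qf A (fun i => (x i : ℝ) + v i)) : ℝ) : ℂ)‖ := by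
    rw [Complex.norm_real, Real.norm_of_nonneg hnn]
  rw [h1, key, norm_mul]
  refine mul_le_mul_of_nonneg_left ?_ (norm_nonneg _)
  have hsum : Summable fun ξ : ι → ℤ => ‖dualTerm A (I * y) v 0 ξ‖ := by
    simp_rw [norm_dualTerm]
    exact ha' _ hτ' _
  refine (norm_tsum_le_tsum_norm hsum).trans_eq ?_
  simp_rw [norm_dualTerm]

/-- Summability on `ι ⊕ Unit` from the package on `ι`. -/
theorem step_summable (h : Inv ι) (hM : M.PosDef) (y : ℝ) (hy : 0 < y) (v : ι ⊕ Unit → ℝ) :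
    Summable fun x : ι ⊕ Unit → ℤ =>
      Real.exp (-π * y * qf M (fun a => (x a : ℝ) + v a)) := by
  rw [← (splitEquiv ι).symm.summable_iff]
  have hform : ∀ p : ℤ × (ι → ℤ),
      ((fun x : ι ⊕ Unit → ℤ => Real.exp (-π * y * qf M (fun a => (x a : ℝ) + v a)))
        ∘ (splitEquiv ι).symm) p
      = Real.exp (-π * y * qf (blkA M) (fun i => (p.2 i : ℝ) + vs M v p.1 i))
        * Real.exp (-π * (y * blkS M) * ((p.1 : ℝ) + v (Sum.inr ())) ^ 2) :=
    fun p => exp_qf_split M hM y v p.1 p.2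
  have hA := blkA_posDef M hM
  have hnonneg : 0 ≤ ((fun x : ι ⊕ Unit → ℤ =>
      Real.exp (-π * y * qf M (fun a => (x a : ℝ) + v a))) ∘ (splitEquiv ι).symm) :=
    fun p => (Real.exp_pos _).le
  rw [summable_prod_of_nonneg hnonneg]
  refine ⟨fun t => ?_, ?_⟩
  · simp_rw [hform]
    exact ((h _ hA).1 y hy _).mul_right _
  · obtain ⟨C, hC⟩ := exists_bound h _ hA y hy
    refine Summable.of_nonneg_of_le (fun t => tsum_nonneg fun _ => (Real.exp_pos _).le)
      (fun t => ?_)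
      ((summable_gauss_one (y * blkS M) (mul_pos hy (blkS_pos M hM)) (v (Sum.inr ()))).mul_left C)
    simp_rw [hform]
    rw [tsum_mul_right]
    exact mul_le_mul_of_nonneg_right (hC _) (Real.exp_pos _).le

theorem sub_sum_elim (x : ι → ℤ) (t : ℤ) (u : ι ⊕ Unit → ℝ) :
    (fun a => ((Sum.elim x (fun _ => t) a : ℤ) : ℝ) - u a)
      = Sum.elim (fun i => (x i : ℝ) - u (Sum.inl i)) (fun _ => (t : ℝ) - u (Sum.inr ())) := by
  funext a
  rcases a with i | w
  · rfl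
  · rfl

/-- The linear form `κ(ξ) = g · (ξ - u')`. -/
noncomputable def kap (u : ι ⊕ Unit → ℝ) (ξ : ι → ℤ) : ℝ :=
  blkG M ⬝ᵥ (fun i => (ξ i : ℝ) - u (Sum.inl i))

theorem dualTerm_vs (τ : ℂ) (v u : ι ⊕ Unit → ℝ) (t : ℤ) (ξ : ι → ℤ) :
    dualTerm (blkA M) τ (vs M v t) (u ∘ Sum.inl) ξ
      = dualTerm (blkA M) τ (v ∘ Sum.inl) (u ∘ Sum.inl) ξ
        * cexp (2 * π * I * ((((t : ℝ) + v (Sum.inr ())) * kap M u ξ : ℝ) : ℂ)) := by
  unfold dualTerm
  rw [← Complex.exp_add]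
  congr 1
  have h1 : ∑ i, ((ξ i : ℝ) - (u ∘ Sum.inl) i) * vs M v t i
      = ∑ i, ((ξ i : ℝ) - (u ∘ Sum.inl) i) * (v ∘ Sum.inl) i
        + ((t : ℝ) + v (Sum.inr ())) * kap M u ξ := by
    simp only [vs, kap, dotProduct, mul_add, Finset.sum_add_distrib, Function.comp_apply,
      Finset.mul_sum]
    congr 1
    exact Finset.sum_congr rfl fun i _ => by ring
  rw [h1]
  push_cast
  ring

theorem dualTerm_split (hM : M.PosDef) (τ : ℂ) (hτ : τ ≠ 0) (v u : ι ⊕ Unit → ℝ) (η : ℤ)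
    (ξ : ι → ℤ) :
    dualTerm M τ v u ((splitEquiv ι).symm (η, ξ))
      = dualTerm (blkA M) τ (v ∘ Sum.inl) (u ∘ Sum.inl) ξ
        * cexp (2 * π * I * ((v (Sum.inr ()) * kap M u ξ : ℝ) : ℂ))
        * cexp (-(π * I / (τ * (blkS M : ℝ)))
              * ((η : ℂ) - (((u (Sum.inr ()) : ℝ) : ℂ) + ((kap M u ξ : ℝ) : ℂ))) ^ 2
            + 2 * π * I * ((η : ℂ) - (((u (Sum.inr ()) : ℝ) : ℂ) + ((kap M u ξ : ℝ) : ℂ)))
              * ((v (Sum.inr ()) : ℝ) : ℂ)) := by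
  have hS : ((blkS M : ℝ) : ℂ) ≠ 0 := ofReal_ne_zero.mpr (blkS_pos M hM).ne'
  unfold dualTerm
  rw [← Complex.exp_add, ← Complex.exp_add]
  congr 1
  rw [splitEquiv_symm_apply, sub_sum_elim, qf_inv_sum_elim M hM]
  simp only [Fintype.sum_sum_type, Sum.elim_inl, Sum.elim_inr, Finset.univ_unique,
    Finset.sum_singleton, Function.comp_apply]
  have hk : blkG M ⬝ᵥ (fun i => (ξ i : ℝ) - u (Sum.inl i)) = kap M u ξ := rfl
  rw [hk]
  push_cast
  field_simp
  ring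

theorem norm_phase (r : ℝ) : ‖cexp (2 * π * I * (r : ℂ))‖ = 1 := by
  rw [Complex.norm_exp]
  simp

theorem cpow_half_real_mul (z : ℂ) (hz : z ≠ 0) (c : ℝ) (hc : 0 < c) :
    ((c : ℂ) * z) ^ (1 / 2 : ℂ) = (Real.sqrt c : ℂ) * z ^ (1 / 2 : ℂ) := by
  have hc0 : (c : ℂ) ≠ 0 := ofReal_ne_zero.mpr hc.ne'
  rw [Complex.cpow_def_of_ne_zero (mul_ne_zero hc0 hz), Complex.cpow_def_of_ne_zero hz,
    Complex.log_ofReal_mul hc hz, add_mul, Complex.exp_add]
  congr 1
  rw [Real.sqrt_eq_rpow, Complex.ofReal_cpow hc.le, Complex.cpow_def_of_ne_zero hc0,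
    Complex.ofReal_log hc.le]
  push_cast
  rfl

theorem pref_step (τ : ℂ) (hτ : 0 < τ.im) (n : ℕ) (dA c : ℝ) (hdA : 0 ≤ dA) (hc : 0 < c) :
    (((-I * τ) ^ (1 / 2 : ℂ)) ^ n * (Real.sqrt dA : ℂ))⁻¹
        * (1 / (-I * (τ * (c : ℂ))) ^ (1 / 2 : ℂ))
      = (((-I * τ) ^ (1 / 2 : ℂ)) ^ (n + 1) * (Real.sqrt (dA * c) : ℂ))⁻¹ := by
  have hτ0 : τ ≠ 0 := by
    rintro rfl
    simp at hτ
  have hz : -I * τ ≠ 0 := mul_ne_zero (neg_ne_zero.mpr I_ne_zero) hτ0
  have h1 : -I * (τ * (c : ℂ)) = (c : ℂ) * (-I * τ) := by ring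
  rw [h1, cpow_half_real_mul _ hz c hc, Real.sqrt_mul hdA, pow_succ]
  push_cast
  simp only [mul_inv, one_div]
  ring

/-- The inversion formula on `ι ⊕ Unit` from the package on `ι`. -/
theorem step_formula (h : Inv ι) (hM : M.PosDef) (τ : ℂ) (hτ : 0 < τ.im)
    (v u : ι ⊕ Unit → ℝ) :
    ∑' x, thetaTerm M τ v u x
      = (((-I * τ) ^ (1 / 2 : ℂ)) ^ Fintype.card (ι ⊕ Unit) * (Real.sqrt M.det : ℂ))⁻¹
        * ∑' ξ, dualTerm M τ v u ξ := by
  have hA := blkA_posDef M hM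
  obtain ⟨_, hcA⟩ := h _ hA
  obtain ⟨haAinv, _⟩ := h _ hA.inv
  have hS := blkS_pos M hM
  have hτ0 : τ ≠ 0 := by
    rintro rfl
    simp at hτ
  have hτ' : 0 < (-1 / τ).im := by
    rw [neg_div, neg_im, one_div, inv_im, neg_div, neg_neg]
    exact div_pos hτ (normSq_pos.mpr hτ0)
  have hτS : 0 < (τ * ((blkS M : ℝ) : ℂ)).im := by
    rw [mul_comm, im_ofReal_mul]
    exact mul_pos hS hτ
  set v₀ : ℝ := v (Sum.inr ()) with hv₀
  set u₀ : ℝ := u (Sum.inr ()) with hu₀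
  -- summability on `ι ⊕ Unit`
  have hsumθ : Summable (fun x => thetaTerm M τ v u x) := by
    refine Summable.of_norm ?_
    simp_rw [norm_thetaTerm]
    exact step_summable M h hM τ.im hτ v
  have hsumd : Summable (fun ξ => dualTerm M τ v u ξ) := by
    refine Summable.of_norm ?_
    simp_rw [norm_dualTerm]
    exact step_summable M⁻¹ h hM.inv _ hτ' _
  have hsumθ' : Summable (fun p : ℤ × (ι → ℤ) => thetaTerm M τ v u ((splitEquiv ι).symm p)) :=
    (splitEquiv ι).symm.summable_iff.mpr hsumθ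
  have hsumd' : Summable (fun p : ℤ × (ι → ℤ) => dualTerm M τ v u ((splitEquiv ι).symm p)) :=
    (splitEquiv ι).symm.summable_iff.mpr hsumd
  -- the pieces
  set T : ℤ → ℂ := fun t => cexp (π * I * (τ * ((blkS M : ℝ) : ℂ)) * ((t : ℂ) + (v₀ : ℂ)) ^ 2
    + 2 * π * I * (u₀ : ℂ) * t) with hT
  set D : (ι → ℤ) → ℂ := fun ξ => dualTerm (blkA M) τ (v ∘ Sum.inl) (u ∘ Sum.inl) ξ with hD
  set G : ℤ → (ι → ℤ) → ℂ := fun t ξ =>
    D ξ * cexp (2 * π * I * ((((t : ℝ) + v₀) * kap M u ξ : ℝ) : ℂ)) * T t with hG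
  set prefA : ℂ := ((-I * τ) ^ (1 / 2 : ℂ)) ^ Fintype.card ι * (Real.sqrt (blkA M).det : ℂ)
    with hprefA
  have hTsum : Summable T := one_dim_summable _ hτS _ _
  have hDsum : Summable fun ξ => ‖D ξ‖ := by
    simp_rw [hD, norm_dualTerm]
    exact haAinv _ hτ' _
  -- Step 1: split the left side
  have e1 : ∑' x, thetaTerm M τ v u x = prefA⁻¹ * ∑' t, ∑' ξ, G t ξ := by
    rw [← (splitEquiv ι).symm.tsum_eq, hsumθ'.tsum_prod, ← tsum_mul_left]
    refine tsum_congr fun t => ?_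
    calc ∑' x : ι → ℤ, thetaTerm M τ v u ((splitEquiv ι).symm (t, x))
        = ∑' x : ι → ℤ, thetaTerm (blkA M) τ (vs M v t) (u ∘ Sum.inl) x * T t :=
          tsum_congr fun x => thetaTerm_split M hM τ v u t x
      _ = (∑' x : ι → ℤ, thetaTerm (blkA M) τ (vs M v t) (u ∘ Sum.inl) x) * T t :=
          tsum_mul_right
      _ = (prefA⁻¹ * ∑' ξ : ι → ℤ, dualTerm (blkA M) τ (vs M v t) (u ∘ Sum.inl) ξ) * T t := by
          rw [hcA τ hτ]
      _ = (prefA⁻¹ * ∑' ξ : ι → ℤ,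
            D ξ * cexp (2 * π * I * ((((t : ℝ) + v₀) * kap M u ξ : ℝ) : ℂ))) * T t := by
          congr 3
          funext ξ
          exact dualTerm_vs M τ v u t ξ
      _ = prefA⁻¹ * ∑' ξ : ι → ℤ, G t ξ := by
          rw [mul_assoc, ← tsum_mul_right]
  -- Step 2: swap the sums
  have hGsum : Summable (Function.uncurry G) := by
    refine Summable.of_norm_bounded (g := fun p : ℤ × (ι → ℤ) => ‖T p.1‖ * ‖D p.2‖)
      (Summable.mul_of_nonneg hTsum.norm hDsum (fun _ => norm_nonneg _) (fun _ => norm_nonneg _))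
      fun p => ?_
    simp only [Function.uncurry, hG, norm_mul, norm_phase, mul_one]
    rw [mul_comm]
  have e2 : ∑' t, ∑' ξ, G t ξ = ∑' ξ, ∑' t, G t ξ := hGsum.tsum_comm.symm
  -- Step 3: one-dimensional inversion
  have e3 : ∀ ξ, ∑' t, G t ξ = 1 / (-I * (τ * ((blkS M : ℝ) : ℂ))) ^ (1 / 2 : ℂ)
      * ∑' η, dualTerm M τ v u ((splitEquiv ι).symm (η, ξ)) := by
    intro ξ
    have h1 : ∀ t : ℤ, G t ξ = D ξ * cexp (2 * π * I * ((v₀ * kap M u ξ : ℝ) : ℂ))
        * cexp (π * I * (τ * ((blkS M : ℝ) : ℂ)) * ((t : ℂ) + (v₀ : ℂ)) ^ 2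
          + 2 * π * I * ((u₀ : ℂ) + ((kap M u ξ : ℝ) : ℂ)) * t) := by
      intro t
      simp only [hG, hT]
      rw [mul_assoc (D ξ), mul_assoc (D ξ), ← Complex.exp_add, ← Complex.exp_add]
      congr 2
      push_cast
      ring
    simp_rw [h1]
    rw [tsum_mul_left, one_dim _ hτS]
    simp_rw [dualTerm_split M hM τ hτ0]
    rw [tsum_mul_left]
    ring
  -- Step 4: reassemble the right side
  have e4 : ∑' ξ, dualTerm M τ v u ξ
      = ∑' ξ, ∑' η, dualTerm M τ v u ((splitEquiv ι).symm (η, ξ)) := by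
    rw [← (splitEquiv ι).symm.tsum_eq, hsumd'.tsum_prod]
    exact (Summable.tsum_comm (f := fun η ξ => dualTerm M τ v u ((splitEquiv ι).symm (η, ξ)))
      hsumd').symm
  rw [e1, e2]
  simp_rw [e3]
  rw [tsum_mul_left, ← e4, ← mul_assoc, hprefA,
    pref_step τ hτ _ _ _ hA.det_pos.le hS, det_eq_blk M hM]
  congr 3
  simp [Fintype.card_sum]

/-- The induction step. -/
theorem Inv.step (h : Inv ι) : Inv (ι ⊕ Unit) := fun M hM =>
  ⟨fun y hy v => step_summable M h hM y hy v, fun τ hτ v u => step_formula M h hM τ hτ v u⟩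

end StepAnalysis

/-! ### The induction -/

theorem inv_fin : ∀ n : ℕ, Inv (Fin n)
  | 0 => inv_of_isEmpty (Fin 0)
  | n + 1 => (inv_fin n).step.congr
      ((Equiv.sumCongr (Equiv.refl (Fin n)) finOneEquiv.symm).trans finSumFinEquiv)

/-- The inversion package holds for every finite index type. -/
theorem inv_all (ι : Type) [Fintype ι] [DecidableEq ι] : Inv ι :=
  (inv_fin (Fintype.card ι)).congr (Fintype.equivFin ι).symm

section Main

variable {ι : Type} [Fintype ι] [DecidableEq ι]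

/-- Gaussian sums of a positive definite form converge. -/
theorem summable_exp_qf (M : Matrix ι ι ℝ) (hM : M.PosDef) (y : ℝ) (hy : 0 < y) (v : ι → ℝ) :
    Summable fun x : ι → ℤ => Real.exp (-π * y * qf M (fun i => (x i : ℝ) + v i)) :=
  (inv_all ι M hM).1 y hy v

theorem summable_thetaTerm (M : Matrix ι ι ℝ) (hM : M.PosDef) (τ : ℂ) (hτ : 0 < τ.im)
    (v u : ι → ℝ) : Summable fun x : ι → ℤ => thetaTerm M τ v u x := by
  refine Summable.of_norm ?_
  simp_rw [norm_thetaTerm]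
  exact summable_exp_qf M hM τ.im hτ v

theorem summable_dualTerm (M : Matrix ι ι ℝ) (hM : M.PosDef) (τ : ℂ) (hτ : 0 < τ.im)
    (v u : ι → ℝ) : Summable fun ξ : ι → ℤ => dualTerm M τ v u ξ := by
  have hτ0 : τ ≠ 0 := by
    rintro rfl
    simp at hτ
  have hτ' : 0 < (-1 / τ).im := by
    rw [neg_div, neg_im, one_div, inv_im, neg_div, neg_neg]
    exact div_pos hτ (normSq_pos.mpr hτ0)
  refine Summable.of_norm ?_
  simp_rw [norm_dualTerm]
  exact summable_exp_qf M⁻¹ hM.inv _ hτ' _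

/-- **Theta inversion** for a positive definite real quadratic form in any number of variables,
with shift `v` and character `u`. -/
theorem theta_inversion (M : Matrix ι ι ℝ) (hM : M.PosDef) (τ : ℂ) (hτ : 0 < τ.im)
    (v u : ι → ℝ) :
    ∑' x, thetaTerm M τ v u x
      = (((-I * τ) ^ (1 / 2 : ℂ)) ^ Fintype.card ι * (Real.sqrt M.det : ℂ))⁻¹
        * ∑' ξ, dualTerm M τ v u ξ :=
  (inv_all ι M hM).2 τ hτ v u

theorem cpow_half_pow_four (z : ℂ) : (z ^ (1 / 2 : ℂ)) ^ 4 = z ^ 2 := by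
  have h : (z ^ (1 / 2 : ℂ)) ^ 2 = z := by
    have := Complex.cpow_nat_inv_pow z (n := 2) (by norm_num)
    simpa [one_div] using this
  calc (z ^ (1 / 2 : ℂ)) ^ 4 = ((z ^ (1 / 2 : ℂ)) ^ 2) ^ 2 := by ring
    _ = z ^ 2 := by rw [h]

end Main

end Fermat.Agent.S16.Theta.P4

namespace Fermat.Agent.S16.Theta

open P4

/-- Θ-a, summability (statement of `Skeleton.summable_cexp_quadForm`). -/
theorem summable_cexp_quadForm (M : Matrix (Fin 4) (Fin 4) ℝ) (hM : M.PosDef) (τ : ℂ)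
    (hτ : 0 < τ.im) (v : Fin 4 → ℝ) :
    Summable fun x : Fin 4 → ℤ =>
      cexp (π * I * τ * (((fun i => (x i : ℝ) + v i) ⬝ᵥ M.mulVec (fun i => (x i : ℝ) + v i) : ℝ) : ℂ)) := by
  have h := summable_thetaTerm M hM τ hτ v 0
  refine h.congr fun x => ?_
  simp [thetaTerm, qf]

/-- Θ-a, the inversion formula in four variables (statement of
`Skeleton.tsum_cexp_quadForm_four`). -/
theorem tsum_cexp_quadForm_four (M : Matrix (Fin 4) (Fin 4) ℝ) (hM : M.PosDef) (τ : ℂ)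
    (hτ : 0 < τ.im) (v : Fin 4 → ℝ) :
    ∑' x : Fin 4 → ℤ,
      cexp (π * I * τ * (((fun i => (x i : ℝ) + v i) ⬝ᵥ M.mulVec (fun i => (x i : ℝ) + v i) : ℝ) : ℂ)) =
    -(1 / (τ ^ 2 * ((Real.sqrt M.det : ℝ) : ℂ))) *
      ∑' ξ : Fin 4 → ℤ,
        cexp (-(π * I / τ) * (((fun i => (ξ i : ℝ)) ⬝ᵥ M⁻¹.mulVec (fun i => (ξ i : ℝ)) : ℝ) : ℂ)
          + 2 * π * I * ((∑ i, (ξ i : ℝ) * v i : ℝ) : ℂ)) := by
  have h := theta_inversion M hM τ hτ v 0
  have h1 : ∀ x : Fin 4 → ℤ, thetaTerm M τ v 0 x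
      = cexp (π * I * τ * (((fun i => (x i : ℝ) + v i) ⬝ᵥ M.mulVec (fun i => (x i : ℝ) + v i) : ℝ) : ℂ)) := by
    intro x
    simp [thetaTerm, qf]
  have h2 : ∀ ξ : Fin 4 → ℤ, dualTerm M τ v 0 ξ
      = cexp (-(π * I / τ) * (((fun i => (ξ i : ℝ)) ⬝ᵥ M⁻¹.mulVec (fun i => (ξ i : ℝ)) : ℝ) : ℂ)
          + 2 * π * I * ((∑ i, (ξ i : ℝ) * v i : ℝ) : ℂ)) := by
    intro ξ
    simp [dualTerm, qf]
  simp_rw [h1, h2] at h
  rw [h, Fintype.card_fin, cpow_half_pow_four]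
  congr 1
  have : (-I * τ) ^ 2 = -τ ^ 2 := by
    rw [mul_pow, neg_sq, I_sq]
    ring
  rw [this, neg_mul, inv_neg, one_div]

end Fermat.Agent.S16.Theta
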