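/-
T16 / LB-Θ, package Θ-b (helper84): the `S`-law of the theta functions of a `QuatLattice`
(from the Poisson summation formula Θ-a, `Poisson4.lean`, by regrouping the dual sum along the
cosets of `A ℤ⁴`), and the assembly of the `WeilData` (`exists_weilData`, Skeleton statement).
-/
import Fermat.Agent.S16.Theta.LatticeThetaLaws
import Fermat.Agent.S16.Theta.LatticeThetaAnalytic
import Fermat.Agent.S16.Theta.Poisson4

set_option autoImplicit false

open Complex Matrix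
open scoped UpperHalfPlane
open scoped Real

namespace Fermat.Agent.S16.Theta

namespace QuatLattice

variable {p : ℕ} (L : QuatLattice p)

/-! ### the real matrices -/

/-- the real matrix of `Adj` -/
noncomputable def AdjR : Matrix (Fin 4) (Fin 4) ℝ := L.Adj.map (Int.cast : ℤ → ℝ)

theorem AR_mul_AdjR : L.AR * L.AdjR = (p : ℝ) • (1 : Matrix (Fin 4) (Fin 4) ℝ) := by
  have h := congrArg (fun M : Matrix (Fin 4) (Fin 4) ℤ => M.map (Int.castRingHom ℝ)) L.mul_adj
  simp only [Matrix.map_mul] at h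
  have h1 : L.A.map (Int.castRingHom ℝ) = L.AR := rfl
  have h2 : L.Adj.map (Int.castRingHom ℝ) = L.AdjR := rfl
  rw [h1, h2] at h
  rw [h]
  ext i j
  by_cases hij : i = j
  · subst hij
    simp only [Matrix.map_apply, Matrix.smul_apply, Matrix.one_apply_eq]
    simp
  · simp only [Matrix.map_apply, Matrix.smul_apply, Matrix.one_apply_ne hij]
    simp

theorem AR_inv : L.AR⁻¹ = ((p : ℝ)⁻¹) • L.AdjR := by
  have hpR : (p : ℝ) ≠ 0 := by exact_mod_cast L.p_pos.ne'
  apply Matrix.inv_eq_right_inv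
  rw [Matrix.mul_smul, AR_mul_AdjR, smul_smul, inv_mul_cancel₀ hpR, one_smul]

theorem AR_det : L.AR.det = (p : ℝ) ^ 2 := by
  have h2 : L.AR.det = ((L.A.det : ℤ) : ℝ) :=
    ((Int.castRingHom ℝ).map_det L.A).symm
  rw [h2, L.det_eq]
  push_cast
  ring

theorem sqrt_AR_det : Real.sqrt L.AR.det = (p : ℝ) := by
  rw [AR_det, Real.sqrt_sq (Nat.cast_nonneg p)]

theorem dot_AR_inv (y : Fin 4 → ℤ) :
    (fun i => (y i : ℝ)) ⬝ᵥ L.AR⁻¹.mulVec (fun i => (y i : ℝ)) = (L.pair y y : ℝ) / p := by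
  rw [AR_inv, Matrix.smul_mulVec, dotProduct_smul, smul_eq_mul]
  have h : (fun i => (y i : ℝ)) ⬝ᵥ L.AdjR.mulVec (fun i => (y i : ℝ)) = (L.pair y y : ℝ) := by
    simp [pair, AdjR, dotProduct, mulVec]
  rw [h]
  ring

theorem sum_mul_shift (y ξ : Fin 4 → ℤ) :
    ∑ i, (y i : ℝ) * (((L.Adj.mulVec ξ) i : ℝ) / p) = (L.pair y ξ : ℝ) / p := by
  simp only [pair, dotProduct]
  push_cast
  rw [Finset.sum_div]
  refine Finset.sum_congr rfl fun i _ => ?_
  ring

/-! ### the raw inversion formula -/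

/-- the general term of the dual sum -/
noncomputable def dualG (ξ : Fin 4 → ℤ) (τ : ℂ) (y : Fin 4 → ℤ) : ℂ :=
  cexp (2 * π * I * τ * (((L.pair y y : ℝ) / (2 * p) : ℝ) : ℂ)) * L.psi y ξ

theorem S_coe (τ : ℍ) : ((ModularGroup.S • τ : ℍ) : ℂ) = (-(τ : ℂ))⁻¹ := by
  rw [UpperHalfPlane.modular_S_smul]

theorem theta_S_raw (ξ : Fin 4 → ℤ) (τ : ℍ) :
    Summable (L.dualG ξ τ) ∧
    L.theta ξ (ModularGroup.S • τ) = -((τ : ℂ) ^ 2 / p) * ∑' y : Fin 4 → ℤ, L.dualG ξ τ y := by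
  have hp0 : (p : ℂ) ≠ 0 := by exact_mod_cast L.p_pos.ne'
  have hτ0 : (τ : ℂ) ≠ 0 := UpperHalfPlane.ne_zero τ
  set τ' : ℂ := ((ModularGroup.S • τ : ℍ) : ℂ) with hτ'
  have hτ'im : 0 < τ'.im := (ModularGroup.S • τ).im_pos
  have hτ'eq : τ' = (-(τ : ℂ))⁻¹ := S_coe τ
  set v : Fin 4 → ℝ := fun i => ((L.Adj.mulVec ξ) i : ℝ) / p with hv
  have hP := tsum_cexp_quadForm_four L.AR L.posDef τ' hτ'im v
  have hS := P4.summable_dualTerm L.AR L.posDef τ' hτ'im v 0
  -- the dual terms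
  have hdual : ∀ y : Fin 4 → ℤ,
      cexp (-(π * I / τ') * (((fun i => (y i : ℝ)) ⬝ᵥ L.AR⁻¹.mulVec (fun i => (y i : ℝ)) : ℝ) : ℂ)
          + 2 * π * I * ((∑ i, (y i : ℝ) * v i : ℝ) : ℂ)) = L.dualG ξ τ y := by
    intro y
    rw [dot_AR_inv, sum_mul_shift, dualG, psi, ← Complex.exp_add]
    congr 1
    rw [hτ'eq]
    push_cast
    field_simp
  have hdual' : ∀ y : Fin 4 → ℤ, P4.dualTerm L.AR τ' v 0 y = L.dualG ξ τ y := by
    intro y
    rw [← hdual y]
    simp [P4.dualTerm, P4.qf]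
  constructor
  · exact hS.congr hdual'
  · -- the left hand side
    have hlhs : L.theta ξ (ModularGroup.S • τ) = ∑' x : Fin 4 → ℤ,
        cexp (π * I * τ' * (((fun i => (x i : ℝ) + v i) ⬝ᵥ
          L.AR.mulVec (fun i => (x i : ℝ) + v i) : ℝ) : ℂ)) := by
      unfold theta
      congr 1
      ext x
      congr 1
      have : L.shift ξ x = fun i => (x i : ℝ) + v i := rfl
      rw [← this, Qr]
      push_cast
      ring
    rw [hlhs, hP, sqrt_AR_det]
    simp_rw [hdual]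
    congr 1
    rw [hτ'eq]
    push_cast
    field_simp

/-! ### regrouping the dual sum along the cosets of `A ℤ⁴` -/

theorem mk_mulVec (x : Fin 4 → ℤ) : (QuotientAddGroup.mk (L.A.mulVec x) : L.D) = 0 := by
  rw [QuotientAddGroup.eq_zero_iff, L.mem_range]
  exact ⟨x, rfl⟩

/-- `ℤ⁴ = ⊔_{d ∈ D} (rep d + A ℤ⁴)` -/
noncomputable def outCosetEquiv : L.D × (Fin 4 → ℤ) ≃ (Fin 4 → ℤ) :=
  Equiv.ofBijective (fun q => Quotient.out q.1 + L.A.mulVec q.2) (by
    constructor
    · rintro ⟨d, x⟩ ⟨d', x'⟩ h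
      simp only at h
      have h1 := congrArg (fun y => (QuotientAddGroup.mk y : L.D)) h
      simp only [QuotientAddGroup.mk_add, mk_mulVec, add_zero, QuotientAddGroup.out_eq'] at h1
      subst h1
      have h2 : L.A.mulVec x = L.A.mulVec x' := add_left_cancel h
      rw [L.mulVec_injective L.p_pos h2]
    · intro y
      have h1 : (QuotientAddGroup.mk (y - Quotient.out (QuotientAddGroup.mk y : L.D)) : L.D) = 0 := by
        rw [QuotientAddGroup.mk_sub, QuotientAddGroup.out_eq', sub_self]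
      rw [QuotientAddGroup.eq_zero_iff, L.mem_range] at h1
      obtain ⟨x, hx⟩ := h1
      refine ⟨(QuotientAddGroup.mk y, x), ?_⟩
      simp only [hx]
      abel)

theorem outCosetEquiv_apply (d : L.D) (x : Fin 4 → ℤ) :
    L.outCosetEquiv (d, x) = Quotient.out d + L.A.mulVec x := rfl

theorem dualG_coset (ξ η x : Fin 4 → ℤ) (τ : ℂ) :
    L.dualG ξ τ (η + L.A.mulVec x) =
      L.psi η ξ * cexp (2 * π * I * τ * L.Qr (L.shift η x)) := by
  rw [dualG, L.psi_add_mulVec_left L.p_pos, Qr_shift_eq, mul_comm]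

theorem tsum_dualG (ξ : Fin 4 → ℤ) (τ : ℍ) :
    ∑' y : Fin 4 → ℤ, L.dualG ξ τ y =
      ∑' d : L.D, L.psi (Quotient.out d) ξ * L.theta (Quotient.out d) τ := by
  have hS := (L.theta_S_raw ξ τ).1
  rw [← L.outCosetEquiv.tsum_eq (L.dualG ξ τ)]
  have hS' : Summable fun q : L.D × (Fin 4 → ℤ) => L.dualG ξ τ (L.outCosetEquiv q) :=
    (L.outCosetEquiv.summable_iff).mpr hS
  rw [hS'.tsum_prod]
  congr 1
  ext d
  simp only [outCosetEquiv_apply, dualG_coset]
  rw [tsum_mul_left]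
  rfl

/-- the `S`-law -/
theorem theta_S_out (ξ : Fin 4 → ℤ) (τ : ℍ) :
    L.theta ξ (ModularGroup.S • τ) =
      -((τ : ℂ) ^ 2 / p) * ∑' d : L.D, L.psi (Quotient.out d) ξ * L.theta (Quotient.out d) τ := by
  rw [(L.theta_S_raw ξ τ).2, tsum_dualG]

theorem thetaD_S [Fintype L.D] (d : L.D) (τ : ℍ) :
    L.thetaD d (ModularGroup.S • τ) =
      -((τ : ℂ) ^ 2 / p) * ∑ e, L.psiD L.p_pos d e * L.thetaD e τ := by
  induction d using QuotientAddGroup.induction_on with
  | H ξ =>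
    rw [thetaD_mk, theta_S_out, tsum_fintype]
    congr 1
    refine Finset.sum_congr rfl fun e _ => ?_
    rw [thetaD_eq_out]
    congr 1
    conv_rhs => rw [← QuotientAddGroup.out_eq' e]
    rw [psiD_mk, L.psi_symm L.p_pos]

/-! ### limits at `i∞` -/

theorem tendsto_thetaD_zero :
    Filter.Tendsto (L.thetaD 0) UpperHalfPlane.atImInfty (nhds (1 : ℂ)) := by
  rw [thetaD_zero]
  exact tendsto_theta_of_mem L L.p_pos 0 (zero_mem _)

theorem tendsto_thetaD_ne (d : L.D) (hd : d ≠ 0) :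
    Filter.Tendsto (L.thetaD d) UpperHalfPlane.atImInfty (nhds (0 : ℂ)) := by
  induction d using QuotientAddGroup.induction_on with
  | H ξ =>
    rw [thetaD_mk]
    apply tendsto_theta_of_not_mem L L.p_pos ξ
    intro hξ
    exact hd ((QuotientAddGroup.eq_zero_iff ξ).mpr hξ)

/-- the `WeilData` of a `QuatLattice` -/
noncomputable def weilData :
    @WeilData p L.D _ (L.fintypeD L.p_pos) :=
  letI := L.fintypeD L.p_pos
  { χ := L.chiD L.p_pos
    ψ := L.psiD L.p_pos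
    θ := L.thetaD
    card_eq := L.fintype_card_D L.p_pos
    p_nsmul := L.p_nsmul_D
    χ_zero := L.chiD_zero L.p_pos
    χ_neg := L.chiD_neg L.p_pos
    χ_add := L.chiD_add L.p_pos
    χ_pow := L.chiD_pow L.p_pos
    ψ_add_left := L.psiD_add_left L.p_pos
    ψ_symm := L.psiD_symm L.p_pos
    ψ_nondeg := fun d hd => L.sum_psiD_eq_zero L.p_pos d hd
    θ_neg := L.thetaD_neg
    θ_T := L.thetaD_T
    θ_S := L.thetaD_S
    θ_lim_zero := L.tendsto_thetaD_zero
    θ_lim_ne := L.tendsto_thetaD_ne }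

end QuatLattice

/-- **Θ-b main deliverable** (Skeleton statement): the theta functions of a `QuatLattice` form a
`WeilData`. -/
theorem exists_weilData {p : ℕ} (L : QuatLattice p) (_hp : p.Prime) :
    ∃ (_ : Fintype L.D) (W : WeilData p L.D),
      W.θ 0 = L.theta 0 :=
  ⟨L.fintypeD L.p_pos, L.weilData, rfl⟩

end Fermat.Agent.S16.Theta
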