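/-
T16 / LB-Θ / Θ-f (helper54): the interface-independent half of `Form.lean`.

* `exists_modularForm_of_closure` (F1): a holomorphic function on `ℍ` which is weight-`k` invariant
  under a generating set of `Γ₀(N)` and all of whose `SL(2,ℤ)`-translates are bounded at `i∞` is a
  modular form of level `Γ₀(N)`.
* `qExpansion_coeff_of_hasSum` (F2): uniqueness of the `q`-expansion at level `Γ₀(N)`.
* `exists_thetaForm_of_weilData`: the abstract inputs of Θ-b/Θ-c/Θ-d give `Θ = θ₀ ∈ M₂(Γ₀(p))` with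
  `a₀ = 1`, `aₙ` even.
* `exists_cuspForm_of_qExpansion_coeff_zero` (F3): for a prime `p`, a weight-2 modular form on
  `Γ₀(p)` whose constant term at `∞` vanishes is a cusp form (the weight-2 "residue theorem"
  `sum_cstQ_eq_zero` of helper10 + the coset decomposition `SL₂(ℤ) = Γ₀(p) ⊔ Γ₀(p) S T^ℤ`).
-/
import Mathlib
import Fermat.Prelude.Thm_CongruenceSubgroup_one_mem_strictPeriods_Gamma0
import Fermat.Agent.S20_helper10.CuspConstTerms
import Fermat.Agent.S16.Theta.Defs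

set_option autoImplicit false

open UpperHalfPlane ModularForm Matrix.SpecialLinearGroup OnePoint CongruenceSubgroup
open scoped MatrixGroups ModularForm Manifold Real
open Fermat.Agent.S20_helper10

namespace Fermat.Agent.S16.Theta.Form

/-! ### F1 -/

/-- Slash invariance under a generating set gives invariance under the closure. -/
theorem slash_eq_of_mem_closure (k : ℤ) (F : ℍ → ℂ) (gens : Set SL(2,ℤ))
    (hinv : ∀ g ∈ gens, F ∣[k] g = F) :
    ∀ g ∈ Subgroup.closure gens, F ∣[k] g = F := by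
  intro g hg
  induction hg using Subgroup.closure_induction with
  | mem x hx => exact hinv x hx
  | one => exact SlashAction.slash_one k F
  | mul x y _ _ hx hy => rw [SlashAction.slash_mul, hx, hy]
  | inv x _ hx =>
    have : (F ∣[k] x) ∣[k] x⁻¹ = F := by
      rw [← SlashAction.slash_mul, mul_inv_cancel, SlashAction.slash_one]
    rw [hx] at this
    exact this

/-- **F1**: a holomorphic function on `ℍ` which is weight-`k` invariant under a set of elements of
`SL(2,ℤ)` whose closure contains `Γ₀(N)` and all of whose `SL(2,ℤ)`-translates are bounded at `i∞`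
is a modular form of level `Γ₀(N)`. -/
theorem exists_modularForm_of_le_closure (N : ℕ) [NeZero N] (k : ℤ) (F : ℍ → ℂ)
    (hol : MDiff F) (gens : Set SL(2,ℤ))
    (hgens : Gamma0 N ≤ Subgroup.closure gens)
    (hinv : ∀ g ∈ gens, F ∣[k] g = F)
    (hbdd : ∀ γ : SL(2,ℤ), IsBoundedAtImInfty (F ∣[k] γ)) :
    ∃ f : ModularForm (Gamma0 N) k, ⇑f = F := by
  have hΓ : ∀ g ∈ Gamma0 N, F ∣[k] g = F := by
    intro g hg
    exact slash_eq_of_mem_closure k F gens hinv g (hgens hg)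
  refine ⟨{ toFun := F, slash_action_eq' := ?_, holo' := hol, bdd_at_cusps' := ?_ }, rfl⟩
  · rintro _ ⟨δ, hδ, rfl⟩
    exact hΓ δ hδ
  · intro c hc
    rw [Subgroup.IsArithmetic.isCusp_iff_isCusp_SL2Z] at hc
    rw [OnePoint.isBoundedAt_iff_forall_SL2Z hc]
    intro γ _
    exact hbdd γ

/-- **F1**, equality form. -/
theorem exists_modularForm_of_closure (N : ℕ) [NeZero N] (k : ℤ) (F : ℍ → ℂ)
    (hol : MDiff F) (gens : Set SL(2,ℤ))
    (hgens : Subgroup.closure gens = Gamma0 N)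
    (hinv : ∀ g ∈ gens, F ∣[k] g = F)
    (hbdd : ∀ γ : SL(2,ℤ), IsBoundedAtImInfty (F ∣[k] γ)) :
    ∃ f : ModularForm (Gamma0 N) k, ⇑f = F :=
  exists_modularForm_of_le_closure N k F hol gens hgens.ge hinv hbdd

/-! ### F2 -/

/-- **F2**: uniqueness of the `q`-expansion (in `q = e^{2πiτ}`) at level `Γ₀(N)`. -/
theorem qExpansion_coeff_of_hasSum (N : ℕ) (k : ℤ) (f : ModularForm (Gamma0 N) k) (a : ℕ → ℂ)
    (h : ∀ τ : ℍ, HasSum (fun n => a n * Function.Periodic.qParam 1 τ ^ n) (f τ)) (n : ℕ) :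
    (qExpansion 1 f).coeff n = a n := by
  have h' : ∀ τ : ℍ, HasSum (fun n => a n • Function.Periodic.qParam 1 τ ^ n) (f τ) := by
    intro τ
    simpa [smul_eq_mul] using h τ
  exact (ModularFormClass.qExpansion_coeff_unique (by norm_num)
    (CongruenceSubgroup.one_mem_strictPeriods_Gamma0 N) h' n).symm


/-! ### F3 -/

/-- Coset decomposition `SL₂(ℤ) = Γ₀(p) ⊔ Γ₀(p) S T^ℤ` for a prime `p`. -/
theorem mem_Gamma0_or_exists_S_T (p : ℕ) [Fact p.Prime] (γ : SL(2,ℤ)) :
    γ ∈ Gamma0 p ∨ ∃ δ ∈ Gamma0 p, ∃ j : ℤ, γ = δ * ModularGroup.S * ModularGroup.T ^ j := by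
  by_cases hc : ((γ 1 0 : ℤ) : ZMod p) = 0
  · exact Or.inl (Gamma0_mem.mpr hc)
  · right
    -- choose `j` with `d ≡ j c (mod p)`
    set c : ZMod p := ((γ 1 0 : ℤ) : ZMod p) with hcdef
    set d : ZMod p := ((γ 1 1 : ℤ) : ZMod p) with hddef
    obtain ⟨j, hj⟩ : ∃ j : ℤ, (j : ZMod p) = d * c⁻¹ := ZMod.intCast_surjective _
    refine ⟨γ * ModularGroup.T ^ (-j) * ModularGroup.S⁻¹, ?_, j, ?_⟩
    · rw [Gamma0_mem]
      have h1 : (γ * ModularGroup.T ^ (-j) * ModularGroup.S⁻¹) 1 0 = -(γ 1 1 - j * γ 1 0) := by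
        rw [Matrix.SpecialLinearGroup.coe_mul, Matrix.SpecialLinearGroup.coe_mul,
          ModularGroup.coe_T_zpow, Matrix.SpecialLinearGroup.coe_inv]
        simp [ModularGroup.S, Matrix.mul_apply, Fin.sum_univ_two, Matrix.adjugate_fin_two]
        ring
      rw [h1]
      push_cast
      rw [hj, ← hcdef, ← hddef, mul_assoc, inv_mul_cancel₀ hc, mul_one, sub_self, neg_zero]
    · rw [mul_assoc (γ * ModularGroup.T ^ (-j)), inv_mul_cancel, mul_one, mul_assoc,
        ← zpow_add, neg_add_cancel, zpow_zero, mul_one]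

section
variable {Γ : Subgroup SL(2, ℤ)} [Γ.FiniteIndex] {k : ℤ}

theorem cst_mul_T_inv (f : ModularForm Γ k) (γ : SL(2, ℤ)) :
    cst f (γ * ModularGroup.T⁻¹) = cst f γ := by
  have := cst_mul_T f (γ * ModularGroup.T⁻¹)
  rwa [mul_assoc, inv_mul_cancel, mul_one, eq_comm] at this

theorem cst_mul_T_zpow (f : ModularForm Γ k) (γ : SL(2, ℤ)) (n : ℤ) :
    cst f (γ * ModularGroup.T ^ n) = cst f γ := by
  induction n using Int.induction_on with
  | zero => simp
  | succ n ih => rw [zpow_add_one, ← mul_assoc, cst_mul_T, ih]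
  | pred n ih => rw [zpow_sub_one, ← mul_assoc, cst_mul_T_inv, ih]

end

attribute [local instance] Subgroup.fintypeQuotientOfFiniteIndex

/-- For a prime `p`, every constant term of `g ∈ M₂(Γ₀(p))` is the one at `∞` or the one at `0`. -/
theorem cst_eq_one_or_S (p : ℕ) [Fact p.Prime] (g : ModularForm (Gamma0 p) 2) (γ : SL(2,ℤ)) :
    (γ ∈ Gamma0 p ∧ cst g γ = cst g 1) ∨ (γ ∉ Gamma0 p ∧ cst g γ = cst g ModularGroup.S) := by
  have : NeZero p := ⟨(Fact.out : p.Prime).ne_zero⟩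
  by_cases hγ : γ ∈ Gamma0 p
  · left
    refine ⟨hγ, ?_⟩
    have := cst_mul_left_of_mem g hγ 1
    rwa [mul_one] at this
  · right
    refine ⟨hγ, ?_⟩
    rcases mem_Gamma0_or_exists_S_T p γ with h | ⟨δ, hδ, j, rfl⟩
    · exact absurd h hγ
    · rw [cst_mul_T_zpow, cst_mul_left_of_mem g hδ]

/-- **F3**: for a prime `p`, a weight-2 modular form on `Γ₀(p)` whose constant term at `∞`
vanishes is a cusp form. -/
theorem exists_cuspForm_of_cst_one_eq_zero (p : ℕ) [Fact p.Prime] (g : ModularForm (Gamma0 p) 2)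
    (h0 : cst g 1 = 0) : ∃ s : CuspForm (Gamma0 p) 2, CuspForm.toModularFormₗ s = g := by
  have : NeZero p := ⟨(Fact.out : p.Prime).ne_zero⟩
  classical
  apply exists_cuspForm_of_cst_eq_zero
  -- it suffices to show that the constant term at `0` vanishes
  suffices hS : cst g ModularGroup.S = 0 by
    intro γ
    rcases cst_eq_one_or_S p g γ with ⟨_, h⟩ | ⟨_, h⟩
    · rw [h, h0]
    · rw [h, hS]
  have hsum := sum_cstQ_eq_zero g
  have hx : ∀ x : SL(2,ℤ) ⧸ Gamma0 p,
      cstQ g x = if (x.out)⁻¹ ∈ Gamma0 p then 0 else cst g ModularGroup.S := by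
    intro x
    have hxo : cstQ g x = cst g (x.out)⁻¹ := by
      conv_lhs => rw [← QuotientGroup.out_eq' x]
      rfl
    rw [hxo]
    rcases cst_eq_one_or_S p g (x.out)⁻¹ with ⟨h1, h⟩ | ⟨h1, h⟩
    · rw [if_pos h1, h, h0]
    · rw [if_neg h1, h]
  simp_rw [hx] at hsum
  rw [Finset.sum_ite, Finset.sum_const_zero, zero_add, Finset.sum_const, nsmul_eq_mul] at hsum
  rcases mul_eq_zero.mp hsum with h | h
  · exfalso
    have hcard : (Finset.univ.filter
        (fun x : SL(2,ℤ) ⧸ Gamma0 p => ¬ (x.out)⁻¹ ∈ Gamma0 p)).card ≠ 0 := by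
      rw [Finset.card_ne_zero]
      refine ⟨((ModularGroup.S⁻¹ : SL(2,ℤ)) : SL(2,ℤ) ⧸ Gamma0 p), ?_⟩
      rw [Finset.mem_filter]
      refine ⟨Finset.mem_univ _, ?_⟩
      intro hmem
      -- `out [S⁻¹] = S⁻¹ δ` with `δ ∈ Γ₀(p)`
      have hrel : (ModularGroup.S⁻¹)⁻¹ *
          (((ModularGroup.S⁻¹ : SL(2,ℤ)) : SL(2,ℤ) ⧸ Gamma0 p).out) ∈ Gamma0 p := by
        rw [← QuotientGroup.eq]
        exact (QuotientGroup.out_eq' _).symm
      rw [inv_inv] at hrel
      have hS : ModularGroup.S ∈ Gamma0 p := by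
        have := (Gamma0 p).mul_mem hrel hmem
        rwa [mul_assoc, mul_inv_cancel, mul_one] at this
      rw [Gamma0_mem] at hS
      have : Fact (1 < p) := ⟨(Fact.out : p.Prime).one_lt⟩
      simp [ModularGroup.S] at hS
    exact hcard (by exact_mod_cast h)
  · exact h


/-- The constant term at `∞` is the zeroth `q`-expansion coefficient. -/
theorem cst_one_eq_qExpansion_coeff_zero (N : ℕ) [NeZero N] (k : ℤ)
    (g : ModularForm (Gamma0 N) k) : cst g 1 = (qExpansion 1 g).coeff 0 := by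
  have hΓ := CongruenceSubgroup.one_mem_strictPeriods_Gamma0 N
  have h1 : (0 : ℝ) < 1 := one_pos
  rw [qExpansion_coeff_zero h1 (ModularFormClass.analyticAt_cuspFunction_zero g h1 hΓ)
    (SlashInvariantFormClass.periodic_comp_ofComplex g hΓ)]
  unfold cst
  congr 1
  exact SlashAction.slash_one k _

/-- **F3**, `q`-expansion form: for a prime `p`, a weight-2 modular form on `Γ₀(p)` whose zeroth
`q`-expansion coefficient vanishes is a cusp form (with the same underlying function, hence the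
same `q`-expansion). -/
theorem exists_cuspForm_of_qExpansion_coeff_zero (p : ℕ) [Fact p.Prime]
    (g : ModularForm (Gamma0 p) 2) (h0 : (qExpansion 1 g).coeff 0 = 0) :
    ∃ s : CuspForm (Gamma0 p) 2, (⇑s : ℍ → ℂ) = ⇑g := by
  have : NeZero p := ⟨(Fact.out : p.Prime).ne_zero⟩
  obtain ⟨s, hs⟩ := exists_cuspForm_of_cst_one_eq_zero p g
    (by rw [cst_one_eq_qExpansion_coeff_zero, h0])
  refine ⟨s, ?_⟩
  funext τ
  have := congrArg (fun f : ModularForm (Gamma0 p) 2 => f τ) hs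
  simpa using this

/-! ### Θ-f, conditional form -/

/-- A finite combination of the `θ_d` of a `WeilData` is bounded at `i∞`. -/
theorem isBoundedAtImInfty_sum_theta {p : ℕ} {D : Type} [AddCommGroup D] [Fintype D]
    (W : WeilData p D) (a : D → ℂ) :
    IsBoundedAtImInfty (fun τ : ℍ => ∑ d, a d * W.θ d τ) := by
  classical
  have hlim : ∀ d, ∃ c : ℂ, Filter.Tendsto (W.θ d) atImInfty (nhds c) := by
    intro d
    by_cases hd : d = 0
    · exact ⟨1, hd ▸ W.θ_lim_zero⟩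
    · exact ⟨0, W.θ_lim_ne d hd⟩
  choose c hc using hlim
  have h : Filter.Tendsto (fun τ : ℍ => ∑ d, a d * W.θ d τ) atImInfty
      (nhds (∑ d, a d * c d)) :=
    tendsto_finsetSum _ (fun d _ => (hc d).const_mul (a d))
  exact h.isBigO_one ℝ

/-- **Θ-f, conditional form**: the abstract inputs of packages Θ-b, Θ-c, Θ-d give the modular form
`Θ = θ₀ ∈ M₂(Γ₀(p))` with `a₀ = 1`, `aₙ` even. -/
theorem exists_thetaForm_of_weilData (p : ℕ) [NeZero p] {D : Type} [AddCommGroup D] [Fintype D]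
    (W : WeilData p D) (r : ℕ → ℕ)
    (hsum : ∀ τ : ℍ, HasSum (fun n : ℕ => (r n : ℂ) * Complex.exp (2 * π * Complex.I * n * τ)) (W.θ 0 τ))
    (hr0 : r 0 = 1) (hreven : ∀ n : ℕ, 1 ≤ n → Even (r n))
    (hmd : MDiff (W.θ 0))
    (gens : Set SL(2,ℤ)) (hgens : Gamma0 p ≤ Subgroup.closure gens)
    (hinv : ∀ g ∈ gens, (W.θ 0) ∣[(2 : ℤ)] g = W.θ 0)
    (hspan : ∀ γ : SL(2,ℤ), ∃ a : D → ℂ, (W.θ 0) ∣[(2 : ℤ)] γ = fun τ => ∑ d, a d * W.θ d τ) :
    ∃ Θ : ModularForm (Gamma0 p) 2, (Θ : ℍ → ℂ) = W.θ 0 ∧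
      (qExpansion 1 (Θ : ℍ → ℂ)).coeff 0 = 1 ∧
      ∀ n : ℕ, 1 ≤ n → ∃ b : ℤ, (qExpansion 1 (Θ : ℍ → ℂ)).coeff n = 2 * (b : ℂ) := by
  obtain ⟨Θ, hΘ⟩ := exists_modularForm_of_le_closure p 2 (W.θ 0) hmd gens hgens hinv (by
    intro γ
    obtain ⟨a, ha⟩ := hspan γ
    rw [ha]
    exact isBoundedAtImInfty_sum_theta W a)
  have hcoeff : ∀ n, (qExpansion 1 (Θ : ℍ → ℂ)).coeff n = (r n : ℂ) := by
    apply qExpansion_coeff_of_hasSum p 2 Θ (fun n => (r n : ℂ))
    intro τ
    have := hsum τ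
    rw [← hΘ] at this
    convert this using 2 with n
    congr 1
    rw [Function.Periodic.qParam, ← Complex.exp_nat_mul]
    congr 1
    push_cast
    ring
  refine ⟨Θ, hΘ, ?_, ?_⟩
  · rw [hcoeff, hr0]; simp
  · intro n hn
    obtain ⟨b, hb⟩ := hreven n hn
    refine ⟨b, ?_⟩
    rw [hcoeff, hb]
    push_cast
    ring

end Fermat.Agent.S16.Theta.Form
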