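/-
T16 / LB-Θ package Θ-b, q-expansion tail (helper77): `θ_0 = Σ r(n) qⁿ`, `r(0) = 1`, `r(n)` even.
The statements `hasSum_theta_zero`, `rep_zero`, `even_rep` are those of `Theta/Skeleton.lean` section b.
Summability of the theta series is taken from `LatticeThetaSummable.lean` (helper84); the
`_of_summable` versions take it as a hypothesis.
namespace Fermat.Agent.S16.Theta.QuatLattice
-/
import Fermat.Agent.S16.Theta.Defs
import Fermat.Agent.S16.Theta.LatticeThetaSummable
import Fermat.Agent.S16.Theta.DiscGroup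

set_option autoImplicit false

open Complex Matrix
open scoped UpperHalfPlane Real

namespace Fermat.Agent.S16.Theta

namespace QuatLattice

variable {p : ℕ} (L : QuatLattice p)

/-- the integral quadratic form `2 Q(x) = xᵀ A x` -/
def qq (x : Fin 4 → ℤ) : ℤ := x ⬝ᵥ L.A.mulVec x

theorem shift_zero (x : Fin 4 → ℤ) : L.shift 0 x = fun i => (x i : ℝ) := by
  funext i
  simp [shift]

theorem Qr_shift_zero_eq (x : Fin 4 → ℤ) : L.Qr (L.shift 0 x) = ((L.qq x : ℤ) : ℝ) / 2 := by
  rw [L.shift_zero, Qr, qq, AR]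
  have : ((x ⬝ᵥ L.A.mulVec x : ℤ) : ℝ) =
      (fun i => (x i : ℝ)) ⬝ᵥ (L.A.map (Int.cast : ℤ → ℝ)).mulVec (fun i => (x i : ℝ)) := by
    simp only [dotProduct, mulVec, Matrix.map_apply]
    push_cast
    rfl
  rw [this]
  ring

theorem qq_pos {x : Fin 4 → ℤ} (hx : x ≠ 0) : 0 < L.qq x := by
  have hx' : (fun i => (x i : ℝ)) ≠ 0 := by
    intro h
    apply hx
    funext i
    have := congrFun h i
    simpa using this
  have h := L.posDef.dotProduct_mulVec_pos hx'
  rw [star_trivial] at h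
  have hcast : ((L.qq x : ℤ) : ℝ) =
      (fun i => (x i : ℝ)) ⬝ᵥ (L.A.map (Int.cast : ℤ → ℝ)).mulVec (fun i => (x i : ℝ)) := by
    simp only [qq, dotProduct, mulVec, Matrix.map_apply]
    push_cast
    rfl
  rw [← hcast] at h
  exact_mod_cast h

theorem qq_zero : L.qq 0 = 0 := by simp [qq]

theorem qq_nonneg (x : Fin 4 → ℤ) : 0 ≤ L.qq x := by
  by_cases hx : x = 0
  · rw [hx, qq_zero]
  · exact (L.qq_pos hx).le

theorem qq_eq_zero_iff {x : Fin 4 → ℤ} : L.qq x = 0 ↔ x = 0 := by
  constructor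
  · intro h
    by_contra hx
    exact (L.qq_pos hx).ne' h
  · rintro rfl
    exact L.qq_zero

theorem qq_neg (x : Fin 4 → ℤ) : L.qq (-x) = L.qq x := by
  simp [qq, Matrix.mulVec_neg]

theorem even_qq (x : Fin 4 → ℤ) : Even (L.qq x) := L.even_quadForm x

/-- `Q(x) = ½ xᵀ A x` as a natural number -/
def nn (x : Fin 4 → ℤ) : ℕ := (L.qq x / 2).toNat

theorem two_mul_nn (x : Fin 4 → ℤ) : (2 * (L.nn x : ℤ)) = L.qq x := by
  obtain ⟨c, hc⟩ := L.even_qq x
  have h0 := L.qq_nonneg x
  have hc0 : 0 ≤ c := by omega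
  rw [nn, hc]
  have : (c + c) / 2 = c := by omega
  rw [this, Int.toNat_of_nonneg hc0]
  ring

theorem nn_eq_iff (x : Fin 4 → ℤ) (n : ℕ) : L.nn x = n ↔ L.qq x = 2 * (n : ℤ) := by
  rw [← L.two_mul_nn x]
  constructor
  · intro h; rw [h]
  · intro h
    have : (L.nn x : ℤ) = n := by omega
    exact_mod_cast this

theorem term_eq (τ : ℂ) (x : Fin 4 → ℤ) :
    cexp (2 * π * I * τ * L.Qr (L.shift 0 x)) = cexp (2 * π * I * (L.nn x : ℕ) * τ) := by
  rw [L.Qr_shift_zero_eq, ← L.two_mul_nn x]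
  congr 1
  push_cast
  ring

/-- finiteness of the fibres of `Q`, from summability of the theta series at one point. -/
theorem finite_fibre_of_summable (τ : ℍ)
    (hsum : Summable fun x : Fin 4 → ℤ => cexp (2 * π * I * τ * L.Qr (L.shift 0 x))) (n : ℕ) :
    {x : Fin 4 → ℤ | L.nn x = n}.Finite := by
  set ε : ℝ := ‖cexp (2 * π * I * (n : ℕ) * τ)‖ with hε
  have hεpos : 0 < ε := by rw [hε]; exact norm_pos_iff.2 (Complex.exp_ne_zero _)
  have hev := (hsum.norm.tendsto_cofinite_zero).eventually (gt_mem_nhds hεpos)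
  rw [Filter.eventually_cofinite] at hev
  refine hev.subset ?_
  intro x hx
  simp only [Set.mem_setOf_eq] at hx ⊢
  rw [L.term_eq, hx]
  exact lt_irrefl _

/-- `θ_0 = Σ r(n) qⁿ`, given summability. -/
theorem hasSum_theta_zero_of_summable (τ : ℍ)
    (hsum : Summable fun x : Fin 4 → ℤ => cexp (2 * π * I * τ * L.Qr (L.shift 0 x))) :
    HasSum (fun n : ℕ => (L.rep n : ℂ) * cexp (2 * π * I * n * τ)) (L.theta 0 τ) := by
  have h1 : HasSum (fun x : Fin 4 → ℤ => cexp (2 * π * I * τ * L.Qr (L.shift 0 x)))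
      (L.theta 0 τ) := hsum.hasSum
  have h2 : HasSum (fun y : (Σ n : ℕ, {x : Fin 4 → ℤ // L.nn x = n}) =>
      cexp (2 * π * I * τ * L.Qr (L.shift 0 (Equiv.sigmaFiberEquiv L.nn y)))) (L.theta 0 τ) :=
    (Equiv.sigmaFiberEquiv L.nn).hasSum_iff.2 h1
  refine h2.sigma ?_
  intro n
  haveI : Finite {x : Fin 4 → ℤ // L.nn x = n} := (L.finite_fibre_of_summable τ hsum n).to_subtype
  haveI : Fintype {x : Fin 4 → ℤ // L.nn x = n} := Fintype.ofFinite _
  have hterm : ∀ c : {x : Fin 4 → ℤ // L.nn x = n},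
      cexp (2 * π * I * τ * L.Qr (L.shift 0 (Equiv.sigmaFiberEquiv L.nn ⟨n, c⟩))) =
        cexp (2 * π * I * n * τ) := by
    intro c
    have : Equiv.sigmaFiberEquiv L.nn ⟨n, c⟩ = c.1 := rfl
    rw [this, L.term_eq, c.2]
  simp_rw [hterm]
  have hrep : (L.rep n : ℂ) = (Fintype.card {x : Fin 4 → ℤ // L.nn x = n} : ℂ) := by
    rw [rep, ← Nat.card_eq_fintype_card]
    congr 1
    exact Nat.card_congr (Equiv.subtypeEquivRight fun x => ((L.nn_eq_iff x n).symm))
  rw [hrep]
  have := hasSum_fintype (fun _ : {x : Fin 4 → ℤ // L.nn x = n} => cexp (2 * π * I * n * τ))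
  simpa [Finset.sum_const, nsmul_eq_mul] using this

theorem rep_zero' : L.rep 0 = 1 := by
  rw [rep]
  haveI : Unique {x : Fin 4 → ℤ // x ⬝ᵥ L.A.mulVec x = 2 * ((0 : ℕ) : ℤ)} :=
    { default := ⟨0, by simp⟩
      uniq := by
        rintro ⟨x, hx⟩
        apply Subtype.ext
        have : L.qq x = 0 := by simpa [qq] using hx
        exact L.qq_eq_zero_iff.1 this }
  exact Nat.card_unique

/-- `r(n)` is even for `n ≥ 1`, given finiteness of the fibre. -/
theorem even_rep_of_finite (n : ℕ) (hn : 1 ≤ n)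
    (hfin : {x : Fin 4 → ℤ | L.nn x = n}.Finite) : Even (L.rep n) := by
  classical
  have hrep : L.rep n = hfin.toFinset.card := by
    rw [rep, ← Set.ncard_eq_toFinset_card _ hfin, ← Nat.card_coe_set_eq]
    exact Nat.card_congr (Equiv.subtypeEquivRight fun x => ((L.nn_eq_iff x n).symm))
  rw [hrep, ← ZMod.natCast_eq_zero_iff_even]
  have hsum : ∑ x ∈ hfin.toFinset, (1 : ZMod 2) = 0 := by
    refine Finset.sum_involution (fun x _ => -x) ?_ ?_ ?_ ?_
    · intro x _
      exact (by decide : (1 : ZMod 2) + 1 = 0)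
    · intro x hx _ hneg
      have hx' : L.nn x = n := by simpa using hx
      have hx0 : x = 0 := by
        funext i
        have := congrFun hneg i
        simp only [Pi.neg_apply, Pi.zero_apply] at this ⊢
        omega
      have : L.qq x = 2 * (n : ℤ) := (L.nn_eq_iff x n).1 hx'
      rw [hx0, L.qq_zero] at this
      omega
    · intro x hx
      have hx' : L.nn x = n := by simpa using hx
      have : L.nn (-x) = n := by
        rw [L.nn_eq_iff, L.qq_neg]
        exact (L.nn_eq_iff x n).1 hx'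
      simpa using this
    · intro x _
      simp
  simpa using hsum

end QuatLattice

/-! ### the statements of `Theta/Skeleton.lean`, section b -/

section Final

variable {p : ℕ} (L : QuatLattice p)

/-- `θ_0 = Σ r(n) qⁿ` -/
theorem hasSum_theta_zero (_hp : 0 < p) (τ : ℍ) :
    HasSum (fun n : ℕ => (L.rep n : ℂ) * cexp (2 * π * I * n * τ)) (L.theta 0 τ) :=
  L.hasSum_theta_zero_of_summable τ (L.summable_term 0 τ)

theorem rep_zero (_hp : 0 < p) : L.rep 0 = 1 := L.rep_zero'

theorem even_rep (_hp : 0 < p) (n : ℕ) (hn : 1 ≤ n) : Even (L.rep n) :=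
  L.even_rep_of_finite n hn
    (L.finite_fibre_of_summable UpperHalfPlane.I (L.summable_term 0 UpperHalfPlane.I) n)

end Final

end Fermat.Agent.S16.Theta
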