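/-
T16 / LB-Θ, package Θ-e (helper83): existence of even positive definite quaternary lattices of
determinant `p ^ 2` and level `p`, for every prime `p`.  Mathlib only.

* `p ≡ 3 mod 4` : `A = B ⊕ B`, `B = [[2,1],[1,(p+1)/2]]`.
* `p ≡ 1 mod 4` (and `p = 2`): the four-parameter family `famA p u a s` with
  `(4u-1) s = 1 + a² p`  (Gram matrix of the lattice `ℤ(1+j)/2 + ℤ(i+k)/2 + ℤ(j+ak)/q + ℤk` in the
  quaternion algebra `(-p,-q)`, `q = 4u-1`; the ring structure is never used).  The parameters exist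
  by Dirichlet's theorem and quadratic reciprocity.
-/
import Mathlib
import Fermat.Agent.S16.Theta.Defs

namespace Fermat.Agent.S16.Theta

open Matrix

/-- An even positive definite quaternary lattice of determinant `p^2` and level `p`, given by its
Gram matrix `A` and the integral matrix `Adj = p A⁻¹`. -/
structure QuatLatticeData (p : ℕ) where
  /-- the Gram matrix -/
  A : Matrix (Fin 4) (Fin 4) ℤ
  /-- `p` times the inverse of the Gram matrix -/
  Adj : Matrix (Fin 4) (Fin 4) ℤ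
  isSymm : A.IsSymm
  adj_isSymm : Adj.IsSymm
  even_diag : ∀ i, Even (A i i)
  adj_even_diag : ∀ i, Even (Adj i i)
  mul_adj : A * Adj = (p : ℤ) • (1 : Matrix (Fin 4) (Fin 4) ℤ)
  adj_mul : Adj * A = (p : ℤ) • (1 : Matrix (Fin 4) (Fin 4) ℤ)
  det_eq : A.det = (p : ℤ) ^ 2
  posDef : (A.map (Int.cast : ℤ → ℝ)).PosDef

/-! ### Positivity and determinant from an integral diagonalisation `R A Rᵀ = D` -/

theorem posDef_of_conj_diagonal (R A : Matrix (Fin 4) (Fin 4) ℤ) (d : Fin 4 → ℤ)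
    (hd : ∀ i, 0 < d i) (hR : R.det ≠ 0) (h : R * A * Rᵀ = diagonal d) :
    (A.map (Int.cast : ℤ → ℝ)).PosDef := by
  set U : Matrix (Fin 4) (Fin 4) ℝ := R.map (Int.cast : ℤ → ℝ) with hU
  have hUunit : IsUnit U := by
    rw [Matrix.isUnit_iff_isUnit_det]
    have : U.det = ((R.det : ℤ) : ℝ) := by
      rw [hU]; exact (Int.cast_det (R := ℝ) R).symm
    rw [this, isUnit_iff_ne_zero]
    exact_mod_cast hR
  have hmap : U * A.map (Int.cast : ℤ → ℝ) * star U
      = diagonal (fun i => ((d i : ℤ) : ℝ)) := by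
    have h1 : (R * A * Rᵀ).map (Int.cast : ℤ → ℝ) = (diagonal d).map (Int.cast : ℤ → ℝ) := by
      rw [h]
    rw [show (R * A * Rᵀ).map (Int.cast : ℤ → ℝ)
        = (Int.castRingHom ℝ).mapMatrix (R * A * Rᵀ) from rfl, map_mul, map_mul] at h1
    rw [show (diagonal d).map (Int.cast : ℤ → ℝ) = diagonal (fun i => ((d i : ℤ) : ℝ)) by
      ext i j; by_cases hij : i = j <;> simp [diagonal, hij]] at h1
    rw [← h1, hU]
    congr 1
  rw [← hUunit.posDef_star_right_conjugate_iff, hmap]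
  exact Matrix.PosDef.diagonal (fun i => by exact_mod_cast hd i)

theorem det_of_conj_diagonal (R A : Matrix (Fin 4) (Fin 4) ℤ) (d : Fin 4 → ℤ)
    (h : R * A * Rᵀ = diagonal d) : R.det ^ 2 * A.det = ∏ i, d i := by
  have := congrArg Matrix.det h
  rw [det_mul, det_mul, det_transpose, det_diagonal] at this
  rw [← this]; ring


/-! ### The family for `p ≡ 1 mod 4` -/

/-- Gram matrix of the lattice `ℤ(1+j)/2 + ℤ(i+k)/2 + ℤ(j+ak)/q + ℤk`, `q = 4u-1`, `q s = 1 + a² p`,
for the norm form `2 (x₀² + p x₁² + q x₂² + p q x₃²)`. -/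
def famA (p u a s : ℤ) : Matrix (Fin 4) (Fin 4) ℤ :=
  !![2 * u, 0, 1, 0;
     0, 2 * p * u, p * a, p * (4 * u - 1);
     1, p * a, 2 * s, 2 * p * a;
     0, p * (4 * u - 1), 2 * p * a, 2 * p * (4 * u - 1)]

/-- `p` times the inverse of `famA`. -/
def famAdj (p u a s : ℤ) : Matrix (Fin 4) (Fin 4) ℤ :=
  !![2 * p, 0, -(p * (4 * u - 1)), p * a;
     0, 2, 0, -1;
     -(p * (4 * u - 1)), 0, 2 * p * (4 * u - 1) * u, -(2 * p * a * u);
     p * a, -1, -(2 * p * a * u), 2 * s * u]

/-- The integral change of basis diagonalising `famA`. -/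
def famR (u a : ℤ) : Matrix (Fin 4) (Fin 4) ℤ :=
  !![2, 0, -(4 * u - 1), a;
     0, 2, 0, -1;
     0, 0, 4 * u - 1, -a;
     0, 0, 0, 1]

/-- The diagonal form of `famA`. -/
def famD (p u : ℤ) : Fin 4 → ℤ := ![2, 2 * p, 2 * (4 * u - 1), 2 * p * (4 * u - 1)]

theorem famA_mul_famAdj (p u a s : ℤ) (h : (4 * u - 1) * s = 1 + a ^ 2 * p) :
    famA p u a s * famAdj p u a s = p • (1 : Matrix (Fin 4) (Fin 4) ℤ) := by
  ext i j
  fin_cases i <;> fin_cases j <;>
    simp [famA, famAdj, Matrix.mul_apply, Fin.sum_univ_four] <;>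
    first
      | ring1
      | linear_combination (2 * p * u) * h
      | linear_combination (-2 * p) * h
      | linear_combination (4 * p * u) * h

theorem famAdj_mul_famA (p u a s : ℤ) (h : (4 * u - 1) * s = 1 + a ^ 2 * p) :
    famAdj p u a s * famA p u a s = p • (1 : Matrix (Fin 4) (Fin 4) ℤ) := by
  ext i j
  fin_cases i <;> fin_cases j <;>
    simp [famA, famAdj, Matrix.mul_apply, Fin.sum_univ_four] <;>
    first
      | ring1
      | linear_combination (2 * p * u) * h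
      | linear_combination (-2 * p) * h
      | linear_combination (4 * p * u) * h

theorem famR_conj (p u a s : ℤ) (h : (4 * u - 1) * s = 1 + a ^ 2 * p) :
    famR u a * famA p u a s * (famR u a)ᵀ = diagonal (famD p u) := by
  ext i j
  fin_cases i <;> fin_cases j <;>
    simp [famA, famR, famD, Matrix.mul_apply, Fin.sum_univ_four] <;>
    first
      | ring1
      | linear_combination (2 * (4 * u - 1)) * h
      | linear_combination (-2 * (4 * u - 1)) * h


theorem det_famR (u a : ℤ) : (famR u a).det = 4 * (4 * u - 1) := by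
  simp [famR, Matrix.det_succ_row_zero, Fin.sum_univ_succ]
  ring

/-- The lattice of the family, for a natural number `p ≥ 1` and parameters `u ≥ 1`, `a`, `s` with
`(4u-1) s = 1 + a² p`. -/
noncomputable def famLattice (p : ℕ) (hp : 0 < p) (u a s : ℤ) (hu : 0 < u)
    (h : (4 * u - 1) * s = 1 + a ^ 2 * (p : ℤ)) : QuatLatticeData p where
  A := famA p u a s
  Adj := famAdj p u a s
  isSymm := by
    ext i j
    fin_cases i <;> fin_cases j <;> simp [famA]
  adj_isSymm := by
    ext i j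
    fin_cases i <;> fin_cases j <;> simp [famAdj]
  even_diag := by
    intro i
    fin_cases i
    · exact ⟨u, by simp [famA]; ring⟩
    · exact ⟨p * u, by simp [famA]; ring⟩
    · exact ⟨s, by simp [famA]; ring⟩
    · exact ⟨p * (4 * u - 1), by simp [famA]; ring⟩
  adj_even_diag := by
    intro i
    fin_cases i
    · exact ⟨p, by simp [famAdj]; ring⟩
    · exact ⟨1, by simp [famAdj]⟩
    · exact ⟨p * (4 * u - 1) * u, by simp [famAdj]; ring⟩
    · exact ⟨s * u, by simp [famAdj]; ring⟩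
  mul_adj := famA_mul_famAdj p u a s h
  adj_mul := famAdj_mul_famA p u a s h
  det_eq := by
    have h1 := det_of_conj_diagonal _ _ _ (famR_conj p u a s h)
    rw [det_famR] at h1
    have h2 : ∏ i, famD (p : ℤ) u i = (4 * (4 * u - 1)) ^ 2 * ((p : ℤ) ^ 2) := by
      simp [famD, Fin.prod_univ_four]; ring
    rw [h2] at h1
    have h3 : (4 * (4 * u - 1)) ^ 2 ≠ (0 : ℤ) := by
      have : (0 : ℤ) < 4 * (4 * u - 1) := by linarith
      positivity
    exact mul_left_cancel₀ h3 h1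
  posDef := by
    refine posDef_of_conj_diagonal (famR u a) _ (famD p u) ?_ ?_ (famR_conj p u a s h)
    · have hp' : (0 : ℤ) < p := by exact_mod_cast hp
      have hq : (0 : ℤ) < 4 * u - 1 := by linarith
      intro i
      fin_cases i
      · simp [famD]
      · simp [famD]; positivity
      · simp [famD]; linarith
      · simp [famD]; positivity
    · rw [det_famR]
      have : (0 : ℤ) < 4 * (4 * u - 1) := by linarith
      exact this.ne'


/-! ### The lattice `B ⊕ B` for `p = 4 m + 3` -/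

/-- `B ⊕ B` with `B = [[2,1],[1,2(m+1)]]`, of determinant `(4m+3)^2`. -/
def bbA (m : ℤ) : Matrix (Fin 4) (Fin 4) ℤ :=
  !![2, 1, 0, 0;
     1, 2 * (m + 1), 0, 0;
     0, 0, 2, 1;
     0, 0, 1, 2 * (m + 1)]

/-- `(4m+3)` times the inverse of `bbA m`. -/
def bbAdj (m : ℤ) : Matrix (Fin 4) (Fin 4) ℤ :=
  !![2 * (m + 1), -1, 0, 0;
     -1, 2, 0, 0;
     0, 0, 2 * (m + 1), -1;
     0, 0, -1, 2]

/-- The integral change of basis diagonalising `bbA`. -/
def bbR : Matrix (Fin 4) (Fin 4) ℤ :=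
  !![1, 0, 0, 0;
     -1, 2, 0, 0;
     0, 0, 1, 0;
     0, 0, -1, 2]

/-- The diagonal form of `bbA`. -/
def bbD (m : ℤ) : Fin 4 → ℤ := ![2, 2 * (4 * m + 3), 2, 2 * (4 * m + 3)]

theorem bbA_mul_bbAdj (m : ℤ) :
    bbA m * bbAdj m = (4 * m + 3) • (1 : Matrix (Fin 4) (Fin 4) ℤ) := by
  ext i j
  fin_cases i <;> fin_cases j <;>
    simp [bbA, bbAdj, Matrix.mul_apply, Fin.sum_univ_four] <;> ring1

theorem bbAdj_mul_bbA (m : ℤ) :
    bbAdj m * bbA m = (4 * m + 3) • (1 : Matrix (Fin 4) (Fin 4) ℤ) := by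
  ext i j
  fin_cases i <;> fin_cases j <;>
    simp [bbA, bbAdj, Matrix.mul_apply, Fin.sum_univ_four] <;> ring1

theorem bbR_conj (m : ℤ) : bbR * bbA m * bbRᵀ = diagonal (bbD m) := by
  ext i j
  fin_cases i <;> fin_cases j <;>
    simp [bbA, bbR, bbD, Matrix.mul_apply, Fin.sum_univ_four] <;> ring1

theorem det_bbR : bbR.det = 4 := by
  simp [bbR, Matrix.det_succ_row_zero, Fin.sum_univ_succ]

/-- The lattice `B ⊕ B` for `p = 4 m + 3`. -/
noncomputable def bbLattice (p : ℕ) (m : ℤ) (hm : 0 ≤ m) (hpm : (p : ℤ) = 4 * m + 3) :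
    QuatLatticeData p where
  A := bbA m
  Adj := bbAdj m
  isSymm := by
    ext i j
    fin_cases i <;> fin_cases j <;> simp [bbA]
  adj_isSymm := by
    ext i j
    fin_cases i <;> fin_cases j <;> simp [bbAdj]
  even_diag := by
    intro i
    fin_cases i
    · exact ⟨1, by simp [bbA]⟩
    · exact ⟨m + 1, by simp [bbA]; ring⟩
    · exact ⟨1, by simp [bbA]⟩
    · exact ⟨m + 1, by simp [bbA]; ring⟩
  adj_even_diag := by
    intro i
    fin_cases i
    · exact ⟨m + 1, by simp [bbAdj]; ring⟩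
    · exact ⟨1, by simp [bbAdj]⟩
    · exact ⟨m + 1, by simp [bbAdj]; ring⟩
    · exact ⟨1, by simp [bbAdj]⟩
  mul_adj := by rw [hpm]; exact bbA_mul_bbAdj m
  adj_mul := by rw [hpm]; exact bbAdj_mul_bbA m
  det_eq := by
    have h1 := det_of_conj_diagonal _ _ _ (bbR_conj m)
    rw [det_bbR] at h1
    have h2 : ∏ i, bbD m i = 4 ^ 2 * ((4 * m + 3) ^ 2) := by
      simp [bbD, Fin.prod_univ_four]; ring
    rw [h2] at h1
    rw [hpm]
    exact mul_left_cancel₀ (by norm_num) h1
  posDef := by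
    refine posDef_of_conj_diagonal bbR _ (bbD m) ?_ ?_ (bbR_conj m)
    · intro i
      fin_cases i
      · simp [bbD]
      · simp [bbD]; linarith
      · simp [bbD]
      · simp [bbD]; linarith
    · rw [det_bbR]; norm_num

/-! ### Existence of the parameters for `p ≡ 1 mod 4` (Dirichlet + quadratic reciprocity) -/

theorem exists_prime_three_mod_four_nonsquare (p : ℕ) [hpF : Fact p.Prime] (hp4 : p % 4 = 1) :
    ∃ q : ℕ, q.Prime ∧ q % 4 = 3 ∧ ¬ IsSquare ((q : ℤ) : ZMod p) := by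
  have hp : p.Prime := hpF.out
  have hp2 : ringChar (ZMod p) ≠ 2 := by
    rw [ZMod.ringChar_zmod_n]; omega
  obtain ⟨n0, hn0⟩ := FiniteField.exists_nonsquare hp2
  have hn00 : n0 ≠ 0 := by
    rintro rfl; exact hn0 ⟨0, by simp⟩
  have hcop : Nat.Coprime 4 p := by
    have h2 : Nat.Coprime 2 p := by
      rw [Nat.coprime_primes Nat.prime_two hp]; omega
    exact Nat.Coprime.pow_left 2 h2
  obtain ⟨c, hc4, hcp⟩ := Nat.chineseRemainder hcop 3 n0.val
  have hc4' : Nat.Coprime c 4 := by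
    have := Nat.ModEq.gcd_eq hc4
    rw [Nat.Coprime, this]
    rfl
  have hcp' : Nat.Coprime c p := by
    have := Nat.ModEq.gcd_eq hcp
    rw [Nat.Coprime, this]
    rw [Nat.gcd_comm]
    rw [← Nat.Coprime, Nat.Prime.coprime_iff_not_dvd hp]
    intro hdvd
    apply hn00
    have := (ZMod.natCast_eq_zero_iff n0.val p).mpr hdvd
    rwa [ZMod.natCast_zmod_val] at this
  have hcc : IsCoprime (c : ℤ) ((4 * p : ℕ) : ℤ) := by
    rw [Nat.isCoprime_iff_coprime]
    exact Nat.Coprime.mul_right hc4' hcp'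
  obtain ⟨q, -, hq, hqc⟩ := Nat.forall_exists_prime_gt_and_zmodEq 0 (q := 4 * p) (a := c)
    (by have := hp.pos; omega) hcc
  refine ⟨q, hq, ?_, ?_⟩
  · have h1 : (q : ℤ) ≡ c [ZMOD 4] := by
      have : ((4 * p : ℕ) : ℤ) = 4 * (p : ℤ) := by push_cast; ring
      rw [this] at hqc
      exact Int.ModEq.of_mul_right _ hqc
    have h2 : (q : ℤ) ≡ 3 [ZMOD 4] := h1.trans (by exact_mod_cast (Int.natCast_modEq_iff.mpr hc4))
    have h3 : q ≡ 3 [MOD 4] := by exact_mod_cast (Int.natCast_modEq_iff (a := q) (b := 3) (n := 4)).mp (by exact_mod_cast h2)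
    exact h3
  · have h1 : (q : ℤ) ≡ c [ZMOD p] := by
      have : ((4 * p : ℕ) : ℤ) = 4 * (p : ℤ) := by push_cast; ring
      rw [this] at hqc
      exact Int.ModEq.of_mul_left _ hqc
    have h2 : ((q : ℤ) : ZMod p) = ((c : ℤ) : ZMod p) := (ZMod.intCast_eq_intCast_iff _ _ _).mpr h1
    have h3 : ((c : ℕ) : ZMod p) = ((n0.val : ℕ) : ZMod p) := (ZMod.natCast_eq_natCast_iff _ _ _).mpr hcp
    rw [h2]
    push_cast
    rw [h3, ZMod.natCast_zmod_val]
    exact hn0


theorem exists_dvd_one_add_sq_mul (p q : ℕ) [hpF : Fact p.Prime] (hq : q.Prime) (hp4 : p % 4 = 1)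
    (hq4 : q % 4 = 3) (hns : ¬ IsSquare ((q : ℤ) : ZMod p)) :
    ∃ a s : ℤ, (q : ℤ) * s = 1 + a ^ 2 * (p : ℤ) := by
  have : Fact q.Prime := ⟨hq⟩
  have hq2 : q ≠ 2 := by rintro rfl; omega
  have hpq : p ≠ q := by rintro rfl; omega
  have h1 : legendreSym p q = -1 := (legendreSym.eq_neg_one_iff p).mpr hns
  have h2 : legendreSym q p = -1 := by
    rw [legendreSym.quadratic_reciprocity_one_mod_four hp4 hq2]; exact h1
  have h3 : legendreSym q (-1) = -1 := by
    rw [legendreSym.at_neg_one hq2, ZMod.χ₄_nat_three_mod_four hq4]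
  have h4 : legendreSym q (-1 * (p : ℤ)) = 1 := by
    rw [legendreSym.mul, h2, h3]; norm_num
  have hp0 : ((p : ℤ) : ZMod q) ≠ 0 := by
    have := ZMod.prime_ne_zero q p hpq.symm
    exact_mod_cast this
  have h50 : ((-1 * (p : ℤ) : ℤ) : ZMod q) ≠ 0 := by
    push_cast
    simpa using hp0
  obtain ⟨b, hb⟩ := (legendreSym.eq_one_iff q h50).mp h4
  have hb0 : b ≠ 0 := by
    rintro rfl
    apply h50; rw [hb]; simp
  -- a := b⁻¹
  have key : (1 : ZMod q) + (b⁻¹) ^ 2 * (p : ZMod q) = 0 := by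
    have hbp : (p : ZMod q) = - (b * b) := by
      rw [← hb]; push_cast; ring
    rw [hbp]
    field_simp
    ring
  obtain ⟨a, ha⟩ := ZMod.intCast_surjective (b⁻¹)
  have hdvd : (q : ℤ) ∣ 1 + a ^ 2 * (p : ℤ) := by
    rw [← ZMod.intCast_zmod_eq_zero_iff_dvd]
    push_cast
    rw [ha]
    exact key
  obtain ⟨s, hs⟩ := hdvd
  exact ⟨a, s, hs.symm⟩


theorem exists_params_of_mod_four_eq_one (p : ℕ) (hp : p.Prime) (hp4 : p % 4 = 1) :
    ∃ u a s : ℤ, 0 < u ∧ (4 * u - 1) * s = 1 + a ^ 2 * (p : ℤ) := by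
  have : Fact p.Prime := ⟨hp⟩
  obtain ⟨q, hq, hq4, hns⟩ := exists_prime_three_mod_four_nonsquare p hp4
  obtain ⟨a, s, has⟩ := exists_dvd_one_add_sq_mul p q hq hp4 hq4 hns
  refine ⟨((q / 4 + 1 : ℕ) : ℤ), a, s, by positivity, ?_⟩
  have hq' : (4 * ((q / 4 + 1 : ℕ) : ℤ) - 1) = (q : ℤ) := by
    have : 4 * (q / 4 + 1) = q + 1 := by omega
    have h2 : (4 : ℤ) * ((q / 4 + 1 : ℕ) : ℤ) = (q : ℤ) + 1 := by exact_mod_cast this
    linarith
  rw [hq']
  exact has

/-- Forget the two redundant fields. -/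
def QuatLatticeData.toQuatLattice {p : ℕ} (L : QuatLatticeData p) : QuatLattice p where
  A := L.A
  Adj := L.Adj
  symm := L.isSymm
  even := L.even_diag
  posDef := L.posDef
  mul_adj := L.mul_adj
  adj_even := L.adj_even_diag
  det_eq := L.det_eq

/-- For every prime `p` (including `p = 2`) there is an even positive definite quaternary lattice
of determinant `p ^ 2` and level `p`, with `Adj` symmetric and `Adj * A = p`. -/
theorem nonempty_quatLatticeData (p : ℕ) (hp : p.Prime) : Nonempty (QuatLatticeData p) := by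
  rcases hp.eq_two_or_odd with rfl | hodd
  · exact ⟨famLattice 2 (by norm_num) 1 1 1 (by norm_num) (by norm_num)⟩
  · have h4 : p % 4 = 1 ∨ p % 4 = 3 := by omega
    rcases h4 with h4 | h4
    · obtain ⟨u, a, s, hu, h⟩ := exists_params_of_mod_four_eq_one p hp h4
      exact ⟨famLattice p hp.pos u a s hu h⟩
    · refine ⟨bbLattice p ((p / 4 : ℕ) : ℤ) (by positivity) ?_⟩
      have : p = 4 * (p / 4) + 3 := by omega
      exact_mod_cast this

/-- **Θ-e**, without the hypothesis `p ≠ 2`. -/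
theorem exists_quatLattice' (p : ℕ) (hp : p.Prime) : Nonempty (QuatLattice p) :=
  (nonempty_quatLatticeData p hp).map QuatLatticeData.toQuatLattice

/-- **Θ-e** (statement of `Skeleton.exists_quatLattice`). -/
theorem exists_quatLattice (p : ℕ) (hp : p.Prime) (_hp2 : p ≠ 2) : Nonempty (QuatLattice p) :=
  exists_quatLattice' p hp

/-- Variant keeping the extra information `Adj` symmetric and `Adj * A = p`. -/
theorem exists_quatLattice_adj (p : ℕ) (hp : p.Prime) :
    ∃ L : QuatLattice p, L.Adj.IsSymm ∧ L.Adj * L.A = (p : ℤ) • (1 : Matrix (Fin 4) (Fin 4) ℤ) := by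
  obtain ⟨L⟩ := nonempty_quatLatticeData p hp
  exact ⟨L.toQuatLattice, L.adj_isSymm, L.adj_mul⟩

end Fermat.Agent.S16.Theta
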