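/-
T16 / LB-Θ package Θ-c (helper3): the finite "Weil representation" computation.
From a `WeilData p D` (functions `θ_d`, `T`-law, `S`-law of weight 2, limits at `i∞`) we deduce
* the Gauss sum `G(1) = Σ χ = -p` (from `(ST)³ = -1`, even weight and `θ_0 → 1`), hence `G(a) = -p`
  for all `a` prime to `p` (Galois: `ζ^a` is again a root of the cyclotomic polynomial),
* the five relations of helper43's orbit lemma (`LB/Orbit.lean`) for the `ℙ¹(𝔽_p)`-family
  `Φ_∞ = θ_0`, `Φ_j = -(1/p) Σ_d χ(d)^j θ_d`,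
* hence `θ_0 ∣[2] γ = θ_0` for `γ ∈ Γ₀(p)` (`slash_Gamma0`), every `SL(2,ℤ)`-translate of `θ_0` is a
  linear combination of the `θ_d` (`slash_mem_span`) and is bounded at `i∞`
  (`isBoundedAtImInfty_slash`).
-/
import Fermat.Agent.S16.Theta.Defs
import Fermat.Agent.S16.LB.Orbit

set_option autoImplicit false

open Complex ModularGroup
open scoped UpperHalfPlane Real MatrixGroups ModularForm

namespace Fermat.Agent.S16.Theta

namespace WeilData

variable {p : ℕ} {D : Type} [AddCommGroup D] [Fintype D] (W : WeilData p D)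

lemma χ_ne_zero (hp : p ≠ 0) (d : D) : W.χ d ≠ 0 := by
  intro h
  have := W.χ_pow d
  rw [h, zero_pow hp] at this
  exact zero_ne_one this

lemma ψ_zero_left (hp : p ≠ 0) (e : D) : W.ψ 0 e = 1 := by
  have h := W.χ_add 0 e
  rw [zero_add, W.χ_zero, one_mul] at h
  have hne := W.χ_ne_zero hp e
  have : W.χ e * 1 = W.χ e * W.ψ 0 e := by rw [mul_one]; exact h
  exact (mul_left_cancel₀ hne this).symm

lemma ψ_zero_right (hp : p ≠ 0) (e : D) : W.ψ e 0 = 1 := by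
  rw [W.ψ_symm, W.ψ_zero_left hp]

lemma ψ_add_right (d e f : D) : W.ψ d (e + f) = W.ψ d e * W.ψ d f := by
  rw [W.ψ_symm, W.ψ_add_left, W.ψ_symm e, W.ψ_symm f]

lemma ψ_ne_zero (hp : p ≠ 0) (d e : D) : W.ψ d e ≠ 0 := by
  intro h
  have h1 := W.χ_add d e
  rw [h, mul_zero] at h1
  exact W.χ_ne_zero hp _ h1

lemma ψ_nsmul_right (hp : p ≠ 0) (d e : D) (n : ℕ) : W.ψ d (n • e) = W.ψ d e ^ n := by
  induction n with
  | zero => simp [W.ψ_zero_right hp]
  | succ n ih => rw [succ_nsmul, W.ψ_add_right, ih, pow_succ]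

lemma ψ_pow (hp : p ≠ 0) (d e : D) : W.ψ d e ^ p = 1 := by
  rw [← W.ψ_nsmul_right hp, W.p_nsmul, W.ψ_zero_right hp]

lemma ψ_neg_right (hp : p ≠ 0) (d e : D) : W.ψ d (-e) = (W.ψ d e)⁻¹ := by
  have h := W.ψ_add_right d e (-e)
  rw [add_neg_cancel, W.ψ_zero_right hp] at h
  exact eq_inv_of_mul_eq_one_right h.symm

lemma ψ_self (hp : p ≠ 0) (d : D) : W.ψ d d = W.χ d ^ 2 := by
  have h := W.χ_add d (-d)
  rw [add_neg_cancel, W.χ_zero, W.χ_neg, W.ψ_neg_right hp] at h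
  have hne := W.ψ_ne_zero hp d d
  rw [eq_comm, mul_inv_eq_iff_eq_mul₀ hne, one_mul] at h
  rw [← h]; ring

lemma χ_nsmul (hp : p ≠ 0) (d : D) (n : ℕ) : W.χ (n • d) = W.χ d ^ (n ^ 2) := by
  induction n with
  | zero => simp [W.χ_zero]
  | succ n ih =>
    rw [succ_nsmul, W.χ_add, ih, W.ψ_symm, W.ψ_nsmul_right hp, W.ψ_self hp]
    ring

lemma denom_T_eq (τ : ℍ) : UpperHalfPlane.denom ((T : SL(2, ℤ)) : GL (Fin 2) ℝ) τ = 1 := by
  rw [ModularGroup.denom_apply, ModularGroup.coe_T]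
  simp

lemma slash_neg_one_eq (f : ℍ → ℂ) : f ∣[(2 : ℤ)] (-1 : SL(2, ℤ)) = f := by
  ext τ
  rw [ModularForm.SL_slash_apply, ModularGroup.SL_neg_smul, one_smul, ModularGroup.denom_apply]
  simp

lemma STSTST : S * T * S * T * S * T = (-1 : SL(2, ℤ)) := by
  ext i j
  simp only [Matrix.SpecialLinearGroup.coe_mul, ModularGroup.coe_S, ModularGroup.coe_T,
    Matrix.SpecialLinearGroup.coe_neg, Matrix.SpecialLinearGroup.coe_one]
  fin_cases i <;> fin_cases j <;> simp [Matrix.mul_apply, Fin.sum_univ_two]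


/-- `F_a = Σ_d a_d θ_d` -/
noncomputable def F (a : D → ℂ) : ℍ → ℂ := fun τ => ∑ d, a d * W.θ d τ

lemma F_slash_T (a : D → ℂ) :
    (W.F a) ∣[(2 : ℤ)] T = W.F (fun d => W.χ d * a d) := by
  ext τ
  rw [ModularForm.SL_slash_apply, UpperHalfPlane.modular_T_smul]
  rw [denom_T_eq]
  simp only [F, one_zpow, mul_one]
  refine Finset.sum_congr rfl fun d _ => ?_
  rw [W.θ_T]; ring

lemma F_slash_S (hp : p ≠ 0) (a : D → ℂ) :
    (W.F a) ∣[(2 : ℤ)] S = W.F (fun e => -(1 / (p : ℂ)) * ∑ d, a d * W.ψ d e) := by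
  ext τ
  rw [ModularForm.SL_slash_apply, ModularGroup.denom_S]
  have hτ : (τ : ℂ) ≠ 0 := UpperHalfPlane.ne_zero τ
  have hpc : (p : ℂ) ≠ 0 := by exact_mod_cast hp
  simp only [F]
  simp_rw [W.θ_S]
  rw [Finset.sum_mul]
  simp_rw [Finset.mul_sum, Finset.sum_mul]
  rw [Finset.sum_comm]
  refine Finset.sum_congr rfl fun e _ => ?_
  refine Finset.sum_congr rfl fun d _ => ?_
  rw [zpow_neg, zpow_ofNat]
  field_simp


/-- orthogonality of the characters `ψ(·, e)` -/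
lemma sum_ψ (hp : p ≠ 0) [DecidableEq D] (e : D) :
    ∑ d, W.ψ d e = if e = 0 then (p : ℂ) ^ 2 else 0 := by
  split_ifs with h
  · subst h
    simp_rw [W.ψ_zero_right hp]
    rw [Finset.sum_const, Finset.card_univ, W.card_eq]
    simp
  · simp_rw [W.ψ_symm _ e]
    exact W.ψ_nondeg e h

/-- the Gauss sums `G(a) = Σ_d χ(d)^a` -/
noncomputable def G (a : ℕ) : ℂ := ∑ d, W.χ d ^ a

/-- completing the square -/
lemma sum_χ_pow_mul_ψ (hp : p ≠ 0) (a k : ℕ) (hak : p ∣ a * k + 1) (e : D) :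
    ∑ d, W.χ d ^ a * W.ψ d e = W.χ e ^ k * W.G a := by
  obtain ⟨c, hc⟩ := hak
  rw [G, Finset.mul_sum]
  rw [← Equiv.sum_comp (Equiv.addRight (k • e))]
  refine Finset.sum_congr rfl fun d _ => ?_
  simp only [Equiv.coe_addRight]
  rw [W.χ_add, W.ψ_add_left, W.χ_nsmul hp, W.ψ_nsmul_right hp, W.ψ_symm (k • e) e,
    W.ψ_nsmul_right hp, W.ψ_self hp]
  have h1 : W.ψ d e ^ (k * a + 1) = 1 := by
    rw [mul_comm k a, hc, pow_mul, W.ψ_pow hp, one_pow]
  have h2 : W.χ e ^ (k ^ 2 * a + 2 * k) = W.χ e ^ k := by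
    have : k ^ 2 * a + 2 * k = p * (c * k) + k := by
      have : k ^ 2 * a + 2 * k = (a * k + 1) * k + k := by ring
      rw [this, hc]; ring
    rw [this, pow_add, pow_mul, W.χ_pow, one_pow, one_mul]
  calc (W.χ d * W.χ e ^ k ^ 2 * W.ψ d e ^ k) ^ a * (W.ψ d e * (W.χ e ^ 2) ^ k)
      = W.χ d ^ a * W.χ e ^ (k ^ 2 * a + 2 * k) * W.ψ d e ^ (k * a + 1) := by ring
    _ = W.χ e ^ k * W.χ d ^ a := by rw [h1, h2]; ring

lemma G_one (hp : p ≠ 0) : W.G 1 = -(p : ℂ) := by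
  classical
  have hp1 : 1 ≤ p := Nat.one_le_iff_ne_zero.mpr hp
  have hpc : (p : ℂ) ≠ 0 := by exact_mod_cast hp
  have h0 : W.θ 0 = W.F (fun d => if d = 0 then 1 else 0) := by
    ext τ; simp [F]
  have s1 : W.θ 0 ∣[(2 : ℤ)] S = W.F (fun _ => -(1 / (p : ℂ))) := by
    rw [h0, W.F_slash_S hp]; congr 1; ext e; simp [W.ψ_zero_left hp]
  have s2 : W.θ 0 ∣[(2 : ℤ)] (S * T) = W.F (fun d => -(1 / (p : ℂ)) * W.χ d) := by
    rw [SlashAction.slash_mul, s1, W.F_slash_T]; congr 1; ext d; ring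
  have s3 : W.θ 0 ∣[(2 : ℤ)] (S * T * S) =
      W.F (fun e => (W.G 1 / (p : ℂ) ^ 2) * W.χ e ^ (p - 1)) := by
    rw [SlashAction.slash_mul, s2, W.F_slash_S hp]; congr 1; ext e
    have h := W.sum_χ_pow_mul_ψ hp 1 (p - 1) (by rw [one_mul, Nat.sub_add_cancel hp1]) e
    simp only [pow_one] at h
    rw [show (∑ d, -(1 / (p : ℂ)) * W.χ d * W.ψ d e) = -(1 / (p : ℂ)) * ∑ d, W.χ d * W.ψ d e by
      rw [Finset.mul_sum]; exact Finset.sum_congr rfl fun d _ => by ring]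
    rw [h]; field_simp
  have s4 : W.θ 0 ∣[(2 : ℤ)] (S * T * S * T) = W.F (fun _ => (W.G 1 / (p : ℂ) ^ 2)) := by
    rw [SlashAction.slash_mul, s3, W.F_slash_T]; congr 1; ext d
    have h : W.χ d * W.χ d ^ (p - 1) = 1 := by
      rw [← pow_succ', Nat.sub_add_cancel hp1, W.χ_pow]
    calc W.χ d * (W.G 1 / (p : ℂ) ^ 2 * W.χ d ^ (p - 1))
        = (W.G 1 / (p : ℂ) ^ 2) * (W.χ d * W.χ d ^ (p - 1)) := by ring
      _ = _ := by rw [h, mul_one]
  have s5 : W.θ 0 ∣[(2 : ℤ)] (S * T * S * T * S) = fun τ => -(W.G 1 / p) * W.θ 0 τ := by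
    rw [SlashAction.slash_mul, s4, W.F_slash_S hp]
    ext τ
    simp only [F]
    simp_rw [← Finset.mul_sum, W.sum_ψ hp]
    rw [Finset.sum_eq_single 0]
    · simp only [if_true]; field_simp
    · intro b _ hb; simp [hb]
    · intro h; exact absurd (Finset.mem_univ _) h
  have s6 : W.θ 0 ∣[(2 : ℤ)] (S * T * S * T * S * T) = fun τ => -(W.G 1 / p) * W.θ 0 τ := by
    rw [SlashAction.slash_mul, s5]
    ext τ
    rw [ModularForm.SL_slash_apply, UpperHalfPlane.modular_T_smul, denom_T_eq, W.θ_T, W.χ_zero]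
    simp
  rw [STSTST, slash_neg_one_eq] at s6
  have hlim := W.θ_lim_zero
  have hlim2 : Filter.Tendsto (fun τ => -(W.G 1 / p) * W.θ 0 τ) UpperHalfPlane.atImInfty
      (nhds (-(W.G 1 / p) * 1)) := hlim.const_mul _
  rw [← s6] at hlim2
  have h1 := tendsto_nhds_unique hlim hlim2
  field_simp at h1
  linear_combination h1

/-- `G(a) = -p` for every `a` prime to `p` (Galois conjugation of `G(1) = -p`) -/
lemma G_eq (hp : p.Prime) (a : ℕ) (ha : ¬ p ∣ a) : W.G a = -(p : ℂ) := by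
  classical
  have hp0 : p ≠ 0 := hp.ne_zero
  have : NeZero p := ⟨hp0⟩
  set ζ : ℂ := Complex.exp (2 * π * I / p) with hζ
  have hζp : IsPrimitiveRoot ζ p := Complex.isPrimitiveRoot_exp p hp0
  have hex : ∀ d, ∃ i < p, ζ ^ i = W.χ d := fun d => hζp.eq_pow_of_pow_eq_one (W.χ_pow d)
  choose n _ hn' using hex
  let P : Polynomial ℚ := ∑ d, Polynomial.X ^ n d + Polynomial.C (p : ℚ)
  have hP : ∀ x : ℂ, Polynomial.aeval x P = ∑ d, x ^ n d + p := by
    intro x; simp [P]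
  have hroot : Polynomial.aeval ζ P = 0 := by
    rw [hP]; simp_rw [hn']
    have h := W.G_one hp0
    simp only [G, pow_one] at h
    rw [h]; ring
  have hdvd : Polynomial.cyclotomic p ℚ ∣ P := by
    rw [Polynomial.cyclotomic_eq_minpoly_rat hζp hp.pos]
    exact minpoly.dvd ℚ ζ hroot
  have hζa : IsPrimitiveRoot (ζ ^ a) p :=
    hζp.pow_of_coprime a ((Nat.Prime.coprime_iff_not_dvd hp).mpr ha).symm
  have hroot' : Polynomial.aeval (ζ ^ a) P = 0 := by
    obtain ⟨Q, hQ⟩ := hdvd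
    rw [hQ, map_mul]
    have h : Polynomial.aeval (ζ ^ a) (Polynomial.cyclotomic p ℚ) = 0 := by
      have h' := hζa.isRoot_cyclotomic hp.pos
      rw [Polynomial.aeval_def, Polynomial.eval₂_eq_eval_map, Polynomial.map_cyclotomic]
      exact h'
    rw [h, zero_mul]
  rw [hP] at hroot'
  have h : W.G a = ∑ d, (ζ ^ a) ^ n d := by
    simp only [G]; refine Finset.sum_congr rfl fun d _ => ?_
    rw [← hn' d, ← pow_mul, ← pow_mul, mul_comm]
  rw [h]; linear_combination hroot'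

/-! ### the `ℙ¹(𝔽_p)`-family `Φ` and its five relations -/

/-- the family `Φ_∞ = θ_0`, `Φ_j = -(1/p) Σ_d χ(d)^j θ_d` indexed by `ℙ¹(𝔽_p)` -/
noncomputable def Phi : Option (ZMod p) → ℍ → ℂ
  | none => W.θ 0
  | some j => W.F (fun d => -(1 / (p : ℂ)) * W.χ d ^ j.val)

lemma Phi_none : W.Phi none = W.θ 0 := rfl

lemma Phi_some (j : ZMod p) : W.Phi (some j) = W.F (fun d => -(1 / (p : ℂ)) * W.χ d ^ j.val) := rfl

lemma θ_zero_eq_F [DecidableEq D] : W.θ 0 = W.F (fun d => if d = 0 then 1 else 0) := by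
  ext τ; simp [F]

lemma pow_val_eq {x : ℂ} (hx : x ^ p = 1) (j : ZMod p) (n : ℕ) (h : (n : ZMod p) = j) :
    x ^ n = x ^ j.val := by
  rw [← h, ZMod.val_natCast, ← pow_eq_pow_mod n hx]

lemma Phi_slash_T [Fact p.Prime] (x : Option (ZMod p)) :
    W.Phi x ∣[(2 : ℤ)] T = W.Phi (LB.p1T p x) := by
  have hp : p.Prime := Fact.out
  have : NeZero p := ⟨hp.ne_zero⟩
  cases x with
  | none =>
    rw [LB.p1T_none, Phi_none]
    ext τ
    rw [ModularForm.SL_slash_apply, UpperHalfPlane.modular_T_smul, denom_T_eq, W.θ_T, W.χ_zero]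
    simp
  | some j =>
    rw [LB.p1T_some, Phi_some, Phi_some, W.F_slash_T]
    congr 1; ext d
    have h : W.χ d ^ (j.val + 1) = W.χ d ^ (j + 1).val :=
      pow_val_eq (W.χ_pow d) (j + 1) (j.val + 1) (by push_cast; rw [ZMod.natCast_zmod_val])
    rw [← h]; ring

lemma Phi_slash_S [Fact p.Prime] (x : Option (ZMod p)) :
    W.Phi x ∣[(2 : ℤ)] S = W.Phi (LB.p1S p x) := by
  classical
  have hp : p.Prime := Fact.out
  have hp0 : p ≠ 0 := hp.ne_zero
  have hpc : (p : ℂ) ≠ 0 := by exact_mod_cast hp0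
  have : NeZero p := ⟨hp0⟩
  cases x with
  | none =>
    rw [LB.p1S_none, Phi_none, Phi_some, W.θ_zero_eq_F, W.F_slash_S hp0]
    congr 1; ext e
    simp [W.ψ_zero_left hp0]
  | some j =>
    by_cases hj : j = 0
    · subst hj
      rw [LB.p1S_some_zero, Phi_none, Phi_some, W.θ_zero_eq_F, W.F_slash_S hp0]
      congr 1; ext e
      simp only [ZMod.val_zero, pow_zero, mul_one]
      rw [← Finset.mul_sum, W.sum_ψ hp0]
      split_ifs
      · field_simp
      · simp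
    · rw [LB.p1S_some_of_ne p hj, Phi_some, Phi_some, W.F_slash_S hp0]
      congr 1; ext e
      have hak : p ∣ j.val * (-j⁻¹).val + 1 := by
        rw [← ZMod.natCast_eq_zero_iff]
        push_cast
        rw [ZMod.natCast_zmod_val, ZMod.natCast_zmod_val]
        field_simp
        ring
      have ha : ¬ p ∣ j.val := by
        rw [← ZMod.natCast_eq_zero_iff, ZMod.natCast_zmod_val]
        exact hj
      have h := W.sum_χ_pow_mul_ψ hp0 j.val (-j⁻¹).val hak e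
      rw [W.G_eq hp j.val ha] at h
      rw [show (∑ d, -(1 / (p : ℂ)) * W.χ d ^ j.val * W.ψ d e) =
          -(1 / (p : ℂ)) * ∑ d, W.χ d ^ j.val * W.ψ d e by
        rw [Finset.mul_sum]; exact Finset.sum_congr rfl fun d _ => by ring]
      rw [h]; field_simp

/-! ### main results -/

/-- every `SL(2,ℤ)`-translate of `θ_0` is a member of the family `Φ` -/
theorem slash_eq_Phi [Fact p.Prime] (γ : SL(2, ℤ)) :
    W.θ 0 ∣[(2 : ℤ)] γ = W.Phi (LB.p1Label p γ) :=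
  LB.slash_eq_of_p1_relations 2 W.Phi W.Phi_slash_S W.Phi_slash_T γ

/-- `θ_0` is invariant under `Γ₀(p)` in weight 2 -/
theorem slash_Gamma0 (hp : p.Prime) {γ : SL(2, ℤ)} (hγ : γ ∈ CongruenceSubgroup.Gamma0 p) :
    W.θ 0 ∣[(2 : ℤ)] γ = W.θ 0 := by
  have : Fact p.Prime := ⟨hp⟩
  exact LB.slash_invariant_of_p1_relations 2 W.Phi W.Phi_slash_S W.Phi_slash_T hγ

/-- every `SL(2,ℤ)`-translate of `θ_0` is a combination of the `θ_d` -/
theorem slash_mem_span (hp : p.Prime) (γ : SL(2, ℤ)) :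
    ∃ a : D → ℂ, (W.θ 0) ∣[(2 : ℤ)] γ = fun τ => ∑ d, a d * W.θ d τ := by
  classical
  have : Fact p.Prime := ⟨hp⟩
  rw [W.slash_eq_Phi γ]
  cases LB.p1Label p γ with
  | none => exact ⟨_, W.θ_zero_eq_F⟩
  | some j => exact ⟨_, rfl⟩

/-- each `θ_d` is bounded at `i∞` -/
lemma isBoundedAtImInfty_θ [DecidableEq D] (d : D) : UpperHalfPlane.IsBoundedAtImInfty (W.θ d) := by
  by_cases h : d = 0
  · subst h; exact W.θ_lim_zero.isBigO_one ℝ
  · exact (W.θ_lim_ne d h).isBigO_one ℝ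

/-- every linear combination of the `θ_d` is bounded at `i∞` -/
lemma isBoundedAtImInfty_F (a : D → ℂ) : UpperHalfPlane.IsBoundedAtImInfty (W.F a) := by
  classical
  unfold F
  have : (fun τ => ∑ d, a d * W.θ d τ) = ∑ d, (fun τ => a d * W.θ d τ) := by
    ext τ; simp
  rw [this]
  refine Finset.sum_induction _ UpperHalfPlane.IsBoundedAtImInfty (fun f g hf hg => hf.add hg)
    (Filter.const_boundedAtFilter _ 0) fun d _ => ?_
  exact (Filter.const_boundedAtFilter _ (a d)).mul (W.isBoundedAtImInfty_θ d)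

/-- every `SL(2,ℤ)`-translate of `θ_0` is bounded at `i∞` (boundedness at all cusps) -/
theorem isBoundedAtImInfty_slash (hp : p.Prime) (γ : SL(2, ℤ)) :
    UpperHalfPlane.IsBoundedAtImInfty (W.θ 0 ∣[(2 : ℤ)] γ) := by
  obtain ⟨a, ha⟩ := W.slash_mem_span hp γ
  rw [ha]
  exact W.isBoundedAtImInfty_F a

end WeilData

end Fermat.Agent.S16.Theta
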