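/-
T16 / LB-Θ / Θ-f final assembly (helper54): the theta series of a `QuatLattice p` is a modular form
`Θ ∈ M₂(Γ₀(p))` with integral `q`-expansion, `a₀ = 1`, `aₙ` even (`n ≥ 1`).

Inputs: Θ-b (`hasSum_theta_zero`, `rep_zero`, `even_rep`, `mdifferentiable_theta`, and the
`WeilData` of the lattice), Θ-c (`WeilData.slash_Gamma0`, `WeilData.slash_mem_span`),
Θ-e (`exists_quatLattice`), and `Form.exists_thetaForm_of_weilData`.

The existence of the `WeilData` of a lattice (`Skeleton.exists_weilData`, the `S`-law via the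
Poisson summation formula) enters through the hypothesis `WeilDataExists p`.
-/
import Fermat.Agent.S16.Theta.Form
import Fermat.Agent.S16.Theta.Weil
import Fermat.Agent.S16.Theta.LatticeThetaQExp
import Fermat.Agent.S16.Theta.LatticeThetaAnalytic
import Fermat.Agent.S16.Theta.Lattices

set_option autoImplicit false

open UpperHalfPlane ModularForm CongruenceSubgroup
open scoped MatrixGroups ModularForm Manifold Real

namespace Fermat.Agent.S16.Theta

/-- The statement of `Skeleton.exists_weilData` for all lattices of level `p`. -/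
def WeilDataExists (p : ℕ) : Prop :=
  ∀ L : QuatLattice p, ∃ (_ : Fintype L.D) (W : WeilData p L.D), W.θ 0 = L.theta 0

/-- The theta series of a `QuatLattice p` with a `WeilData` is a modular form of weight 2 and level
`Γ₀(p)` with `a₀ = 1` and even higher coefficients. -/
theorem exists_thetaForm_of_lattice (p : ℕ) (hp : p.Prime) (L : QuatLattice p) [Fintype L.D]
    (W : WeilData p L.D) (hW : W.θ 0 = L.theta 0) :
    ∃ Θ : ModularForm (CongruenceSubgroup.Gamma0 p) 2, (Θ : ℍ → ℂ) = L.theta 0 ∧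
      (UpperHalfPlane.qExpansion 1 (Θ : ℍ → ℂ)).coeff 0 = 1 ∧
      ∀ n : ℕ, 1 ≤ n → ∃ b : ℤ,
        (UpperHalfPlane.qExpansion 1 (Θ : ℍ → ℂ)).coeff n = 2 * (b : ℂ) := by
  have : NeZero p := ⟨hp.ne_zero⟩
  obtain ⟨Θ, h1, h2, h3⟩ := Form.exists_thetaForm_of_weilData p W L.rep
    (fun τ => hW ▸ hasSum_theta_zero L hp.pos τ) (rep_zero L hp.pos)
    (fun n hn => even_rep L hp.pos n hn) (hW ▸ mdifferentiable_theta L hp.pos 0)
    (CongruenceSubgroup.Gamma0 p : Set SL(2,ℤ)) Subgroup.subset_closure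
    (fun g hg => W.slash_Gamma0 hp hg) (fun γ => W.slash_mem_span hp γ)
  exact ⟨Θ, h1.trans hW, h2, h3⟩

/-- **Θ-f** (`Skeleton.exists_thetaForm`), conditional on `Skeleton.exists_weilData`. -/
theorem exists_thetaForm_of_weilDataExists (p : ℕ) (hp : p.Prime) (hp2 : p ≠ 2)
    (hWD : WeilDataExists p) :
    ∃ Θ : ModularForm (CongruenceSubgroup.Gamma0 p) 2,
      (UpperHalfPlane.qExpansion 1 (Θ : ℍ → ℂ)).coeff 0 = 1 ∧
      ∀ n : ℕ, 1 ≤ n → ∃ b : ℤ,
        (UpperHalfPlane.qExpansion 1 (Θ : ℍ → ℂ)).coeff n = 2 * (b : ℂ) := by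
  obtain ⟨L⟩ := exists_quatLattice p hp hp2
  obtain ⟨_, W, hW⟩ := hWD L
  obtain ⟨Θ, _, h2, h3⟩ := exists_thetaForm_of_lattice p hp L W hW
  exact ⟨Θ, h2, h3⟩

end Fermat.Agent.S16.Theta
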