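/-
T16 / LB-Θ package Θ-b, the `S`-law (helper3).
For a `QuatLattice` `L` and any system of representatives `r : L.D → ℤ⁴` of `D = ℤ⁴ / A ℤ⁴`:

  `θ_ξ(-1/τ) = -(τ² / p) Σ_{d ∈ D} ψ(ξ, r d) θ_{r d}(τ)`,

from 4-dimensional Gaussian Poisson summation (package Θ-a: `tsum_cexp_quadForm_four` of
`Poisson4.lean`, helper10; `theta_S_of_poissonFour` takes it as the hypothesis `PoissonFour`) and the
regrouping `ℤ⁴ = ⊔_d (r d + A ℤ⁴)`.
(Duplicate hedge of helper84's `LatticeTheta.lean`; the names `theta_S_rep`, `cosetEquivRep` avoid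
any clash with his `theta_S`, `cosetEquiv`.)
-/
import Fermat.Agent.S16.Theta.Defs
import Fermat.Agent.S16.Theta.DiscGroup
import Fermat.Agent.S16.Theta.LatticeThetaSummable
import Fermat.Agent.S16.Theta.Poisson4

set_option autoImplicit false

open Complex Matrix
open scoped UpperHalfPlane Real

namespace Fermat.Agent.S16.Theta

/-- Package Θ-a (Gaussian Poisson summation in four variables) as a proposition, in exactly the
shape of `Skeleton.tsum_cexp_quadForm_four`. -/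
def PoissonFour : Prop :=
  ∀ (M : Matrix (Fin 4) (Fin 4) ℝ) (_ : M.PosDef) (τ : ℂ) (_ : 0 < τ.im) (v : Fin 4 → ℝ),
    ∑' x : Fin 4 → ℤ,
      cexp (π * I * τ * (((fun i => (x i : ℝ) + v i) ⬝ᵥ M.mulVec (fun i => (x i : ℝ) + v i) : ℝ) : ℂ)) =
    -(1 / (τ ^ 2 * ((Real.sqrt M.det : ℝ) : ℂ))) *
      ∑' ξ : Fin 4 → ℤ,
        cexp (-(π * I / τ) * (((fun i => (ξ i : ℝ)) ⬝ᵥ M⁻¹.mulVec (fun i => (ξ i : ℝ)) : ℝ) : ℂ)
          + 2 * π * I * ((∑ i, (ξ i : ℝ) * v i : ℝ) : ℂ))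

namespace QuatLattice

variable {p : ℕ} (L : QuatLattice p)

/-- an integer vector as a real vector -/
def toR (y : Fin 4 → ℤ) : Fin 4 → ℝ := fun i => (y i : ℝ)

theorem AR_mulVec_toR (y : Fin 4 → ℤ) : L.AR.mulVec (toR y) = toR (L.A.mulVec y) := by
  ext i
  simp [AR, toR, mulVec, dotProduct]

theorem toR_dotProduct (y z : Fin 4 → ℤ) : toR y ⬝ᵥ toR z = ((y ⬝ᵥ z : ℤ) : ℝ) := by
  simp [toR, dotProduct]

theorem toR_smul (c : ℤ) (y : Fin 4 → ℤ) : toR (c • y) = (c : ℝ) • toR y := by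
  ext i; simp [toR]

theorem det_AR : L.AR.det = (p : ℝ) ^ 2 := by
  have h2 : (L.A.map (Int.cast : ℤ → ℝ)).det = ((L.A.det : ℤ) : ℝ) :=
    ((Int.castRingHom ℝ).map_det L.A).symm
  rw [AR, h2, L.det_eq]
  push_cast; ring

theorem sqrt_det_AR : Real.sqrt L.AR.det = (p : ℝ) := by
  rw [L.det_AR, Real.sqrt_sq (Nat.cast_nonneg p)]

/-- `A⁻¹ y = Adj y / p` over `ℝ` -/
theorem AR_inv_mulVec_toR (y : Fin 4 → ℤ) :
    L.AR⁻¹.mulVec (toR y) = (1 / (p : ℝ)) • toR (L.Adj.mulVec y) := by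
  have hp : (p : ℝ) ≠ 0 := by exact_mod_cast L.p_pos.ne'
  have hdet : IsUnit L.AR.det := by
    rw [L.det_AR]; exact (pow_ne_zero 2 hp).isUnit
  have h1 : L.AR.mulVec ((1 / (p : ℝ)) • toR (L.Adj.mulVec y)) = toR y := by
    rw [Matrix.mulVec_smul, L.AR_mulVec_toR, L.mulVec_adj_mulVec, toR_smul, smul_smul]
    simp [hp]
  rw [← h1, Matrix.mulVec_mulVec, Matrix.nonsing_inv_mul _ hdet, Matrix.one_mulVec]

/-- the `ξ`-th dual term: `e(τ yᵀ A⁻¹ y / 2) ψ(y, ξ)` -/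
noncomputable def dterm (τ : ℂ) (ξ y : Fin 4 → ℤ) : ℂ :=
  cexp (π * I * τ * (L.pair y y : ℂ) / p) * L.psi y ξ

/-- `Q(x + A⁻¹ η) = yᵀ Adj y / (2p)` for `y = η + A x` -/
theorem Qr_shift_eq_pair (η x : Fin 4 → ℤ) :
    L.Qr (L.shift η x) =
      (L.pair (η + L.A.mulVec x) (η + L.A.mulVec x) : ℝ) / (2 * p) := by
  have hp : (p : ℝ) ≠ 0 := by exact_mod_cast L.p_pos.ne'
  set y := η + L.A.mulVec x with hy
  have h1 : L.shift η x = (1 / (p : ℝ)) • toR (L.Adj.mulVec y) := by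
    ext i
    rw [hy, Matrix.mulVec_add, L.adj_mulVec_mulVec L.p_pos]
    simp only [shift, toR, Pi.smul_apply, Pi.add_apply, smul_eq_mul]
    push_cast
    field_simp
    ring
  rw [h1, L.Qr_smul]
  unfold Qr
  rw [L.AR_mulVec_toR, L.mulVec_adj_mulVec, toR_smul, dotProduct_smul, toR_dotProduct]
  have : L.Adj.mulVec y ⬝ᵥ y = L.pair y y := by
    rw [pair, dotProduct_comm]
  rw [this]
  simp only [smul_eq_mul]
  push_cast
  field_simp

/-- the dual term on the coset `η + A ℤ⁴` -/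
theorem dterm_add_mulVec (τ : ℂ) (ξ η x : Fin 4 → ℤ) :
    L.dterm τ ξ (η + L.A.mulVec x) = L.psi ξ η * cexp (2 * π * I * τ * L.Qr (L.shift η x)) := by
  have hp : (p : ℂ) ≠ 0 := by exact_mod_cast L.p_pos.ne'
  unfold dterm
  rw [L.psi_add_mulVec_left L.p_pos, L.psi_symm L.p_pos η ξ, L.Qr_shift_eq_pair, mul_comm]
  congr 2
  push_cast
  field_simp

/-- the dual term of Poisson summation is `dterm` -/
theorem poisson_dual_term (τ : ℂ) (ξ y : Fin 4 → ℤ) :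
    cexp (-(π * I / (-τ)⁻¹) *
        (((fun i => (y i : ℝ)) ⬝ᵥ L.AR⁻¹.mulVec (fun i => (y i : ℝ)) : ℝ) : ℂ)
      + 2 * π * I * ((∑ i, (y i : ℝ) * (((L.Adj.mulVec ξ) i : ℝ) / p) : ℝ) : ℂ)) =
    L.dterm τ ξ y := by
  have hp : (p : ℂ) ≠ 0 := by exact_mod_cast L.p_pos.ne'
  have h1 : ((fun i => (y i : ℝ)) ⬝ᵥ L.AR⁻¹.mulVec (fun i => (y i : ℝ)) : ℝ) =
      (L.pair y y : ℝ) / p := by
    have := L.AR_inv_mulVec_toR y
    unfold toR at this
    rw [this, dotProduct_smul]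
    have h := toR_dotProduct y (L.Adj.mulVec y)
    unfold toR at h
    rw [h, pair, smul_eq_mul]
    ring
  have h2 : (∑ i, (y i : ℝ) * (((L.Adj.mulVec ξ) i : ℝ) / p) : ℝ) = (L.pair y ξ : ℝ) / p := by
    have h := toR_dotProduct y (L.Adj.mulVec ξ)
    rw [pair, ← h]
    simp only [toR, dotProduct]
    rw [Finset.sum_div]
    exact Finset.sum_congr rfl fun i _ => by ring
  rw [h1, h2, dterm, psi, ← Complex.exp_add]
  congr 1
  push_cast
  field_simp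

/-- the bijection `D × ℤ⁴ ≃ ℤ⁴`, `(d, x) ↦ r d + A x` -/
noncomputable def cosetEquivRep (r : L.D → (Fin 4 → ℤ))
    (hr : ∀ d, (QuotientAddGroup.mk (r d) : L.D) = d) :
    L.D × (Fin 4 → ℤ) ≃ (Fin 4 → ℤ) :=
  Equiv.ofBijective (fun z => r z.1 + L.A.mulVec z.2) (by
    constructor
    · rintro ⟨d, x⟩ ⟨d', x'⟩ h
      simp only at h
      have hmk : ∀ (e : L.D) (z : Fin 4 → ℤ),
          (QuotientAddGroup.mk (r e + L.A.mulVec z) : L.D) = e := by
        intro e z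
        rw [QuotientAddGroup.mk_add, hr,
          (QuotientAddGroup.eq_zero_iff _).mpr (L.mem_range.mpr ⟨z, rfl⟩), add_zero]
      have hd : d = d' := by
        rw [← hmk d x, h, hmk d' x']
      subst hd
      have hx : x = x' := L.mulVec_injective L.p_pos (add_left_cancel h)
      rw [hx]
    · intro y
      have h : (QuotientAddGroup.mk (r (QuotientAddGroup.mk y)) : L.D) = QuotientAddGroup.mk y :=
        hr _
      obtain ⟨x, hx⟩ := L.mk_eq_mk_iff.1 h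
      exact ⟨(QuotientAddGroup.mk y, x), hx.symm⟩)

theorem cosetEquivRep_apply (r : L.D → (Fin 4 → ℤ))
    (hr : ∀ d, (QuotientAddGroup.mk (r d) : L.D) = d) (z : L.D × (Fin 4 → ℤ)) :
    L.cosetEquivRep r hr z = r z.1 + L.A.mulVec z.2 := rfl

/-- regrouping a sum over `ℤ⁴` along the cosets of `A ℤ⁴` -/
theorem tsum_eq_sum_tsum_coset [Fintype L.D] (r : L.D → (Fin 4 → ℤ))
    (hr : ∀ d, (QuotientAddGroup.mk (r d) : L.D) = d) (g : (Fin 4 → ℤ) → ℂ)
    (hg : ∀ d, Summable fun x : Fin 4 → ℤ => ‖g (r d + L.A.mulVec x)‖) :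
    ∑' y, g y = ∑ d, ∑' x : Fin 4 → ℤ, g (r d + L.A.mulVec x) := by
  rw [← (L.cosetEquivRep r hr).tsum_eq g]
  have hs : Summable fun z : L.D × (Fin 4 → ℤ) => g (L.cosetEquivRep r hr z) := by
    apply Summable.of_norm
    rw [summable_prod_of_nonneg (fun _ => norm_nonneg _)]
    exact ⟨fun d => hg d, Summable.of_finite⟩
  rw [hs.tsum_prod' (fun d => (hg d).of_norm), tsum_fintype]
  rfl

/-- The `S`-law for the theta functions of a `QuatLattice`, from Poisson summation. -/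
theorem theta_S_of_poissonFour (hP : PoissonFour) [Fintype L.D] (r : L.D → (Fin 4 → ℤ))
    (hr : ∀ d, (QuotientAddGroup.mk (r d) : L.D) = d) (ξ : Fin 4 → ℤ) (τ : ℍ) :
    L.theta ξ (ModularGroup.S • τ) =
      -((τ : ℂ) ^ 2 / p) * ∑ d : L.D, L.psi ξ (r d) * L.theta (r d) τ := by
  have hp : (p : ℂ) ≠ 0 := by exact_mod_cast L.p_pos.ne'
  have hτ : (τ : ℂ) ≠ 0 := UpperHalfPlane.ne_zero τ
  set σ : ℍ := ModularGroup.S • τ with hσ
  have hσc : (σ : ℂ) = (-(τ : ℂ))⁻¹ := by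
    rw [hσ, UpperHalfPlane.modular_S_smul]
  -- Poisson summation
  have h1 : L.theta ξ σ = ∑' x : Fin 4 → ℤ,
      cexp (π * I * σ * (((fun i => (x i : ℝ) + ((L.Adj.mulVec ξ) i : ℝ) / p) ⬝ᵥ
        L.AR.mulVec (fun i => (x i : ℝ) + ((L.Adj.mulVec ξ) i : ℝ) / p) : ℝ) : ℂ)) := by
    unfold theta
    refine tsum_congr fun x => ?_
    congr 1
    unfold Qr
    rw [show L.shift ξ x = (fun i => (x i : ℝ) + ((L.Adj.mulVec ξ) i : ℝ) / p) from rfl]
    push_cast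
    ring
  rw [h1, hP L.AR L.posDef σ σ.im_pos, L.sqrt_det_AR, hσc]
  have h2 : ∀ y : Fin 4 → ℤ,
      cexp (-(π * I / (-(τ : ℂ))⁻¹) *
        (((fun i => (y i : ℝ)) ⬝ᵥ L.AR⁻¹.mulVec (fun i => (y i : ℝ)) : ℝ) : ℂ)
      + 2 * π * I * ((∑ i, (y i : ℝ) * (((L.Adj.mulVec ξ) i : ℝ) / p) : ℝ) : ℂ)) =
      L.dterm τ ξ y := L.poisson_dual_term τ ξ
  simp_rw [h2]
  -- regrouping
  have h3 : ∑' y, L.dterm τ ξ y = ∑ d : L.D, L.psi ξ (r d) * L.theta (r d) τ := by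
    rw [L.tsum_eq_sum_tsum_coset r hr]
    · refine Finset.sum_congr rfl fun d _ => ?_
      simp_rw [L.dterm_add_mulVec]
      rw [tsum_mul_left]
      rfl
    · intro d
      simp_rw [L.dterm_add_mulVec, norm_mul]
      exact ((L.summable_term (r d) τ).norm).mul_left _
  rw [h3]
  congr 1
  push_cast
  field_simp

theorem poissonFour : PoissonFour := fun M hM τ hτ v => tsum_cexp_quadForm_four M hM τ hτ v

/-- **The `S`-law** for the theta functions of a `QuatLattice`: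
`θ_ξ(-1/τ) = -(τ²/p) Σ_d ψ(ξ, r d) θ_{r d}(τ)` for any system of representatives `r` of `D`. -/
theorem theta_S_rep [Fintype L.D] (r : L.D → (Fin 4 → ℤ))
    (hr : ∀ d, (QuotientAddGroup.mk (r d) : L.D) = d) (ξ : Fin 4 → ℤ) (τ : ℍ) :
    L.theta ξ (ModularGroup.S • τ) =
      -((τ : ℂ) ^ 2 / p) * ∑ d : L.D, L.psi ξ (r d) * L.theta (r d) τ :=
  L.theta_S_of_poissonFour poissonFour r hr ξ τ

end QuatLattice

end Fermat.Agent.S16.Theta
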