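/-
T16 / LB-Θ final glue (helper3): the theta route to the LOWER bound of S16.
`exists_weilData` (Θ-b, helper84) + `exists_thetaForm_of_weilDataExists` (Θ-f, helper54)
+ `Eis.lower` (Θ-ASM, helper57)  ⇒  `Arith.CongA p (eisensteinNumerator p)`.
-/
import Fermat.Agent.S16.Theta.ThetaForm
import Fermat.Agent.S16.Theta.LatticeTheta
import Fermat.Agent.S16.Eis.Lower

set_option autoImplicit false

open scoped MatrixGroups ModularForm

namespace Fermat.Agent.S16.Theta

/-- Θ-b for all lattices of level `p`. -/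
theorem weilDataExists (p : ℕ) (hp : p.Prime) : WeilDataExists p :=
  fun L => exists_weilData L hp

/-- **Θ-f** (`Skeleton.exists_thetaForm`, unconditional): a modular form `Θ ∈ M₂(Γ₀(p))` with
`a₀ = 1` and all higher `q`-coefficients even integers. -/
theorem exists_thetaForm (p : ℕ) (hp : p.Prime) (hp2 : p ≠ 2) :
    ∃ Θ : ModularForm (CongruenceSubgroup.Gamma0 p) 2,
      (UpperHalfPlane.qExpansion 1 (Θ : UpperHalfPlane → ℂ)).coeff 0 = 1 ∧
      ∀ n : ℕ, 1 ≤ n → ∃ b : ℤ,
        (UpperHalfPlane.qExpansion 1 (Θ : UpperHalfPlane → ℂ)).coeff n = 2 * (b : ℂ) :=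
  exists_thetaForm_of_weilDataExists p hp hp2 (weilDataExists p hp)

/-- **LOWER** by the theta route: `eisensteinNumerator p` is a congruence modulus. -/
theorem lower (p : ℕ) [Fact p.Prime] : Fermat.Agent.S16.Arith.CongA p (ModularCurve.eisensteinNumerator p) :=
  Eis.lower p (fun h2 => exists_thetaForm p Fact.out h2)

end Fermat.Agent.S16.Theta
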