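import Mathlib

/-!
# Θ-a (algebraic half): Schur-complement recursion for positive definite real matrices

`qf M x = ∑ i j, x i * M i j * x j`, pivot / row / Schur complement of an `(n+1) × (n+1)` matrix,
the recursively defined dual quadratic form `dualqf` and pivot product `pivprod`, and the
identifications `dualqf M ξ = qf M⁻¹ ξ`, `pivprod M = det M` for symmetric positive definite `M`.
-/

namespace Fermat.Agent.S16.Theta.GP

open Matrix Finset

noncomputable section

/-- The quadratic form `xᵀ M x` written as a double sum. -/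
def qf {n : ℕ} (M : Matrix (Fin n) (Fin n) ℝ) (x : Fin n → ℝ) : ℝ :=
  ∑ i, ∑ j, x i * M i j * x j

/-- Symmetric and positive definite (self-contained version). -/
structure IsPD {n : ℕ} (M : Matrix (Fin n) (Fin n) ℝ) : Prop where
  symm : ∀ i j, M i j = M j i
  pos : ∀ x : Fin n → ℝ, x ≠ 0 → 0 < qf M x

/-- The pivot `M 0 0`. -/
def piv {n : ℕ} (M : Matrix (Fin (n + 1)) (Fin (n + 1)) ℝ) : ℝ := M 0 0

/-- The first row without the pivot. -/
def row {n : ℕ} (M : Matrix (Fin (n + 1)) (Fin (n + 1)) ℝ) : Fin n → ℝ := fun j => M 0 j.succ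

/-- The Schur complement of the pivot. -/
def schur {n : ℕ} (M : Matrix (Fin (n + 1)) (Fin (n + 1)) ℝ) : Matrix (Fin n) (Fin n) ℝ :=
  fun i j => M i.succ j.succ - M i.succ 0 * M 0 j.succ / M 0 0

/-- The dual quadratic form, defined by recursion on the Schur complement. -/
def dualqf : (n : ℕ) → Matrix (Fin n) (Fin n) ℝ → (Fin n → ℝ) → ℝ
  | 0, _, _ => 0
  | (n + 1), M, ξ => (ξ 0) ^ 2 / piv M +
      dualqf n (schur M) (fun j => ξ j.succ - ξ 0 * row M j / piv M)

/-- The product of the pivots (equal to the determinant). -/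
def pivprod : (n : ℕ) → Matrix (Fin n) (Fin n) ℝ → ℝ
  | 0, _ => 1
  | (n + 1), M => piv M * pivprod n (schur M)

@[simp] lemma dualqf_zero (M : Matrix (Fin 0) (Fin 0) ℝ) (ξ : Fin 0 → ℝ) : dualqf 0 M ξ = 0 := rfl

lemma dualqf_succ {n : ℕ} (M : Matrix (Fin (n + 1)) (Fin (n + 1)) ℝ) (ξ : Fin (n + 1) → ℝ) :
    dualqf (n + 1) M ξ = (ξ 0) ^ 2 / piv M +
      dualqf n (schur M) (fun j => ξ j.succ - ξ 0 * row M j / piv M) := rfl

@[simp] lemma pivprod_zero (M : Matrix (Fin 0) (Fin 0) ℝ) : pivprod 0 M = 1 := rfl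

lemma pivprod_succ {n : ℕ} (M : Matrix (Fin (n + 1)) (Fin (n + 1)) ℝ) :
    pivprod (n + 1) M = piv M * pivprod n (schur M) := rfl

lemma qf_zero_dim (M : Matrix (Fin 0) (Fin 0) ℝ) (x : Fin 0 → ℝ) : qf M x = 0 := by
  simp [qf]

/-- Completing the square in the first variable. -/
lemma qf_cons {n : ℕ} (M : Matrix (Fin (n + 1)) (Fin (n + 1)) ℝ) (hs : ∀ i j, M i j = M j i)
    (hp : piv M ≠ 0) (x0 : ℝ) (x' : Fin n → ℝ) :
    qf M (Fin.cons x0 x') =
      piv M * (x0 + (∑ j, row M j * x' j) / piv M) ^ 2 + qf (schur M) x' := by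
  have hp' : M 0 0 ≠ 0 := hp
  set R : ℝ := ∑ j, row M j * x' j with hR
  have h1 : ∑ j : Fin n, x0 * M 0 j.succ * x' j = x0 * R := by
    rw [hR, Finset.mul_sum]; refine Finset.sum_congr rfl fun j _ => ?_; simp only [row]; ring
  have h2 : ∑ i : Fin n, x' i * M i.succ 0 * x0 = x0 * R := by
    rw [hR, Finset.mul_sum]; refine Finset.sum_congr rfl fun j _ => ?_
    simp only [row]; rw [hs j.succ 0]; ring
  have h3 : qf (schur M) x' =
      (∑ i : Fin n, ∑ j : Fin n, x' i * M i.succ j.succ * x' j) - R * R / M 0 0 := by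
    have : R * R / M 0 0 = ∑ i : Fin n, ∑ j : Fin n, x' i * (M i.succ 0 * M 0 j.succ / M 0 0) * x' j := by
      rw [hR, Finset.sum_mul_sum, Finset.sum_div]
      refine Finset.sum_congr rfl fun i _ => ?_
      rw [Finset.sum_div]
      refine Finset.sum_congr rfl fun j _ => ?_
      simp only [row]; rw [hs i.succ 0]; ring
    rw [this, ← Finset.sum_sub_distrib]
    simp only [qf, schur]
    refine Finset.sum_congr rfl fun i _ => ?_
    rw [← Finset.sum_sub_distrib]
    refine Finset.sum_congr rfl fun j _ => ?_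
    ring
  rw [h3]
  simp only [qf, Fin.sum_univ_succ, Fin.cons_zero, Fin.cons_succ, piv]
  rw [h1]
  have h4 : ∑ i : Fin n, (x' i * M i.succ 0 * x0 + ∑ j : Fin n, x' i * M i.succ j.succ * x' j) =
      x0 * R + ∑ i : Fin n, ∑ j : Fin n, x' i * M i.succ j.succ * x' j := by
    rw [Finset.sum_add_distrib, h2]
  rw [h4]
  field_simp
  ring

lemma IsPD.piv_pos {n : ℕ} {M : Matrix (Fin (n + 1)) (Fin (n + 1)) ℝ} (hM : IsPD M) :
    0 < piv M := by
  have h := hM.pos (Fin.cons 1 0) (by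
    intro h
    have := congrFun h 0
    simp at this)
  have : qf M (Fin.cons (1 : ℝ) (0 : Fin n → ℝ)) = piv M := by
    simp [qf, Fin.sum_univ_succ, piv]
  rwa [this] at h

lemma IsPD.schur {n : ℕ} {M : Matrix (Fin (n + 1)) (Fin (n + 1)) ℝ} (hM : IsPD M) :
    IsPD (schur M) := by
  have hp := hM.piv_pos
  refine ⟨fun i j => ?_, fun x' hx' => ?_⟩
  · simp only [GP.schur]
    rw [hM.symm i.succ j.succ, hM.symm i.succ 0, hM.symm 0 j.succ]; ring
  · have h := hM.pos (Fin.cons (-(∑ j, row M j * x' j) / piv M) x') (by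
      intro h
      apply hx'
      funext j
      have := congrFun h j.succ
      simpa using this)
    rw [qf_cons M hM.symm hp.ne'] at h
    have : (-(∑ j, row M j * x' j) / piv M + (∑ j, row M j * x' j) / piv M) = 0 := by ring
    rw [this] at h
    simpa using h

lemma qf_eq_dotProduct {n : ℕ} (M : Matrix (Fin n) (Fin n) ℝ) (x : Fin n → ℝ) :
    qf M x = x ⬝ᵥ (M *ᵥ x) := by
  simp only [qf, dotProduct, mulVec, Finset.mul_sum]
  refine Finset.sum_congr rfl fun i _ => Finset.sum_congr rfl fun j _ => ?_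
  ring

/-- The dual form evaluated at `M x` is `xᵀ M x`. -/
lemma dualqf_mulVec : ∀ (n : ℕ) (M : Matrix (Fin n) (Fin n) ℝ), IsPD M → ∀ x : Fin n → ℝ,
    dualqf n M (fun i => ∑ j, M i j * x j) = qf M x
  | 0, M, _, x => by simp [qf_zero_dim]
  | (n + 1), M, hM, x => by
    have hp := hM.piv_pos
    have hp' : M 0 0 ≠ 0 := hp.ne'
    obtain ⟨x0, x', rfl⟩ : ∃ x0 x', x = Fin.cons x0 x' := ⟨x 0, Fin.tail x, (Fin.cons_self_tail x).symm⟩
    rw [dualqf_succ, qf_cons M hM.symm hp.ne']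
    set R : ℝ := ∑ j, row M j * x' j with hR
    have h0 : (∑ j, M 0 j * (Fin.cons x0 x' : Fin (n + 1) → ℝ) j) = piv M * x0 + R := by
      rw [Fin.sum_univ_succ]; simp [piv, hR, row]
    have h1 : (fun j : Fin n => (∑ k, M j.succ k * (Fin.cons x0 x' : Fin (n + 1) → ℝ) k) -
        (∑ k, M 0 k * (Fin.cons x0 x' : Fin (n + 1) → ℝ) k) * row M j / piv M) =
        fun i => ∑ j, schur M i j * x' j := by
      funext i
      rw [h0, Fin.sum_univ_succ]
      simp only [Fin.cons_zero, Fin.cons_succ]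
      have : ∑ j, schur M i j * x' j =
          (∑ j : Fin n, M i.succ j.succ * x' j) - M i.succ 0 * R / M 0 0 := by
        rw [hR, Finset.mul_sum, Finset.sum_div, ← Finset.sum_sub_distrib]
        refine Finset.sum_congr rfl fun j _ => ?_
        simp only [schur, row]; ring
      rw [this]
      simp only [row, piv]
      rw [hM.symm i.succ 0]
      field_simp
      ring
    rw [h1, h0, dualqf_mulVec n (schur M) hM.schur x']
    simp only [piv]
    field_simp

/-- The recursively defined dual form is the quadratic form of the inverse matrix. -/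
lemma dualqf_eq_qf_of_mul_eq_one {n : ℕ} {M N : Matrix (Fin n) (Fin n) ℝ} (hM : IsPD M)
    (hMN : M * N = 1) (ξ : Fin n → ℝ) : dualqf n M ξ = qf N ξ := by
  set x : Fin n → ℝ := N *ᵥ ξ with hx
  have h1 : M *ᵥ x = ξ := by rw [hx, mulVec_mulVec, hMN, one_mulVec]
  have h2 : (fun i => ∑ j, M i j * x j) = ξ := by
    rw [← h1]; funext i; simp [mulVec, dotProduct]
  have h3 := dualqf_mulVec n M hM x
  rw [h2] at h3
  rw [h3, qf_eq_dotProduct, qf_eq_dotProduct, h1, ← hx, dotProduct_comm]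

lemma dualqf_eq_qf_inv {n : ℕ} {M : Matrix (Fin n) (Fin n) ℝ} (hM : IsPD M) (hdet : M.det ≠ 0)
    (ξ : Fin n → ℝ) : dualqf n M ξ = qf M⁻¹ ξ :=
  dualqf_eq_qf_of_mul_eq_one hM (Matrix.mul_nonsing_inv M (Ne.isUnit hdet)) ξ

/-- `det M = pivot * det (Schur complement)`. -/
lemma det_eq_piv_mul_det_schur {n : ℕ} (M : Matrix (Fin (n + 1)) (Fin (n + 1)) ℝ)
    (hp : piv M ≠ 0) : M.det = piv M * (schur M).det := by
  have hp' : M 0 0 ≠ 0 := hp
  -- row reduce: subtract multiples of row 0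
  let c : Fin (n + 1) → ℝ := Fin.cons 0 (fun i => M i.succ 0 / M 0 0)
  let B : Matrix (Fin (n + 1)) (Fin (n + 1)) ℝ := fun i j => M i j - c i * M 0 j
  have hB0 : ∀ j, B 0 j = M 0 j := by intro j; simp [B, c]
  have hdet : M.det = B.det := by
    refine det_eq_of_forall_row_eq_smul_add_const c 0 (by simp [c]) fun i j => ?_
    rw [hB0]; simp [B]
  rw [hdet, det_succ_column_zero, Fin.sum_univ_succ]
  have hz : ∀ i : Fin n, B i.succ 0 = 0 := by
    intro i; simp only [B, c, Fin.cons_succ]; field_simp; ring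
  have hsum : ∑ i : Fin n, (-1 : ℝ) ^ (i.succ : ℕ) * B i.succ 0 *
      det (B.submatrix i.succ.succAbove Fin.succ) = 0 :=
    Finset.sum_eq_zero fun i _ => by rw [hz]; ring
  rw [hsum, add_zero]
  have hsub : B.submatrix (Fin.succAbove 0) Fin.succ = schur M := by
    ext i j
    show B ((0 : Fin (n + 1)).succAbove i) j.succ = schur M i j
    rw [Fin.succAbove_zero]
    show M i.succ j.succ - c i.succ * M 0 j.succ = _
    simp only [c, Fin.cons_succ, schur]
    ring
  rw [hsub, hB0]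
  simp [piv]

lemma pivprod_eq_det : ∀ (n : ℕ) (M : Matrix (Fin n) (Fin n) ℝ), IsPD M → pivprod n M = M.det
  | 0, M, _ => by simp
  | (n + 1), M, hM => by
    rw [pivprod_succ, pivprod_eq_det n (schur M) hM.schur,
      det_eq_piv_mul_det_schur M hM.piv_pos.ne']

lemma pivprod_pos : ∀ (n : ℕ) (M : Matrix (Fin n) (Fin n) ℝ), IsPD M → 0 < pivprod n M
  | 0, M, _ => by simp
  | (n + 1), M, hM => by
    rw [pivprod_succ]
    exact mul_pos hM.piv_pos (pivprod_pos n (schur M) hM.schur)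

lemma IsPD.det_pos {n : ℕ} {M : Matrix (Fin n) (Fin n) ℝ} (hM : IsPD M) : 0 < M.det := by
  rw [← pivprod_eq_det n M hM]; exact pivprod_pos n M hM

/-- Bridge from Mathlib's `Matrix.PosDef`. -/
lemma isPD_of_posDef {n : ℕ} {M : Matrix (Fin n) (Fin n) ℝ} (hM : M.PosDef) : IsPD M := by
  refine ⟨fun i j => ?_, fun x hx => ?_⟩
  · have := hM.isHermitian
    have h2 := congrFun (congrFun this j) i
    simpa [conjTranspose_apply] using h2
  · have := hM.dotProduct_mulVec_pos hx
    rw [qf_eq_dotProduct]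
    simpa using this

/-- The dual form is nonnegative. -/
lemma dualqf_nonneg : ∀ (n : ℕ) (M : Matrix (Fin n) (Fin n) ℝ), IsPD M → ∀ ξ : Fin n → ℝ,
    0 ≤ dualqf n M ξ
  | 0, M, _, ξ => by simp
  | (n + 1), M, hM, ξ => by
    rw [dualqf_succ]
    exact add_nonneg (div_nonneg (sq_nonneg _) hM.piv_pos.le) (dualqf_nonneg n _ hM.schur _)

lemma IsPD.qf_nonneg {n : ℕ} {M : Matrix (Fin n) (Fin n) ℝ} (hM : IsPD M) (x : Fin n → ℝ) :
    0 ≤ qf M x := by
  by_cases hx : x = 0
  · subst hx; simp [qf]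
  · exact (hM.pos x hx).le

end

end Fermat.Agent.S16.Theta.GP
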