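import Fermat.Agent.S16.Theta.PoissonMain

/-!
# Θ-a: the two Skeleton statements (n = 4, `a = -iτ`, no frequency), primed names
-/

namespace Fermat.Agent.S16.Theta

open Complex Real Matrix Finset

/-- **Gaussian Poisson summation over `ℤⁿ`** for a positive definite real matrix `M`, a complex
parameter `a` with positive real part, a real shift `v` and a real frequency `w`
(public re-statement of `GP.gaussian_poisson`). -/
theorem gaussian_poisson {n : ℕ} (M : Matrix (Fin n) (Fin n) ℝ) (hM : M.PosDef) (a : ℂ)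
    (ha : 0 < a.re) (v w : Fin n → ℝ) :
    ∑' x : Fin n → ℤ,
      cexp (-(π : ℂ) * a *
          (((fun i => (x i : ℝ) + v i) ⬝ᵥ M.mulVec (fun i => (x i : ℝ) + v i) : ℝ) : ℂ)
        + 2 * π * I * ((∑ i, w i * (x i : ℝ) : ℝ) : ℂ)) =
    (1 / a ^ (1 / 2 : ℂ)) ^ n * ((1 / Real.sqrt M.det : ℝ) : ℂ) *
      ∑' x : Fin n → ℤ,
        cexp (-(π : ℂ) / a *
            (((fun i => (x i : ℝ) - w i) ⬝ᵥ M⁻¹.mulVec (fun i => (x i : ℝ) - w i) : ℝ) : ℂ)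
          + 2 * π * I * ((∑ i, v i * ((x i : ℝ) - w i) : ℝ) : ℂ)) :=
  GP.gaussian_poisson M hM a ha v w

/-- Summability of the Gaussian theta series (general `n`). -/
theorem summable_gaussian {n : ℕ} (M : Matrix (Fin n) (Fin n) ℝ) (hM : M.PosDef) (a : ℂ)
    (ha : 0 < a.re) (v w : Fin n → ℝ) :
    Summable fun x : Fin n → ℤ =>
      cexp (-(π : ℂ) * a *
          (((fun i => (x i : ℝ) + v i) ⬝ᵥ M.mulVec (fun i => (x i : ℝ) + v i) : ℝ) : ℂ)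
        + 2 * π * I * ((∑ i, w i * (x i : ℝ) : ℝ) : ℂ)) :=
  GP.summable_gaussian M hM a ha v w

/-- Summability of the dual series (general `n`). -/
theorem summable_gaussian_dual {n : ℕ} (M : Matrix (Fin n) (Fin n) ℝ) (hM : M.PosDef) (a : ℂ)
    (ha : 0 < a.re) (v w : Fin n → ℝ) :
    Summable fun x : Fin n → ℤ =>
      cexp (-(π : ℂ) / a *
          (((fun i => (x i : ℝ) - w i) ⬝ᵥ M⁻¹.mulVec (fun i => (x i : ℝ) - w i) : ℝ) : ℂ)
        + 2 * π * I * ((∑ i, v i * ((x i : ℝ) - w i) : ℝ) : ℂ)) :=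
  GP.summable_gaussian_dual M hM a ha v w

/-- Uniform (in the shift `v`) bound for the real Gaussian sums. -/
theorem exists_gaussian_bound {n : ℕ} (M : Matrix (Fin n) (Fin n) ℝ) (hM : M.PosDef) {t : ℝ}
    (ht : 0 < t) : ∃ K : ℝ, 0 ≤ K ∧ ∀ v : Fin n → ℝ,
      Summable (fun x : Fin n → ℤ => rexp (-t *
        ((fun i => (x i : ℝ) + v i) ⬝ᵥ M.mulVec (fun i => (x i : ℝ) + v i)))) ∧
      ∑' x : Fin n → ℤ, rexp (-t *
        ((fun i => (x i : ℝ) + v i) ⬝ᵥ M.mulVec (fun i => (x i : ℝ) + v i))) ≤ K :=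
  GP.exists_gaussian_bound M hM ht

/-- Skeleton Θ-a statement 1 (general `n`). -/
theorem summable_cexp_quadForm_gen {n : ℕ} (M : Matrix (Fin n) (Fin n) ℝ) (hM : M.PosDef) (τ : ℂ)
    (hτ : 0 < τ.im) (v : Fin n → ℝ) :
    Summable fun x : Fin n → ℤ =>
      cexp (π * I * τ * (((fun i => (x i : ℝ) + v i) ⬝ᵥ M.mulVec (fun i => (x i : ℝ) + v i) : ℝ) : ℂ)) := by
  have ha : 0 < (-I * τ).re := by simpa using hτ
  refine (summable_gaussian M hM (-I * τ) ha v 0).congr fun x => ?_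
  congr 1
  simp only [Pi.zero_apply, zero_mul, Finset.sum_const_zero, Complex.ofReal_zero, mul_zero,
    add_zero]
  ring

/-- Skeleton Θ-a statement 1, verbatim shape (primed name). -/
theorem summable_cexp_quadForm' (M : Matrix (Fin 4) (Fin 4) ℝ) (hM : M.PosDef) (τ : ℂ)
    (hτ : 0 < τ.im) (v : Fin 4 → ℝ) :
    Summable fun x : Fin 4 → ℤ =>
      cexp (π * I * τ * (((fun i => (x i : ℝ) + v i) ⬝ᵥ M.mulVec (fun i => (x i : ℝ) + v i) : ℝ) : ℂ)) :=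
  summable_cexp_quadForm_gen M hM τ hτ v

/-- Skeleton Θ-a statement 2, verbatim shape (primed name). -/
theorem tsum_cexp_quadForm_four' (M : Matrix (Fin 4) (Fin 4) ℝ) (hM : M.PosDef) (τ : ℂ)
    (hτ : 0 < τ.im) (v : Fin 4 → ℝ) :
    ∑' x : Fin 4 → ℤ,
      cexp (π * I * τ * (((fun i => (x i : ℝ) + v i) ⬝ᵥ M.mulVec (fun i => (x i : ℝ) + v i) : ℝ) : ℂ)) =
    -(1 / (τ ^ 2 * ((Real.sqrt M.det : ℝ) : ℂ))) *
      ∑' ξ : Fin 4 → ℤ,
        cexp (-(π * I / τ) * (((fun i => (ξ i : ℝ)) ⬝ᵥ M⁻¹.mulVec (fun i => (ξ i : ℝ)) : ℝ) : ℂ)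
          + 2 * π * I * ((∑ i, (ξ i : ℝ) * v i : ℝ) : ℂ)) := by
  have ha : 0 < (-I * τ).re := by simpa using hτ
  have hτ0 : τ ≠ 0 := by rintro rfl; simp at hτ
  have hI : I * I = -1 := Complex.I_mul_I
  have h := gaussian_poisson M hM (-I * τ) ha v 0
  have hL : ∀ x : Fin 4 → ℤ,
      cexp (-(π : ℂ) * (-I * τ) *
          (((fun i => (x i : ℝ) + v i) ⬝ᵥ M.mulVec (fun i => (x i : ℝ) + v i) : ℝ) : ℂ)
        + 2 * π * I * ((∑ i, (0 : Fin 4 → ℝ) i * (x i : ℝ) : ℝ) : ℂ)) =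
      cexp (π * I * τ * (((fun i => (x i : ℝ) + v i) ⬝ᵥ M.mulVec (fun i => (x i : ℝ) + v i) : ℝ) : ℂ)) := by
    intro x
    congr 1
    simp only [Pi.zero_apply, zero_mul, Finset.sum_const_zero, Complex.ofReal_zero, mul_zero,
      add_zero]
    ring
  have hR : ∀ x : Fin 4 → ℤ,
      cexp (-(π : ℂ) / (-I * τ) *
            (((fun i => (x i : ℝ) - (0 : Fin 4 → ℝ) i) ⬝ᵥ
              M⁻¹.mulVec (fun i => (x i : ℝ) - (0 : Fin 4 → ℝ) i) : ℝ) : ℂ)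
          + 2 * π * I * ((∑ i, v i * ((x i : ℝ) - (0 : Fin 4 → ℝ) i) : ℝ) : ℂ)) =
      cexp (-(π * I / τ) * (((fun i => (x i : ℝ)) ⬝ᵥ M⁻¹.mulVec (fun i => (x i : ℝ)) : ℝ) : ℂ)
          + 2 * π * I * ((∑ i, (x i : ℝ) * v i : ℝ) : ℂ)) := by
    intro x
    simp only [Pi.zero_apply, sub_zero]
    have e1 : (∑ i, v i * (x i : ℝ)) = ∑ i, (x i : ℝ) * v i :=
      Finset.sum_congr rfl fun i _ => mul_comm _ _
    have e2 : -(π : ℂ) / (-I * τ) = -(π * I / τ) := by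
      rw [neg_mul, neg_div_neg_eq, mul_comm I τ, ← div_div, Complex.div_I]
      ring
    rw [e1, e2]
  simp only [hL, hR] at h
  rw [h]
  congr 1
  -- the constant
  have hsq : ((-I * τ) ^ (1 / 2 : ℂ)) ^ 4 = -(τ ^ 2) := by
    have h2 : ((-I * τ) ^ (1 / 2 : ℂ)) ^ 2 = -I * τ := by
      rw [one_div]
      exact Complex.cpow_ofNat_inv_pow (-I * τ) 2
    calc ((-I * τ) ^ (1 / 2 : ℂ)) ^ 4 = (((-I * τ) ^ (1 / 2 : ℂ)) ^ 2) ^ 2 := by ring
      _ = (-I * τ) ^ 2 := by rw [h2]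
      _ = -(τ ^ 2) := by linear_combination (τ ^ 2) * hI
  rw [_root_.one_div_pow, hsq]
  push_cast
  have hdet : ((Real.sqrt M.det : ℝ) : ℂ) ≠ 0 := by
    have := (GP.isPD_of_posDef hM).det_pos
    exact_mod_cast (Real.sqrt_pos.mpr this).ne'
  field_simp

end Fermat.Agent.S16.Theta

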