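import Fermat.Agent.S16.Theta.PoissonReal

/-!
# Θ-a (main): Gaussian Poisson summation over `ℤⁿ` for a positive definite real matrix
-/

namespace Fermat.Agent.S16.Theta.GP

open Complex Real Matrix Finset

noncomputable section

/-- General term of the Gaussian theta series. -/
def gterm (n : ℕ) (M : Matrix (Fin n) (Fin n) ℝ) (a : ℂ) (v w : Fin n → ℝ) (x : Fin n → ℤ) : ℂ :=
  cexp (-(π : ℂ) * a * ((qf M (fun i => (x i : ℝ) + v i) : ℝ) : ℂ)
    + 2 * π * I * ((∑ i, w i * (x i : ℝ) : ℝ) : ℂ))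

/-- General term of the dual series. -/
def dterm (n : ℕ) (M : Matrix (Fin n) (Fin n) ℝ) (a : ℂ) (v w : Fin n → ℝ) (x : Fin n → ℤ) : ℂ :=
  cexp (-(π : ℂ) / a * ((dualqf n M (fun i => (x i : ℝ) - w i) : ℝ) : ℂ)
    + 2 * π * I * ((∑ i, v i * ((x i : ℝ) - w i) : ℝ) : ℂ))

lemma re_aux (z : ℂ) (q r : ℝ) : (z * (q : ℂ) + 2 * π * I * (r : ℂ)).re = z.re * q := by
  simp [Complex.add_re, Complex.mul_re]

lemma norm_gterm (n : ℕ) (M : Matrix (Fin n) (Fin n) ℝ) (a : ℂ) (v w : Fin n → ℝ)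
    (x : Fin n → ℤ) :
    ‖gterm n M a v w x‖ = rexp (-(π * a.re) * qf M (fun i => (x i : ℝ) + v i)) := by
  rw [gterm, Complex.norm_exp, re_aux]
  congr 1
  simp [Complex.mul_re]

lemma inv_re_pos {a : ℂ} (ha : 0 < a.re) : 0 < (a⁻¹).re := by
  rw [Complex.inv_re]
  have : a ≠ 0 := by rintro rfl; simp at ha
  exact div_pos ha (Complex.normSq_pos.mpr this)

lemma norm_dterm (n : ℕ) (M : Matrix (Fin n) (Fin n) ℝ) (a : ℂ) (v w : Fin n → ℝ)
    (x : Fin n → ℤ) :
    ‖dterm n M a v w x‖ = rexp (-(π * (a⁻¹).re) * dualqf n M (fun i => (x i : ℝ) - w i)) := by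
  rw [dterm, Complex.norm_exp, re_aux]
  congr 1
  rw [div_eq_mul_inv]
  simp [Complex.mul_re]

lemma summable_gterm {n : ℕ} {M : Matrix (Fin n) (Fin n) ℝ} (hM : IsPD M) {a : ℂ}
    (ha : 0 < a.re) (v w : Fin n → ℝ) : Summable (gterm n M a v w) := by
  obtain ⟨K, -, hK⟩ := gauss_sum_bound n M hM (π * a.re) (mul_pos pi_pos ha)
  refine Summable.of_norm ?_
  simp only [norm_gterm]
  exact (hK v).1

lemma summable_dterm {n : ℕ} {M : Matrix (Fin n) (Fin n) ℝ} (hM : IsPD M) {a : ℂ}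
    (ha : 0 < a.re) (v w : Fin n → ℝ) : Summable (dterm n M a v w) := by
  obtain ⟨K, -, hK⟩ := dual_sum_bound n M hM (π * (a⁻¹).re) (mul_pos pi_pos (inv_re_pos ha))
  refine Summable.of_norm ?_
  simp only [norm_dterm]
  exact (hK w).1

/-- One-dimensional Gaussian Poisson summation with a real shift `s` and a real frequency `w0`. -/
lemma one_dim_poisson {A : ℂ} (hA : 0 < A.re) (s w0 : ℝ) :
    ∑' n : ℤ, cexp (-(π : ℂ) * A * ((n : ℂ) + s) ^ 2 + 2 * π * I * w0 * n) =
      1 / A ^ (1 / 2 : ℂ) *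
        ∑' n : ℤ, cexp (-(π : ℂ) / A * ((n : ℂ) - w0) ^ 2 + 2 * π * I * s * ((n : ℂ) - w0)) := by
  have hA0 : A ≠ 0 := by rintro rfl; simp at hA
  have h := Complex.tsum_exp_neg_quadratic hA (I * w0 - A * s)
  have h1 : ∀ n : ℤ, cexp (-(π : ℂ) * A * ((n : ℂ) + s) ^ 2 + 2 * π * I * w0 * n) =
      cexp (-(π : ℂ) * A * s ^ 2) *
        cexp (-(π : ℂ) * A * (n : ℂ) ^ 2 + 2 * π * (I * w0 - A * s) * n) := by
    intro n
    rw [← Complex.exp_add]
    congr 1
    ring
  have h2 : ∀ n : ℤ, cexp (-(π : ℂ) * A * s ^ 2) *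
      cexp (-(π : ℂ) / A * ((n : ℂ) + I * (I * w0 - A * s)) ^ 2) =
      cexp (-(π : ℂ) / A * ((n : ℂ) - w0) ^ 2 + 2 * π * I * s * ((n : ℂ) - w0)) := by
    intro n
    rw [← Complex.exp_add]
    congr 1
    have hI : I ^ 2 = -1 := Complex.I_sq
    have e : (n : ℂ) + I * (I * w0 - A * s) = ((n : ℂ) - w0) - I * A * s := by
      linear_combination (w0 : ℂ) * hI
    have e2 : (((n : ℂ) - w0) - I * A * s) ^ 2 =
        ((n : ℂ) - w0) ^ 2 - 2 * I * A * s * ((n : ℂ) - w0) - A ^ 2 * s ^ 2 := by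
      linear_combination (A ^ 2 * (s : ℂ) ^ 2) * hI
    rw [e, e2]
    field_simp
    ring
  simp_rw [h1]
  rw [tsum_mul_left, h, ← mul_assoc, mul_comm (cexp _) (1 / _), mul_assoc, ← tsum_mul_left]
  simp_rw [h2]

/-- Building block: `exp (z q + 2πi r)` with real `q`, `r`. -/
def cg (z : ℂ) (q r : ℝ) : ℂ := cexp (z * (q : ℂ) + 2 * π * I * (r : ℂ))

lemma gterm_eq (n : ℕ) (M : Matrix (Fin n) (Fin n) ℝ) (a : ℂ) (v w : Fin n → ℝ)
    (x : Fin n → ℤ) : gterm n M a v w x =
      cg (-(π : ℂ) * a) (qf M (fun i => (x i : ℝ) + v i)) (∑ i, w i * (x i : ℝ)) := rfl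

lemma dterm_eq (n : ℕ) (M : Matrix (Fin n) (Fin n) ℝ) (a : ℂ) (v w : Fin n → ℝ)
    (x : Fin n → ℤ) : dterm n M a v w x =
      cg (-(π : ℂ) / a) (dualqf n M (fun i => (x i : ℝ) - w i))
        (∑ i, v i * ((x i : ℝ) - w i)) := rfl

lemma cg_add (z : ℂ) (q q' r r' : ℝ) : cg z q r * cg z q' r' = cg z (q + q') (r + r') := by
  simp only [cg, ← Complex.exp_add]
  congr 1
  push_cast
  ring

lemma cg_comm4 (z z' : ℂ) (q q' : ℝ) {r1 r2 r3 r4 : ℝ} (h : r1 + r2 = r3 + r4) :
    cg z q r1 * cg z' q' r2 = cg z' q' r3 * cg z q r4 := by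
  simp only [cg, ← Complex.exp_add]
  congr 1
  have h' : (r1 : ℂ) + r2 = r3 + r4 := by exact_mod_cast congrArg (fun t : ℝ => (t : ℂ)) h
  linear_combination (2 * π * I) * h'

lemma norm_cg (z : ℂ) (q r : ℝ) : ‖cg z q r‖ = rexp (z.re * q) := by
  rw [cg, Complex.norm_exp, re_aux]

lemma mul_ofReal_cpow {a : ℂ} (ha : a ≠ 0) {p : ℝ} (hp : 0 < p) (c : ℂ) :
    (a * (p : ℂ)) ^ c = a ^ c * (p : ℂ) ^ c := by
  have hp0 : (p : ℂ) ≠ 0 := by exact_mod_cast hp.ne'
  rw [Complex.cpow_def_of_ne_zero (mul_ne_zero ha hp0), Complex.cpow_def_of_ne_zero ha,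
    Complex.cpow_def_of_ne_zero hp0, ← Complex.exp_add, Complex.log_mul_ofReal p hp a ha,
    Complex.ofReal_log hp.le]
  congr 1
  ring

/-- One-dimensional Poisson summation in `cg`-form. -/
lemma one_dim_poisson_cg {a : ℂ} (ha : 0 < a.re) {p : ℝ} (hp : 0 < p) (s w0 : ℝ) :
    ∑' n : ℤ, cg (-(π : ℂ) * a) (p * ((n : ℝ) + s) ^ 2) (w0 * n) =
      1 / (a * (p : ℂ)) ^ (1 / 2 : ℂ) *
        ∑' n : ℤ, cg (-(π : ℂ) / a) (((n : ℝ) - w0) ^ 2 / p) (s * ((n : ℝ) - w0)) := by
  have ha0 : a ≠ 0 := by rintro rfl; simp at ha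
  have hp0 : (p : ℂ) ≠ 0 := by exact_mod_cast hp.ne'
  have hA : 0 < (a * (p : ℂ)).re := by
    simp only [Complex.mul_re, Complex.ofReal_re, Complex.ofReal_im, mul_zero, sub_zero]
    exact mul_pos ha hp
  have h := one_dim_poisson hA s w0
  convert h using 3
  · simp only [cg]
    congr 1
    push_cast
    ring
  · simp only [cg]
    push_cast
    field_simp

/-- The constant in the `n`-dimensional formula. -/
def pconst (n : ℕ) (M : Matrix (Fin n) (Fin n) ℝ) (a : ℂ) : ℂ :=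
  (1 / a ^ (1 / 2 : ℂ)) ^ n * ((1 / Real.sqrt (pivprod n M) : ℝ) : ℂ)

lemma pconst_succ {n : ℕ} {M : Matrix (Fin (n + 1)) (Fin (n + 1)) ℝ} (hM : IsPD M) {a : ℂ}
    (ha : 0 < a.re) :
    pconst (n + 1) M a = 1 / (a * (piv M : ℂ)) ^ (1 / 2 : ℂ) * pconst n (schur M) a := by
  have ha0 : a ≠ 0 := by rintro rfl; simp at ha
  have hp := hM.piv_pos
  have hpp := pivprod_pos n (schur M) hM.schur
  rw [pconst, pconst, pivprod_succ, mul_ofReal_cpow ha0 hp, Real.sqrt_mul hp.le]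
  have h1 : ((piv M : ℝ) : ℂ) ^ (1 / 2 : ℂ) = ((Real.sqrt (piv M) : ℝ) : ℂ) := by
    rw [Real.sqrt_eq_rpow, Complex.ofReal_cpow hp.le]
    norm_num
  rw [h1, pow_succ]
  push_cast
  have h2 : ((Real.sqrt (piv M) : ℝ) : ℂ) ≠ 0 := by
    exact_mod_cast (Real.sqrt_pos.mpr hp).ne'
  have h3 : ((Real.sqrt (pivprod n (schur M)) : ℝ) : ℂ) ≠ 0 := by
    exact_mod_cast (Real.sqrt_pos.mpr hpp).ne'
  have h4 : a ^ (1 / 2 : ℂ) ≠ 0 := by
    rw [Ne, Complex.cpow_eq_zero_iff]; tauto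
  field_simp

/-- **Gaussian Poisson summation over `ℤⁿ`** (recursive form of the dual side). -/
theorem gaussian_poisson_aux : ∀ (n : ℕ) (M : Matrix (Fin n) (Fin n) ℝ), IsPD M →
    ∀ (a : ℂ), 0 < a.re → ∀ v w : Fin n → ℝ,
      ∑' x : Fin n → ℤ, gterm n M a v w x = pconst n M a * ∑' x : Fin n → ℤ, dterm n M a v w x
  | 0, M, _, a, _, v, w => by
      rw [tsum_fintype, tsum_fintype]
      simp [gterm, dterm, pconst, qf_zero_dim]
  | (n + 1), M, hM, a, ha, v, w => by
      have hp := hM.piv_pos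
      have hS := hM.schur
      have ha0 : a ≠ 0 := by rintro rfl; simp at ha
      -- notation
      let v' : Fin n → ℝ := fun j => v j.succ
      let w' : Fin n → ℝ := fun j => w j.succ
      let R0 : ℝ := ∑ j, row M j * v' j
      let sh : (Fin n → ℤ) → ℝ := fun x' =>
        v 0 + (∑ j, row M j * ((x' j : ℝ) + v' j)) / piv M
      let w2 : ℤ → Fin n → ℝ := fun x0 j => w' j + ((x0 : ℝ) - w 0) * row M j / piv M
      let e' : (Fin n → ℤ) × ℤ ≃ (Fin (n + 1) → ℤ) :=
        (Equiv.prodComm _ _).trans (Fin.consEquiv fun _ => ℤ)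
      let e : ℤ × (Fin n → ℤ) ≃ (Fin (n + 1) → ℤ) := Fin.consEquiv fun _ => ℤ
      -- (G1)
      have G1 : ∀ (x' : Fin n → ℤ) (x0 : ℤ), gterm (n + 1) M a v w (e' (x', x0)) =
          cg (-(π : ℂ) * a) (piv M * ((x0 : ℝ) + sh x') ^ 2) (w 0 * x0) *
            gterm n (schur M) a v' w' x' := by
        intro x' x0
        show gterm (n + 1) M a v w (Fin.cons x0 x') = _
        rw [gterm_eq, gterm_eq, cg_add, cons_add_real, qf_cons M hM.symm hp.ne',
          Fin.sum_univ_succ]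
        simp only [Fin.cons_zero, Fin.cons_succ]
        congr 1
        simp only [sh, v']
        ring
      -- (G2)
      have G2 : ∀ (x' : Fin n → ℤ) (x0 : ℤ),
          gterm n (schur M) a v' w' x' *
            cg (-(π : ℂ) / a) (((x0 : ℝ) - w 0) ^ 2 / piv M) (sh x' * ((x0 : ℝ) - w 0)) =
          cg (-(π : ℂ) / a) (((x0 : ℝ) - w 0) ^ 2 / piv M)
              ((v 0 + R0 / piv M) * ((x0 : ℝ) - w 0)) *
            gterm n (schur M) a v' (w2 x0) x' := by
        intro x' x0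
        rw [gterm_eq, gterm_eq]
        apply cg_comm4
        have e1 : ∑ j, row M j * ((x' j : ℝ) + v' j) = (∑ j, row M j * (x' j : ℝ)) + R0 := by
          simp only [R0, mul_add, Finset.sum_add_distrib]
        have e2 : ∑ j, w2 x0 j * (x' j : ℝ) = (∑ j, w' j * (x' j : ℝ)) +
            ((x0 : ℝ) - w 0) / piv M * ∑ j, row M j * (x' j : ℝ) := by
          simp only [w2, Finset.mul_sum, ← Finset.sum_add_distrib]
          refine Finset.sum_congr rfl fun j _ => ?_
          ring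
        simp only [sh]
        rw [e1, e2]
        ring
      -- (G3)
      have G3 : ∀ (x0 : ℤ) (x' : Fin n → ℤ),
          cg (-(π : ℂ) / a) (((x0 : ℝ) - w 0) ^ 2 / piv M)
              ((v 0 + R0 / piv M) * ((x0 : ℝ) - w 0)) *
            dterm n (schur M) a v' (w2 x0) x' = dterm (n + 1) M a v w (e (x0, x')) := by
        intro x0 x'
        show _ = dterm (n + 1) M a v w (Fin.cons x0 x')
        rw [dterm_eq, dterm_eq, cg_add, cons_sub_real, dualqf_succ, Fin.sum_univ_succ]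
        simp only [Fin.cons_zero, Fin.cons_succ]
        have e3 : (fun j => (x' j : ℝ) - w2 x0 j) =
            fun j => (x' j : ℝ) - w j.succ - ((x0 : ℝ) - w 0) * row M j / piv M := by
          funext j; simp only [w2, w']; ring
        have e4 : ∑ j, v' j * ((x' j : ℝ) - w2 x0 j) =
            (∑ j : Fin n, v j.succ * ((x' j : ℝ) - w j.succ)) -
              ((x0 : ℝ) - w 0) / piv M * R0 := by
          simp only [R0, w2, w', v', Finset.mul_sum, ← Finset.sum_sub_distrib]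
          refine Finset.sum_congr rfl fun j _ => ?_
          ring
        rw [e3, e4]
        congr 1
        ring
      -- summability facts
      have hsumG : Summable (fun q : (Fin n → ℤ) × ℤ => gterm (n + 1) M a v w (e' q)) :=
        (e'.summable_iff (f := gterm (n + 1) M a v w)).2 (summable_gterm hM ha v w)
      have hsumD : Summable (fun q : ℤ × (Fin n → ℤ) => dterm (n + 1) M a v w (e q)) :=
        (e.summable_iff (f := dterm (n + 1) M a v w)).2 (summable_dterm hM ha v w)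
      have hc : 0 < π * (a⁻¹).re / piv M := div_pos (mul_pos pi_pos (inv_re_pos ha)) hp
      -- the double family for the swap
      let H : (Fin n → ℤ) → ℤ → ℂ := fun x' x0 => gterm n (schur M) a v' w' x' *
        cg (-(π : ℂ) / a) (((x0 : ℝ) - w 0) ^ 2 / piv M) (sh x' * ((x0 : ℝ) - w 0))
      have hH : Summable (Function.uncurry H) := by
        have hg1 : Summable (fun x' : Fin n → ℤ => ‖gterm n (schur M) a v' w' x'‖) :=
          (summable_gterm hS ha v' w').norm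
        have hg2 : Summable (fun x0 : ℤ =>
            rexp (-(π * (a⁻¹).re / piv M) * ((x0 : ℝ) + (-w 0)) ^ 2)) :=
          (one_dim_bound hc (-w 0)).1
        refine Summable.of_norm_bounded (hg1.mul_of_nonneg hg2 (fun _ => norm_nonneg _)
          (fun _ => (exp_pos _).le)) ?_
        rintro ⟨x', x0⟩
        simp only [Function.uncurry, H, norm_mul, norm_cg]
        apply le_of_eq
        congr 2
        rw [div_eq_mul_inv, Complex.mul_re]
        simp only [Complex.neg_re, Complex.ofReal_re, Complex.neg_im, Complex.ofReal_im, neg_zero,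
          zero_mul, sub_zero]
        field_simp
        ring
      -- Step A
      have stepA : ∑' x : Fin (n + 1) → ℤ, gterm (n + 1) M a v w x =
          1 / (a * (piv M : ℂ)) ^ (1 / 2 : ℂ) * ∑' x' : Fin n → ℤ, ∑' x0 : ℤ, H x' x0 := by
        rw [← e'.tsum_eq (gterm (n + 1) M a v w), hsumG.tsum_prod' hsumG.prod_factor,
          ← tsum_mul_left]
        refine tsum_congr fun x' => ?_
        simp only [G1]
        rw [tsum_mul_right, one_dim_poisson_cg ha hp (sh x') (w 0), mul_assoc, ← tsum_mul_right]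
        congr 1
        refine tsum_congr fun x0 => ?_
        simp only [H]
        ring
      -- Step B: swap
      have stepB : ∑' x' : Fin n → ℤ, ∑' x0 : ℤ, H x' x0 = ∑' x0 : ℤ, ∑' x' : Fin n → ℤ, H x' x0 :=
        (hH.tsum_comm' hH.prod_factor hH.prod_symm.prod_factor).symm
      -- Step C: inner sums by the induction hypothesis
      have stepC : ∀ x0 : ℤ, ∑' x' : Fin n → ℤ, H x' x0 =
          pconst n (schur M) a * ∑' x' : Fin n → ℤ, dterm (n + 1) M a v w (e (x0, x')) := by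
        intro x0
        simp only [H, G2]
        rw [tsum_mul_left, gaussian_poisson_aux n (schur M) hS a ha v' (w2 x0), ← mul_assoc,
          mul_comm _ (pconst n (schur M) a), mul_assoc, ← tsum_mul_left]
        simp only [G3]
      rw [stepA, stepB, pconst_succ hM ha, mul_assoc]
      congr 1
      simp only [stepC]
      rw [tsum_mul_left, ← e.tsum_eq (dterm (n + 1) M a v w), hsumD.tsum_prod' hsumD.prod_factor]

/-- **Gaussian Poisson summation over `ℤⁿ`** for a positive definite real matrix `M`, a complex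
parameter `a` with positive real part, a real shift `v` and a real frequency `w`. -/
theorem gaussian_poisson {n : ℕ} (M : Matrix (Fin n) (Fin n) ℝ) (hM : M.PosDef) (a : ℂ)
    (ha : 0 < a.re) (v w : Fin n → ℝ) :
    ∑' x : Fin n → ℤ,
      cexp (-(π : ℂ) * a *
          (((fun i => (x i : ℝ) + v i) ⬝ᵥ M.mulVec (fun i => (x i : ℝ) + v i) : ℝ) : ℂ)
        + 2 * π * I * ((∑ i, w i * (x i : ℝ) : ℝ) : ℂ)) =
    (1 / a ^ (1 / 2 : ℂ)) ^ n * ((1 / Real.sqrt M.det : ℝ) : ℂ) *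
      ∑' x : Fin n → ℤ,
        cexp (-(π : ℂ) / a *
            (((fun i => (x i : ℝ) - w i) ⬝ᵥ M⁻¹.mulVec (fun i => (x i : ℝ) - w i) : ℝ) : ℂ)
          + 2 * π * I * ((∑ i, v i * ((x i : ℝ) - w i) : ℝ) : ℂ)) := by
  have hPD := isPD_of_posDef hM
  have h := gaussian_poisson_aux n M hPD a ha v w
  simp only [gterm, dterm, pconst, pivprod_eq_det n M hPD, qf_eq_dotProduct,
    dualqf_eq_qf_inv hPD hPD.det_pos.ne'] at h
  exact h

/-- Summability of the Gaussian theta series (general `n`). -/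
theorem summable_gaussian {n : ℕ} (M : Matrix (Fin n) (Fin n) ℝ) (hM : M.PosDef) (a : ℂ)
    (ha : 0 < a.re) (v w : Fin n → ℝ) :
    Summable fun x : Fin n → ℤ =>
      cexp (-(π : ℂ) * a *
          (((fun i => (x i : ℝ) + v i) ⬝ᵥ M.mulVec (fun i => (x i : ℝ) + v i) : ℝ) : ℂ)
        + 2 * π * I * ((∑ i, w i * (x i : ℝ) : ℝ) : ℂ)) := by
  refine (summable_gterm (isPD_of_posDef hM) ha v w).congr fun x => ?_
  simp only [gterm, qf_eq_dotProduct]

/-- Summability of the dual series (general `n`). -/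
theorem summable_gaussian_dual {n : ℕ} (M : Matrix (Fin n) (Fin n) ℝ) (hM : M.PosDef) (a : ℂ)
    (ha : 0 < a.re) (v w : Fin n → ℝ) :
    Summable fun x : Fin n → ℤ =>
      cexp (-(π : ℂ) / a *
          (((fun i => (x i : ℝ) - w i) ⬝ᵥ M⁻¹.mulVec (fun i => (x i : ℝ) - w i) : ℝ) : ℂ)
        + 2 * π * I * ((∑ i, v i * ((x i : ℝ) - w i) : ℝ) : ℂ)) := by
  have hPD := isPD_of_posDef hM
  refine (summable_dterm hPD ha v w).congr fun x => ?_
  simp only [dterm, dualqf_eq_qf_inv hPD hPD.det_pos.ne', qf_eq_dotProduct]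

/-- Uniform bound for the real Gaussian sums (for limits at `i∞` / dominated convergence). -/
theorem exists_gaussian_bound {n : ℕ} (M : Matrix (Fin n) (Fin n) ℝ) (hM : M.PosDef) {t : ℝ}
    (ht : 0 < t) : ∃ K : ℝ, 0 ≤ K ∧ ∀ v : Fin n → ℝ,
      Summable (fun x : Fin n → ℤ => rexp (-t *
        ((fun i => (x i : ℝ) + v i) ⬝ᵥ M.mulVec (fun i => (x i : ℝ) + v i)))) ∧
      ∑' x : Fin n → ℤ, rexp (-t *
        ((fun i => (x i : ℝ) + v i) ⬝ᵥ M.mulVec (fun i => (x i : ℝ) + v i))) ≤ K := by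
  obtain ⟨K, hK0, hK⟩ := gauss_sum_bound n M (isPD_of_posDef hM) t ht
  refine ⟨K, hK0, fun v => ?_⟩
  have := hK v
  simp only [qf_eq_dotProduct] at this
  exact this

end

end Fermat.Agent.S16.Theta.GP
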