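import Fermat.Agent.S16.Theta.PoissonAlg

/-!
# Θ-a (real-analytic half): uniform summability of Gaussian sums over `ℤⁿ`
-/

namespace Fermat.Agent.S16.Theta.GP

open Real Matrix Finset

noncomputable section

/-- Abstract Fubini-type bound for nonnegative families on a product. -/
lemma summable_prod_bound {α β : Type*} {f : α × β → ℝ} (hf : ∀ p, 0 ≤ f p) {g : α → ℝ}
    {K G : ℝ} (hK : 0 ≤ K) (hin : ∀ a, Summable (fun b => f (a, b)))
    (hle : ∀ a, ∑' b, f (a, b) ≤ K * g a) (hg : Summable g) (hG : ∑' a, g a ≤ G) :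
    Summable f ∧ ∑' p, f p ≤ K * G := by
  have hout : Summable (fun a => ∑' b, f (a, b)) :=
    Summable.of_nonneg_of_le (fun a => tsum_nonneg fun b => hf _) hle (hg.mul_left K)
  have hs : Summable f := (summable_prod_of_nonneg (f := f) (fun p => hf p)).2 ⟨hin, hout⟩
  refine ⟨hs, ?_⟩
  rw [hs.tsum_prod' hin]
  calc ∑' a, ∑' b, f (a, b) ≤ ∑' a, K * g a := hout.tsum_le_tsum hle (hg.mul_left K)
    _ = K * ∑' a, g a := tsum_mul_left
    _ ≤ K * G := mul_le_mul_of_nonneg_left hG hK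

/-- Summability of `exp (-c n²)` over `ℤ`. -/
lemma summable_exp_neg_mul_int_sq {c : ℝ} (hc : 0 < c) :
    Summable (fun n : ℤ => rexp (-c * (n : ℝ) ^ 2)) := by
  have h := summable_pow_mul_jacobiTheta₂_term_bound 0 (T := c / π) (div_pos hc pi_pos) 0
  refine h.congr fun n => ?_
  simp only [pow_zero, one_mul, mul_zero, zero_mul, sub_zero]
  congr 1
  field_simp

/-- The uniform constant for one-dimensional shifted Gaussian sums. -/
def K1 (c : ℝ) : ℝ := rexp c * ∑' m : ℤ, rexp (-(c / 2) * (m : ℝ) ^ 2)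

lemma K1_nonneg (c : ℝ) : 0 ≤ K1 c :=
  mul_nonneg (exp_pos _).le (tsum_nonneg fun _ => (exp_pos _).le)

lemma sq_add_ge (m t : ℝ) : m ^ 2 / 2 - t ^ 2 ≤ (m + t) ^ 2 := by
  nlinarith [sq_nonneg (m + 2 * t)]

/-- One-dimensional shifted Gaussian sums are summable, with a bound uniform in the shift. -/
lemma one_dim_bound {c : ℝ} (hc : 0 < c) (s : ℝ) :
    Summable (fun n : ℤ => rexp (-c * ((n : ℝ) + s) ^ 2)) ∧
      ∑' n : ℤ, rexp (-c * ((n : ℝ) + s) ^ 2) ≤ K1 c := by
  have hc2 : 0 < c / 2 := by positivity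
  have hsum := summable_exp_neg_mul_int_sq hc2
  -- pointwise bound for any shift t
  have hpt : ∀ (t : ℝ) (m : ℤ), rexp (-c * ((m : ℝ) + t) ^ 2) ≤
      rexp (c * t ^ 2) * rexp (-(c / 2) * (m : ℝ) ^ 2) := by
    intro t m
    rw [← Real.exp_add]
    apply Real.exp_le_exp.mpr
    have := sq_add_ge (m : ℝ) t
    nlinarith
  have hS : ∀ t : ℝ, Summable (fun n : ℤ => rexp (-c * ((n : ℝ) + t) ^ 2)) := fun t =>
    Summable.of_nonneg_of_le (fun _ => (exp_pos _).le) (hpt t) (hsum.mul_left _)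
  refine ⟨hS s, ?_⟩
  -- reduce to the fractional part
  have hre : ∑' n : ℤ, rexp (-c * ((n : ℝ) + s) ^ 2) =
      ∑' m : ℤ, rexp (-c * ((m : ℝ) + Int.fract s) ^ 2) := by
    rw [← (Equiv.addRight ⌊s⌋).tsum_eq (fun m : ℤ => rexp (-c * ((m : ℝ) + Int.fract s) ^ 2))]
    refine tsum_congr fun n => ?_
    simp only [Equiv.coe_addRight, Int.cast_add]
    have h : (n : ℝ) + s = (n : ℝ) + (⌊s⌋ : ℝ) + Int.fract s := by
      linarith [Int.floor_add_fract s]
    rw [h]
  rw [hre]
  have hfr : (Int.fract s) ^ 2 ≤ 1 := by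
    have h0 := Int.fract_nonneg s
    have h1 := (Int.fract_lt_one s).le
    nlinarith
  calc ∑' m : ℤ, rexp (-c * ((m : ℝ) + Int.fract s) ^ 2)
      ≤ ∑' m : ℤ, rexp (c * (Int.fract s) ^ 2) * rexp (-(c / 2) * (m : ℝ) ^ 2) :=
        (hS _).tsum_le_tsum (hpt _) (hsum.mul_left _)
    _ = rexp (c * (Int.fract s) ^ 2) * ∑' m : ℤ, rexp (-(c / 2) * (m : ℝ) ^ 2) := tsum_mul_left
    _ ≤ K1 c := by
        unfold K1
        apply mul_le_mul_of_nonneg_right _ (tsum_nonneg fun _ => (exp_pos _).le)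
        apply Real.exp_le_exp.mpr
        nlinarith

lemma cons_add_real {n : ℕ} (x0 : ℤ) (x' : Fin n → ℤ) (v : Fin (n + 1) → ℝ) :
    (fun i => (((Fin.cons x0 x' : Fin (n + 1) → ℤ) i : ℤ) : ℝ) + v i) =
      Fin.cons ((x0 : ℝ) + v 0) (fun j => (x' j : ℝ) + v j.succ) := by
  funext i
  refine Fin.cases ?_ (fun j => ?_) i <;> simp

lemma cons_sub_real {n : ℕ} (x0 : ℤ) (x' : Fin n → ℤ) (w : Fin (n + 1) → ℝ) :
    (fun i => (((Fin.cons x0 x' : Fin (n + 1) → ℤ) i : ℤ) : ℝ) - w i) =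
      Fin.cons ((x0 : ℝ) - w 0) (fun j => (x' j : ℝ) - w j.succ) := by
  funext i
  refine Fin.cases ?_ (fun j => ?_) i <;> simp

/-- **Claim A**: Gaussian sums of a positive definite form over shifted `ℤⁿ` are summable, with a
bound uniform in the shift. -/
theorem gauss_sum_bound : ∀ (n : ℕ) (M : Matrix (Fin n) (Fin n) ℝ), IsPD M → ∀ t : ℝ, 0 < t →
    ∃ K : ℝ, 0 ≤ K ∧ ∀ v : Fin n → ℝ,
      Summable (fun x : Fin n → ℤ => rexp (-t * qf M (fun i => (x i : ℝ) + v i))) ∧
      ∑' x : Fin n → ℤ, rexp (-t * qf M (fun i => (x i : ℝ) + v i)) ≤ K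
  | 0, M, _, t, _ => ⟨1, zero_le_one, fun v => by
      refine ⟨Summable.of_finite, ?_⟩
      rw [tsum_fintype]
      simp [qf_zero_dim]⟩
  | (n + 1), M, hM, t, ht => by
      obtain ⟨K', hK'0, hK'⟩ := gauss_sum_bound n (schur M) hM.schur t ht
      have hp := hM.piv_pos
      have htp : 0 < t * piv M := mul_pos ht hp
      refine ⟨K1 (t * piv M) * K', mul_nonneg (K1_nonneg _) hK'0, fun v => ?_⟩
      let e : (Fin n → ℤ) × ℤ ≃ (Fin (n + 1) → ℤ) :=
        (Equiv.prodComm _ _).trans (Fin.consEquiv fun _ => ℤ)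
      let F : (Fin (n + 1) → ℤ) → ℝ := fun x => rexp (-t * qf M (fun i => (x i : ℝ) + v i))
      let g : (Fin n → ℤ) → ℝ := fun x' => rexp (-t * qf (schur M) (fun j => (x' j : ℝ) + v j.succ))
      let sh : (Fin n → ℤ) → ℝ := fun x' =>
        v 0 + (∑ j, row M j * ((x' j : ℝ) + v j.succ)) / piv M
      have hF : ∀ x' x0, F (e (x', x0)) =
          rexp (-(t * piv M) * ((x0 : ℝ) + sh x') ^ 2) * g x' := by
        intro x' x0
        show rexp (-t * qf M (fun i => (((Fin.cons x0 x' : Fin (n + 1) → ℤ) i : ℤ) : ℝ) + v i)) = _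
        rw [cons_add_real, qf_cons M hM.symm hp.ne', ← Real.exp_add]
        congr 1
        simp only [sh]
        ring
      have h := summable_prod_bound (f := fun q => F (e q)) (g := g) (K := K1 (t * piv M))
        (G := K') (fun q => (exp_pos _).le) (K1_nonneg _)
        (fun x' => by
          simp only [hF]
          exact ((one_dim_bound htp (sh x')).1).mul_right _)
        (fun x' => by
          simp only [hF]
          rw [tsum_mul_right]
          exact mul_le_mul_of_nonneg_right (one_dim_bound htp (sh x')).2 (exp_pos _).le)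
        (hK' fun j => v j.succ).1 (hK' fun j => v j.succ).2
      refine ⟨(e.summable_iff (f := F)).1 h.1, ?_⟩
      have := e.tsum_eq F
      rw [← this]
      exact h.2

/-- **Claim B**: the same for the dual form. -/
theorem dual_sum_bound : ∀ (n : ℕ) (M : Matrix (Fin n) (Fin n) ℝ), IsPD M → ∀ t : ℝ, 0 < t →
    ∃ K : ℝ, 0 ≤ K ∧ ∀ w : Fin n → ℝ,
      Summable (fun x : Fin n → ℤ => rexp (-t * dualqf n M (fun i => (x i : ℝ) - w i))) ∧
      ∑' x : Fin n → ℤ, rexp (-t * dualqf n M (fun i => (x i : ℝ) - w i)) ≤ K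
  | 0, M, _, t, _ => ⟨1, zero_le_one, fun v => by
      refine ⟨Summable.of_finite, ?_⟩
      rw [tsum_fintype]
      simp⟩
  | (n + 1), M, hM, t, ht => by
      obtain ⟨K', hK'0, hK'⟩ := dual_sum_bound n (schur M) hM.schur t ht
      have hp := hM.piv_pos
      have htp : 0 < t / piv M := div_pos ht hp
      refine ⟨K' * K1 (t / piv M), mul_nonneg hK'0 (K1_nonneg _), fun w => ?_⟩
      let e : ℤ × (Fin n → ℤ) ≃ (Fin (n + 1) → ℤ) := Fin.consEquiv fun _ => ℤ
      let F : (Fin (n + 1) → ℤ) → ℝ :=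
        fun x => rexp (-t * dualqf (n + 1) M (fun i => (x i : ℝ) - w i))
      let g : ℤ → ℝ := fun x0 => rexp (-(t / piv M) * ((x0 : ℝ) + (-w 0)) ^ 2)
      let w2 : ℤ → Fin n → ℝ := fun x0 j => w j.succ + ((x0 : ℝ) - w 0) * row M j / piv M
      have hF : ∀ x0 x', F (e (x0, x')) =
          g x0 * rexp (-t * dualqf n (schur M) (fun j => (x' j : ℝ) - w2 x0 j)) := by
        intro x0 x'
        show rexp (-t * dualqf (n + 1) M
          (fun i => (((Fin.cons x0 x' : Fin (n + 1) → ℤ) i : ℤ) : ℝ) - w i)) = _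
        rw [cons_sub_real, dualqf_succ, ← Real.exp_add]
        simp only [Fin.cons_zero, Fin.cons_succ, g, w2]
        have : (fun j => (x' j : ℝ) - w j.succ - ((x0 : ℝ) - w 0) * row M j / piv M) =
            fun j => (x' j : ℝ) - (w j.succ + ((x0 : ℝ) - w 0) * row M j / piv M) := by
          funext j; ring
        rw [this]
        congr 1
        ring
      have h := summable_prod_bound (f := fun q => F (e q)) (g := g) (K := K')
        (G := K1 (t / piv M)) (fun q => (exp_pos _).le) hK'0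
        (fun x0 => by
          simp only [hF]
          exact ((hK' (w2 x0)).1).mul_left _)
        (fun x0 => by
          simp only [hF]
          rw [tsum_mul_left, mul_comm]
          exact mul_le_mul_of_nonneg_right (hK' (w2 x0)).2 (exp_pos _).le)
        (one_dim_bound htp (-w 0)).1 (one_dim_bound htp (-w 0)).2
      refine ⟨(e.summable_iff (f := F)).1 h.1, ?_⟩
      have := e.tsum_eq F
      rw [← this]
      exact h.2

end

end Fermat.Agent.S16.Theta.GP
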