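/-
T16 / LB-Θ, package Θ-d (helper38): Schreier generators of `Γ₀(p)` inside `SL(2, ℤ)`.  Mathlib only.

Right transversal of `Γ₀(p)` in `SL(2, ℤ)`: `{1} ∪ {S T^j : 0 ≤ j < p}` (bottom rows `(0:1)`, `(1:j)`).
Schreier's lemma (`Subgroup.closure_mul_image_eq`) with `SL(2, ℤ) = ⟨S, T⟩` gives the generators
`T`, `-1 = S²`, `S T^p S⁻¹` and `U(j,j') := S T^j S T^(-j') S⁻¹` with `p ∣ j j' + 1`.

EXPORTS (namespace `Fermat.Agent.S16.Theta`):
* `genU j j' : SL(2, ℤ) := S * T ^ j * S * T ^ (-j') * S⁻¹`, `coe_genU : ↑(genU j j') = !![-j', -1; j * j' + 1, j]`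
* `gens p : Set SL(2, ℤ)` the generating set, `gens_subset_Gamma0`
* `closure_gens_eq_Gamma0 (p) [Fact p.Prime] : Subgroup.closure (gens p) = Gamma0 p`
* `gamma0_le_closure (p) (hp : p.Prime)` : the `≥` half in the exact shape of `Theta/Skeleton.lean`
* `Gamma0_induction` : a predicate closed under `*`, `⁻¹`, true on `1` and on the generators
  holds on all of `Γ₀(p)`.
-/
import Mathlib

set_option autoImplicit false

open ModularGroup CongruenceSubgroup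
open scoped MatrixGroups Pointwise

namespace Fermat.Agent.S16.Theta

/-- `U(j, j') = S T^j S T^(-j') S⁻¹`; it lies in `Γ₀(p)` iff `p ∣ j j' + 1`. -/
def genU (j j' : ℤ) : SL(2, ℤ) := S * T ^ j * S * T ^ (-j') * S⁻¹

theorem coe_S_mul_T_zpow (k : ℤ) : (S * T ^ k : SL(2, ℤ)).1 = !![0, -1; 1, k] := by
  rw [Matrix.SpecialLinearGroup.coe_mul, coe_T_zpow, coe_S]
  ext i j; fin_cases i <;> fin_cases j <;> simp [Matrix.mul_apply, Fin.sum_univ_two]

theorem coe_S_inv : (S⁻¹ : SL(2, ℤ)).1 = !![0, 1; -1, 0] := by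
  rw [S_inv, Matrix.SpecialLinearGroup.coe_neg, coe_S]
  ext i j; fin_cases i <;> fin_cases j <;> simp

theorem coe_S_mul_T_zpow_inv (k : ℤ) : ((S * T ^ k)⁻¹ : SL(2, ℤ)).1 = !![k, 1; -1, 0] := by
  rw [mul_inv_rev, ← zpow_neg, Matrix.SpecialLinearGroup.coe_mul, coe_T_zpow, coe_S_inv]
  ext i j; fin_cases i <;> fin_cases j <;> simp [Matrix.mul_apply, Fin.sum_univ_two]

theorem coe_S_mul_T_zpow_mul_S_inv (k : ℤ) :
    (S * T ^ k * S⁻¹ : SL(2, ℤ)).1 = !![1, 0; -k, 1] := by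
  rw [Matrix.SpecialLinearGroup.coe_mul, coe_S_mul_T_zpow, coe_S_inv]
  ext i j; fin_cases i <;> fin_cases j <;> simp [Matrix.mul_apply, Fin.sum_univ_two]

theorem coe_genU (j j' : ℤ) : (genU j j').1 = !![-j', -1; j * j' + 1, j] := by
  have h : genU j j' = (S * T ^ j) * (S * T ^ (-j') * S⁻¹) := by
    simp only [genU, mul_assoc]
  rw [h, Matrix.SpecialLinearGroup.coe_mul, coe_S_mul_T_zpow, coe_S_mul_T_zpow_mul_S_inv]
  ext i k; fin_cases i <;> fin_cases k <;> simp [Matrix.mul_apply, Fin.sum_univ_two]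
  ring

theorem mem_Gamma0_iff_dvd {N : ℕ} {g : SL(2, ℤ)} : g ∈ Gamma0 N ↔ (N : ℤ) ∣ g 1 0 := by
  rw [Gamma0_mem, ZMod.intCast_zmod_eq_zero_iff_dvd]

/-- The generating set. -/
def gens (p : ℕ) : Set SL(2, ℤ) :=
  {T, -1, S * T ^ (p : ℤ) * S⁻¹} ∪ {g | ∃ j j' : ℤ, (p : ℤ) ∣ j * j' + 1 ∧ g = genU j j'}

theorem T_mem_gens (p : ℕ) : T ∈ gens p := Or.inl (by simp)
theorem neg_one_mem_gens (p : ℕ) : (-1 : SL(2, ℤ)) ∈ gens p := Or.inl (by simp)
theorem STpS_mem_gens (p : ℕ) : S * T ^ (p : ℤ) * S⁻¹ ∈ gens p := Or.inl (by simp)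
theorem genU_mem_gens {p : ℕ} {j j' : ℤ} (h : (p : ℤ) ∣ j * j' + 1) : genU j j' ∈ gens p :=
  Or.inr ⟨j, j', h, rfl⟩

theorem gens_subset_Gamma0 (p : ℕ) : gens p ⊆ (Gamma0 p : Set SL(2, ℤ)) := by
  rintro g (hg | ⟨j, j', hj, rfl⟩)
  · simp only [Set.mem_insert_iff, Set.mem_singleton_iff] at hg
    rcases hg with rfl | rfl | rfl
    · rw [SetLike.mem_coe, mem_Gamma0_iff_dvd]; simp [coe_T]
    · rw [SetLike.mem_coe, mem_Gamma0_iff_dvd]; simp
    · rw [SetLike.mem_coe, mem_Gamma0_iff_dvd]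
      show (p : ℤ) ∣ (S * T ^ (p : ℤ) * S⁻¹ : SL(2, ℤ)).1 1 0
      rw [coe_S_mul_T_zpow_mul_S_inv]; simp
  · rw [SetLike.mem_coe, mem_Gamma0_iff_dvd]
    show (p : ℤ) ∣ (genU j j').1 1 0
    rw [coe_genU]; simpa using hj

/-- Coset representatives. -/
def rep (p : ℕ) : Option (Fin p) → SL(2, ℤ)
  | none => 1
  | some j => S * T ^ ((j : ℕ) : ℤ)

/-- The right transversal `{1} ∪ {S T^j}`. -/
def transversal (p : ℕ) : Set SL(2, ℤ) := Set.range (rep p)

theorem one_mem_transversal (p : ℕ) : (1 : SL(2, ℤ)) ∈ transversal p := ⟨none, rfl⟩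

theorem mul_rep_inv_mem_iff (p : ℕ) (g : SL(2, ℤ)) (k : ℤ) :
    g * (S * T ^ k)⁻¹ ∈ Gamma0 p ↔ (p : ℤ) ∣ g 1 0 * k - g 1 1 := by
  rw [mem_Gamma0_iff_dvd]
  have : (g * (S * T ^ k)⁻¹ : SL(2, ℤ)).1 1 0 = g 1 0 * k - g 1 1 := by
    rw [Matrix.SpecialLinearGroup.coe_mul, coe_S_mul_T_zpow_inv]
    simp [Matrix.mul_apply, Fin.sum_univ_two]; ring
  exact this ▸ Iff.rfl

theorem det_eq (g : SL(2, ℤ)) : g 0 0 * g 1 1 - g 0 1 * g 1 0 = 1 := by
  have := g.2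
  rw [Matrix.det_fin_two] at this
  exact this

theorem isComplement_transversal (p : ℕ) [hp : Fact p.Prime] :
    Subgroup.IsComplement (Gamma0 p : Set SL(2, ℤ)) (transversal p) := by
  have hp' : Prime (p : ℤ) := Nat.prime_iff_prime_int.1 hp.out
  have hp0 : 0 < p := hp.out.pos
  rw [Subgroup.isComplement_iff_existsUnique_mul_inv_mem]
  intro g
  have hdet := det_eq g
  -- `p` cannot divide both `c` and `d`
  have hcd : (p : ℤ) ∣ g 1 0 → (p : ℤ) ∣ g 1 1 → False := by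
    intro h1 h2
    have : (p : ℤ) ∣ 1 := by
      rw [← hdet]
      exact dvd_sub (Dvd.dvd.mul_left h2 _) (Dvd.dvd.mul_left h1 _)
    exact hp'.not_dvd_one this
  by_cases hc : (p : ℤ) ∣ g 1 0
  · refine ⟨⟨1, one_mem_transversal p⟩, ?_, ?_⟩
    · show (g * (1 : SL(2, ℤ))⁻¹) ∈ Gamma0 p
      rw [inv_one, mul_one, mem_Gamma0_iff_dvd]; exact hc
    · rintro ⟨_, ⟨x, rfl⟩⟩ hx
      rcases x with _ | j
      · rfl
      · exfalso
        simp only [rep] at hx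
        rw [SetLike.mem_coe, mul_rep_inv_mem_iff] at hx
        apply hcd hc
        have := dvd_sub (Dvd.dvd.mul_right hc ((j : ℕ) : ℤ)) hx
        simpa using this
  · -- `c` is invertible mod `p`
    have hc' : ((g 1 0 : ℤ) : ZMod p) ≠ 0 := by
      rwa [Ne, ZMod.intCast_zmod_eq_zero_iff_dvd]
    set j : ZMod p := ((g 1 1 : ℤ) : ZMod p) * ((g 1 0 : ℤ) : ZMod p)⁻¹ with hj
    have hjlt : j.val < p := ZMod.val_lt j
    have hjdvd : (p : ℤ) ∣ g 1 0 * ((j.val : ℕ) : ℤ) - g 1 1 := by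
      rw [← ZMod.intCast_zmod_eq_zero_iff_dvd]
      push_cast
      rw [ZMod.natCast_zmod_val, hj, mul_comm ((g 1 1 : ℤ) : ZMod p), ← mul_assoc,
        mul_inv_cancel₀ hc', one_mul, sub_self]
    refine ⟨⟨rep p (some ⟨j.val, hjlt⟩), ⟨_, rfl⟩⟩, ?_, ?_⟩
    · simp only [rep]
      rw [SetLike.mem_coe, mul_rep_inv_mem_iff]
      exact hjdvd
    · rintro ⟨_, ⟨x, rfl⟩⟩ hx
      rcases x with _ | k
      · exfalso
        simp only [rep, inv_one, mul_one, SetLike.mem_coe] at hx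
        exact hc (mem_Gamma0_iff_dvd.1 hx)
      · simp only [rep] at hx
        rw [SetLike.mem_coe, mul_rep_inv_mem_iff] at hx
        have h3 : (p : ℤ) ∣ g 1 0 * (((k : ℕ) : ℤ) - ((j.val : ℕ) : ℤ)) := by
          have := dvd_sub hx hjdvd
          have e : g 1 0 * ((k : ℕ) : ℤ) - g 1 1 - (g 1 0 * ((j.val : ℕ) : ℤ) - g 1 1) =
              g 1 0 * (((k : ℕ) : ℤ) - ((j.val : ℕ) : ℤ)) := by ring
          rwa [e] at this
        have h4 : (p : ℤ) ∣ ((k : ℕ) : ℤ) - ((j.val : ℕ) : ℤ) :=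
          (hp'.dvd_or_dvd h3).resolve_left hc
        have hk : (k : ℕ) < p := k.2
        have h5 : ((k : ℕ) : ℤ) - ((j.val : ℕ) : ℤ) = 0 := by
          apply Int.eq_zero_of_abs_lt_dvd h4
          rw [abs_lt]; constructor <;> omega
        have h6 : (k : ℕ) = j.val := by omega
        have : k = ⟨j.val, hjlt⟩ := Fin.ext h6
        subst this
        rfl

theorem STmS_mem_closure (p : ℕ) {m : ℤ} (hm : (p : ℤ) ∣ m) :
    S * T ^ m * S⁻¹ ∈ Subgroup.closure (gens p) := by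
  obtain ⟨q, rfl⟩ := hm
  have : S * T ^ ((p : ℤ) * q) * S⁻¹ = (S * T ^ (p : ℤ) * S⁻¹) ^ q := by
    rw [_root_.zpow_mul, conj_zpow]
  rw [this]
  exact Subgroup.zpow_mem _ (Subgroup.subset_closure (STpS_mem_gens p)) q

theorem schreier_image_subset (p : ℕ) [Fact p.Prime]
    (hR : Subgroup.IsComplement (Gamma0 p : Set SL(2, ℤ)) (transversal p)) :
    ((transversal p * ({S, T} : Set SL(2, ℤ))).image
      fun g => g * (hR.toRightFun g : SL(2, ℤ))⁻¹) ⊆ (Subgroup.closure (gens p) : Set SL(2, ℤ)) := by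
  rintro _ ⟨_, ⟨_, ⟨x, rfl⟩, s, hs, rfl⟩, rfl⟩
  have hmem := hR.mul_inv_toRightFun_mem (rep p x * s)
  obtain ⟨y, hy⟩ := (hR.toRightFun (rep p x * s)).2
  simp only
  rw [← hy] at hmem ⊢
  rw [SetLike.mem_coe]
  simp only [Set.mem_insert_iff, Set.mem_singleton_iff] at hs
  rcases hs with rfl | rfl
  · -- s = S
    rcases x with _ | j <;> rcases y with _ | k
    · -- 1 * S * 1⁻¹ ∈ Γ₀(p): impossible
      exfalso
      simp only [rep, one_mul, inv_one, mul_one] at hmem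
      rw [mem_Gamma0_iff_dvd] at hmem
      have hp' : Prime (p : ℤ) := Nat.prime_iff_prime_int.1 (Fact.out)
      apply hp'.not_dvd_one
      simpa [coe_S] using hmem
    · -- S * (S T^k)⁻¹ = S T^(-k) S⁻¹
      simp only [rep, one_mul] at hmem ⊢
      have e : S * (S * T ^ ((k : ℕ) : ℤ))⁻¹ = S * T ^ (-((k : ℕ) : ℤ)) * S⁻¹ := by
        rw [mul_inv_rev, zpow_neg, mul_assoc]
      rw [e] at hmem ⊢
      apply STmS_mem_closure
      rw [mem_Gamma0_iff_dvd] at hmem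
      have : (S * T ^ (-((k : ℕ) : ℤ)) * S⁻¹ : SL(2, ℤ)).1 1 0 = ((k : ℕ) : ℤ) := by
        rw [coe_S_mul_T_zpow_mul_S_inv]; simp
      rw [show (S * T ^ (-((k : ℕ) : ℤ)) * S⁻¹ : SL(2, ℤ)) 1 0 =
        (S * T ^ (-((k : ℕ) : ℤ)) * S⁻¹ : SL(2, ℤ)).1 1 0 from rfl, this] at hmem
      exact (dvd_neg).2 hmem
    · -- S T^j S ∈ Γ₀(p), so p ∣ j, and S T^j S = (S T^j S⁻¹) * (-1)
      simp only [rep, inv_one, mul_one] at hmem ⊢
      have e : S * T ^ ((j : ℕ) : ℤ) * S = (S * T ^ ((j : ℕ) : ℤ) * S⁻¹) * (-1) := by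
        rw [S_inv]; simp
      rw [e] at hmem ⊢
      refine Subgroup.mul_mem _ (STmS_mem_closure p ?_)
        (Subgroup.subset_closure (neg_one_mem_gens p))
      rw [mem_Gamma0_iff_dvd] at hmem
      have : ((S * T ^ ((j : ℕ) : ℤ) * S⁻¹) * (-1) : SL(2, ℤ)).1 1 0 = ((j : ℕ) : ℤ) := by
        rw [Matrix.SpecialLinearGroup.coe_mul, coe_S_mul_T_zpow_mul_S_inv]
        simp [Matrix.mul_apply, Fin.sum_univ_two]
      rw [show ((S * T ^ ((j : ℕ) : ℤ) * S⁻¹) * (-1) : SL(2, ℤ)) 1 0 =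
        ((S * T ^ ((j : ℕ) : ℤ) * S⁻¹) * (-1) : SL(2, ℤ)).1 1 0 from rfl, this] at hmem
      exact hmem
    · -- S T^j S (S T^k)⁻¹ = genU j k
      simp only [rep] at hmem ⊢
      have e : S * T ^ ((j : ℕ) : ℤ) * S * (S * T ^ ((k : ℕ) : ℤ))⁻¹ =
          genU ((j : ℕ) : ℤ) ((k : ℕ) : ℤ) := by
        rw [genU, mul_inv_rev, zpow_neg]; simp only [mul_assoc]
      rw [e] at hmem ⊢
      apply Subgroup.subset_closure
      apply genU_mem_gens
      rw [mem_Gamma0_iff_dvd] at hmem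
      rw [show (genU ((j : ℕ) : ℤ) ((k : ℕ) : ℤ)) 1 0 =
        (genU ((j : ℕ) : ℤ) ((k : ℕ) : ℤ)).1 1 0 from rfl, coe_genU] at hmem
      simpa using hmem
  · -- s = T
    rcases x with _ | j <;> rcases y with _ | k
    · simp only [rep, one_mul, inv_one, mul_one]
      exact Subgroup.subset_closure (T_mem_gens p)
    · -- T (S T^k)⁻¹ ∈ Γ₀(p): impossible
      exfalso
      simp only [rep, one_mul] at hmem
      rw [mul_rep_inv_mem_iff] at hmem
      have hp' : Prime (p : ℤ) := Nat.prime_iff_prime_int.1 (Fact.out)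
      apply hp'.not_dvd_one
      have : (T : SL(2, ℤ)) 1 0 * ((k : ℕ) : ℤ) - (T : SL(2, ℤ)) 1 1 = -1 := by
        simp [coe_T]
      rw [this] at hmem
      exact (dvd_neg).1 hmem
    · -- S T^j T ∈ Γ₀(p): impossible
      exfalso
      simp only [rep, inv_one, mul_one] at hmem
      rw [mem_Gamma0_iff_dvd] at hmem
      have hp' : Prime (p : ℤ) := Nat.prime_iff_prime_int.1 (Fact.out)
      apply hp'.not_dvd_one
      have e : S * T ^ ((j : ℕ) : ℤ) * T = S * T ^ (((j : ℕ) : ℤ) + 1) := by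
        rw [mul_assoc, zpow_add_one]
      rw [e] at hmem
      have : (S * T ^ (((j : ℕ) : ℤ) + 1) : SL(2, ℤ)).1 1 0 = 1 := by
        rw [coe_S_mul_T_zpow]; simp
      rw [show (S * T ^ (((j : ℕ) : ℤ) + 1) : SL(2, ℤ)) 1 0 =
        (S * T ^ (((j : ℕ) : ℤ) + 1) : SL(2, ℤ)).1 1 0 from rfl, this] at hmem
      exact hmem
    · -- S T^(j+1-k) S⁻¹
      simp only [rep] at hmem ⊢
      have e : S * T ^ ((j : ℕ) : ℤ) * T * (S * T ^ ((k : ℕ) : ℤ))⁻¹ =
          S * T ^ (((j : ℕ) : ℤ) + 1 - ((k : ℕ) : ℤ)) * S⁻¹ := by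
        rw [mul_inv_rev, zpow_sub, zpow_add_one]; simp only [mul_assoc]
      rw [e] at hmem ⊢
      apply STmS_mem_closure
      rw [mem_Gamma0_iff_dvd] at hmem
      rw [show (S * T ^ (((j : ℕ) : ℤ) + 1 - ((k : ℕ) : ℤ)) * S⁻¹ : SL(2, ℤ)) 1 0 =
        (S * T ^ (((j : ℕ) : ℤ) + 1 - ((k : ℕ) : ℤ)) * S⁻¹ : SL(2, ℤ)).1 1 0 from rfl,
        coe_S_mul_T_zpow_mul_S_inv] at hmem
      have : (p : ℤ) ∣ -(((j : ℕ) : ℤ) + 1 - ((k : ℕ) : ℤ)) := by simpa using hmem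
      exact (dvd_neg).1 this

/-- **Generators of `Γ₀(p)`** (Schreier). -/
theorem closure_gens_eq_Gamma0 (p : ℕ) [Fact p.Prime] :
    Subgroup.closure (gens p) = Gamma0 p := by
  apply le_antisymm
  · rw [Subgroup.closure_le]; exact gens_subset_Gamma0 p
  · have hR := isComplement_transversal p
    rw [← Subgroup.closure_mul_image_eq hR (one_mem_transversal p)
      SpecialLinearGroup.SL2Z_generators, Subgroup.closure_le]
    exact schreier_image_subset p hR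

/-- The statement in the exact shape of `Theta/Skeleton.lean` (Θ-d). -/
theorem gamma0_le_closure (p : ℕ) (hp : p.Prime) :
    CongruenceSubgroup.Gamma0 p ≤ Subgroup.closure
      ({ModularGroup.T, -1, ModularGroup.S * ModularGroup.T ^ (p : ℤ) * ModularGroup.S⁻¹} ∪
        {g | ∃ j k : ℤ, (p : ℤ) ∣ j * k + 1 ∧
          g = ModularGroup.S * ModularGroup.T ^ j * ModularGroup.S *
            ModularGroup.T ^ (-k) * ModularGroup.S⁻¹}) := by
  have : Fact p.Prime := ⟨hp⟩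
  exact (closure_gens_eq_Gamma0 p).ge

/-- Induction principle: to prove `P g` for all `g ∈ Γ₀(p)` it suffices to prove it for the
generators `T`, `-1`, `S T^p S⁻¹`, `U(j,j')` (`p ∣ j j' + 1`) and that `P` is closed under
products and inverses. -/
theorem Gamma0_induction (p : ℕ) [Fact p.Prime] {P : SL(2, ℤ) → Prop}
    (h1 : P 1) (hmul : ∀ a b, P a → P b → P (a * b)) (hinv : ∀ a, P a → P a⁻¹)
    (hT : P T) (hneg : P (-1)) (hp : P (S * T ^ (p : ℤ) * S⁻¹))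
    (hU : ∀ j j' : ℤ, (p : ℤ) ∣ j * j' + 1 → P (genU j j'))
    {g : SL(2, ℤ)} (hg : g ∈ Gamma0 p) : P g := by
  rw [← closure_gens_eq_Gamma0 p] at hg
  induction hg using Subgroup.closure_induction with
  | mem x hx =>
    rcases hx with hx | ⟨j, j', hj, rfl⟩
    · simp only [Set.mem_insert_iff, Set.mem_singleton_iff] at hx
      rcases hx with rfl | rfl | rfl
      · exact hT
      · exact hneg
      · exact hp
    · exact hU j j' hj
  | one => exact h1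
  | mul x y _ _ hx hy => exact hmul x y hx hy
  | inv x _ hx => exact hinv x hx

end Fermat.Agent.S16.Theta
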