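/-
T16 / LB-Θ SKELETON (helper3): exact statements of the packages Θ-a .. Θ-f, bodies `sorry`.
This file is NEVER imported by anything graded; owners prove the SAME statement in their own file
(Poisson4.lean, LatticeTheta.lean, Weil.lean, Schreier.lean, Lattices.lean, Form.lean), same
namespace Fermat.Agent.S16.Theta, and post the compiled signature on topic T16.
If a shape is wrong or inconvenient: say so on T16 and change it in YOUR file.
-/
import Fermat.Agent.S16.Theta.Defs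

set_option autoImplicit false

open Complex Matrix
open scoped UpperHalfPlane Real MatrixGroups ModularForm Manifold

namespace Fermat.Agent.S16.Theta.Skeleton

/-! ### Θ-a  Poisson4.lean : Gaussian Poisson summation in 4 variables (Mathlib only)
Iterate `Complex.tsum_exp_neg_quadratic` four times after `M = Uᵀ diag(d) U` (`U` unipotent). -/

theorem summable_cexp_quadForm (M : Matrix (Fin 4) (Fin 4) ℝ) (hM : M.PosDef) (τ : ℂ)
    (hτ : 0 < τ.im) (v : Fin 4 → ℝ) :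
    Summable fun x : Fin 4 → ℤ =>
      cexp (π * I * τ * (((fun i => (x i : ℝ) + v i) ⬝ᵥ M.mulVec (fun i => (x i : ℝ) + v i) : ℝ) : ℂ)) := by
  sorry

theorem tsum_cexp_quadForm_four (M : Matrix (Fin 4) (Fin 4) ℝ) (hM : M.PosDef) (τ : ℂ)
    (hτ : 0 < τ.im) (v : Fin 4 → ℝ) :
    ∑' x : Fin 4 → ℤ,
      cexp (π * I * τ * (((fun i => (x i : ℝ) + v i) ⬝ᵥ M.mulVec (fun i => (x i : ℝ) + v i) : ℝ) : ℂ)) =
    -(1 / (τ ^ 2 * ((Real.sqrt M.det : ℝ) : ℂ))) *
      ∑' ξ : Fin 4 → ℤ,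
        cexp (-(π * I / τ) * (((fun i => (ξ i : ℝ)) ⬝ᵥ M⁻¹.mulVec (fun i => (ξ i : ℝ)) : ℝ) : ℂ)
          + 2 * π * I * ((∑ i, (ξ i : ℝ) * v i : ℝ) : ℂ)) := by
  sorry

/-! ### Θ-b  LatticeTheta.lean : the theta functions of a `QuatLattice` form a `WeilData` -/

section b
variable {p : ℕ} (L : QuatLattice p)

/-- the main deliverable of Θ-b -/
theorem exists_weilData (hp : p.Prime) :
    ∃ (_ : Fintype L.D) (W : WeilData p L.D),
      W.θ 0 = L.theta 0 := by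
  sorry

/-- `θ_0 = Σ r(n) qⁿ` -/
theorem hasSum_theta_zero (hp : 0 < p) (τ : ℍ) :
    HasSum (fun n : ℕ => (L.rep n : ℂ) * cexp (2 * π * I * n * τ)) (L.theta 0 τ) := by
  sorry

theorem rep_zero (hp : 0 < p) : L.rep 0 = 1 := by
  sorry

theorem even_rep (hp : 0 < p) (n : ℕ) (hn : 1 ≤ n) : Even (L.rep n) := by
  sorry

theorem mdifferentiable_theta (hp : 0 < p) (ξ : Fin 4 → ℤ) :
    MDifferentiable 𝓘(ℂ) 𝓘(ℂ) (L.theta ξ) := by
  sorry

end b

/-! ### Θ-c  Weil.lean (helper3) : invariance of `θ_0` under the Schreier generators -/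

section c
variable {p : ℕ} {D : Type} [AddCommGroup D] [Fintype D] (W : WeilData p D)

theorem slash_T (hp : p.Prime) : (W.θ 0) ∣[(2 : ℤ)] ModularGroup.T = W.θ 0 := by
  sorry

theorem slash_neg_one (hp : p.Prime) : (W.θ 0) ∣[(2 : ℤ)] (-1 : SL(2, ℤ)) = W.θ 0 := by
  sorry

theorem slash_S_T_pow_S (hp : p.Prime) :
    (W.θ 0) ∣[(2 : ℤ)] (ModularGroup.S * ModularGroup.T ^ (p : ℤ) * ModularGroup.S⁻¹) = W.θ 0 := by
  sorry

theorem slash_U (hp : p.Prime) (j k : ℤ) (hjk : (p : ℤ) ∣ j * k + 1) :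
    (W.θ 0) ∣[(2 : ℤ)] (ModularGroup.S * ModularGroup.T ^ j * ModularGroup.S *
      ModularGroup.T ^ (-k) * ModularGroup.S⁻¹) = W.θ 0 := by
  sorry

/-- every `SL(2,ℤ)`-translate of `θ_0` is a combination of the `θ_d` (for the cusps) -/
theorem slash_mem_span (hp : p.Prime) (γ : SL(2, ℤ)) :
    ∃ a : D → ℂ, (W.θ 0) ∣[(2 : ℤ)] γ = fun τ => ∑ d, a d * W.θ d τ := by
  sorry

end c

/-! ### Θ-d  Schreier.lean : generators of `Γ₀(p)` (Mathlib `Subgroup.closure_mul_image_eq`,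
transversal `{1} ∪ {S T^j : 0 ≤ j < p}`) -/

theorem gamma0_le_closure (p : ℕ) (hp : p.Prime) :
    CongruenceSubgroup.Gamma0 p ≤ Subgroup.closure
      ({ModularGroup.T, -1, ModularGroup.S * ModularGroup.T ^ (p : ℤ) * ModularGroup.S⁻¹} ∪
        {g | ∃ j k : ℤ, (p : ℤ) ∣ j * k + 1 ∧
          g = ModularGroup.S * ModularGroup.T ^ j * ModularGroup.S *
            ModularGroup.T ^ (-k) * ModularGroup.S⁻¹}) := by
  sorry

/-! ### Θ-e  Lattices.lean : explicit lattices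
`p ≡ 3 (4)`: `A = B ⊕ B`, `B = !![2, 1; 1, (p+1)/2]`, `Adj = B' ⊕ B'`, `B' = !![(p+1)/2, -1; -1, 2]`.
`p ≡ 1 (4)`: maximal order of `(-q, -p)`, `q ≡ 3 (4)` prime, `(p/q) = -1`, `q s = 1 + a² p`. -/

theorem exists_quatLattice (p : ℕ) (hp : p.Prime) (hp2 : p ≠ 2) : Nonempty (QuatLattice p) := by
  sorry

/-! ### Θ-f  Form.lean : the modular form -/

theorem exists_thetaForm (p : ℕ) (hp : p.Prime) (hp2 : p ≠ 2) :
    ∃ Θ : ModularForm (CongruenceSubgroup.Gamma0 p) 2,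
      (UpperHalfPlane.qExpansion 1 (Θ : ℍ → ℂ)).coeff 0 = 1 ∧
      ∀ n : ℕ, 1 ≤ n → ∃ b : ℤ, (UpperHalfPlane.qExpansion 1 (Θ : ℍ → ℂ)).coeff n = 2 * (b : ℂ) := by
  sorry

end Fermat.Agent.S16.Theta.Skeleton
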