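/-
T16 / LB-Θ / Θ-f ASM (helper54): from ONE form `Θ ∈ M₂(Γ₀(p))` with integral `q`-expansion,
`a₀ = 1`, `aₙ` even (`n ≥ 1`), to the lower-bound congruence

  `∃ f ∈ L = intLattice p 2, ∀ k ≥ 1, a_k(f) ∈ ℤ, a_k(f) ≡ σ'(k)  (mod n)`,   `n = eisensteinNumerator p`

(= helper53's `Cong p (eisensteinNumerator p)`, body verbatim).

`f := u d' · (E - ((p-1)/24) Θ)`, `E = eis p` (helper57), `d' = 12 / gcd(p-1,12)`, `u d' ≡ 1 (mod n)`;
`a₀(f) = 0` so `f` is a cusp form by `Form.exists_cuspForm_of_qExpansion_coeff_zero`, and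
`a_k(f) = u d' σ'(k) - u n b_k`.
-/
import Mathlib
import Fermat.Prelude.Def_CuspForm_IntegralStructure
import Fermat.Prelude.Def_ModularCurve_ModularUnit
import Fermat.Prelude.Thm_CongruenceSubgroup_one_mem_strictPeriods_Gamma0
import Fermat.Agent.S16.Eis.QExp
import Fermat.Agent.S16.Theta.Form

set_option autoImplicit false

open UpperHalfPlane ModularForm CongruenceSubgroup
open scoped MatrixGroups ModularForm Manifold

namespace Fermat.Agent.S16.Theta.ThetaCong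

/-- The arithmetic of `n = (p-1)/gcd(p-1,12)` and `d' = 12/gcd(p-1,12)`. -/
theorem exists_arith (p : ℕ) (hp : 2 ≤ p) :
    ∃ d' : ℕ, ∃ u : ℤ, (d' : ℤ) * u ≡ 1 [ZMOD (ModularCurve.eisensteinNumerator p : ℤ)] ∧
      (d' : ℤ) * ((p : ℤ) - 1) = 12 * (ModularCurve.eisensteinNumerator p : ℤ) := by
  unfold ModularCurve.eisensteinNumerator
  set g := Nat.gcd (p - 1) 12 with hg
  have hg0 : 0 < g := Nat.gcd_pos_of_pos_right _ (by norm_num)
  have hgp : g ∣ p - 1 := Nat.gcd_dvd_left _ _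
  have hg12 : g ∣ 12 := Nat.gcd_dvd_right _ _
  have hcop : Nat.Coprime (12 / g) ((p - 1) / g) :=
    (Nat.coprime_div_gcd_div_gcd hg0).symm
  obtain ⟨u, hu⟩ := Int.mod_coprime hcop
  refine ⟨12 / g, u, hu, ?_⟩
  have h1 : (12 / g) * g = 12 := Nat.div_mul_cancel hg12
  have h2 : ((p - 1) / g) * g = p - 1 := Nat.div_mul_cancel hgp
  have h3 : (12 / g) * (p - 1) = 12 * ((p - 1) / g) := by
    calc (12 / g) * (p - 1) = (12 / g) * (((p - 1) / g) * g) := by rw [h2]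
      _ = ((12 / g) * g) * ((p - 1) / g) := by ring
      _ = 12 * ((p - 1) / g) := by rw [h1]
  have h4 : ((p - 1 : ℕ) : ℤ) = (p : ℤ) - 1 := by
    rw [Nat.cast_sub (by omega)]; simp
  rw [← h4]
  exact_mod_cast h3

/-- **Θ-f ASM**: a form `Θ ∈ M₂(Γ₀(p))` with `a₀ = 1` and even higher coefficients yields a cusp
form in the integral lattice congruent to `E' = Σ σ'(k) q^k` modulo `eisensteinNumerator p`. -/
theorem cong_of_thetaForm (p : ℕ) [Fact p.Prime] (Θ : ModularForm (Gamma0 p) 2)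
    (h0 : (qExpansion 1 (Θ : ℍ → ℂ)).coeff 0 = 1)
    (hk : ∀ n : ℕ, 1 ≤ n → ∃ b : ℤ, (qExpansion 1 (Θ : ℍ → ℂ)).coeff n = 2 * (b : ℂ)) :
    ∃ f ∈ CuspForm.intLattice p 2, ∀ k : ℕ, 1 ≤ k → ∃ c : ℤ,
      ModularFormClass.qCoeff f k = (c : ℂ) ∧
      c ≡ ∑ d ∈ k.divisors.filter (fun d => ¬ p ∣ d), (d : ℤ)
        [ZMOD ((ModularCurve.eisensteinNumerator p : ℕ) : ℤ)] := by
  have hp : p.Prime := Fact.out
  have hΓ := CongruenceSubgroup.one_mem_strictPeriods_Gamma0 p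
  have h1 : (0 : ℝ) < 1 := one_pos
  obtain ⟨d', u, hu, hd'⟩ := exists_arith p hp.two_le
  set n : ℕ := ModularCurve.eisensteinNumerator p with hn
  -- the form
  let E : ModularForm (Gamma0 p) 2 := Fermat.Agent.S16.Eis.eis p
  let c0 : ℂ := ((p : ℂ) - 1) / 24
  let w : ℂ := ((u * d' : ℤ) : ℂ)
  let G : ModularForm (Gamma0 p) 2 := w • (E - c0 • Θ)
  have hqG : qExpansion 1 (G : ℍ → ℂ) =
      w • (qExpansion 1 (E : ℍ → ℂ) - c0 • qExpansion 1 (Θ : ℍ → ℂ)) := by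
    have e1 : (G : ℍ → ℂ) = w • ((E - c0 • Θ : ModularForm (Gamma0 p) 2) : ℍ → ℂ) := rfl
    rw [e1, ModularForm.qExpansion_smul h1 hΓ w (E - c0 • Θ)]
    have e2 : ((E - c0 • Θ : ModularForm (Gamma0 p) 2) : ℍ → ℂ)
        = (E : ℍ → ℂ) - ((c0 • Θ : ModularForm (Gamma0 p) 2) : ℍ → ℂ) := rfl
    rw [e2, ModularForm.qExpansion_sub h1 hΓ E (c0 • Θ)]
    have e3 : ((c0 • Θ : ModularForm (Gamma0 p) 2) : ℍ → ℂ) = c0 • (Θ : ℍ → ℂ) := rfl
    rw [e3, ModularForm.qExpansion_smul h1 hΓ c0 Θ]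
  have hE0 : (qExpansion 1 (E : ℍ → ℂ)).coeff 0 = c0 :=
    Fermat.Agent.S16.Eis.qExpansion_eis_coeff_zero p
  have hEk : ∀ k : ℕ, k ≠ 0 → (qExpansion 1 (E : ℍ → ℂ)).coeff k
      = (Fermat.Agent.S16.Eis.sigmaP p k : ℂ) :=
    fun k hk0 => Fermat.Agent.S16.Eis.qExpansion_eis_coeff_pos p hk0
  have hG0 : (qExpansion 1 (G : ℍ → ℂ)).coeff 0 = 0 := by
    rw [hqG]
    simp only [map_smul, map_sub, smul_eq_mul, hE0, h0]
    ring
  -- higher coefficients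
  have hGk : ∀ k : ℕ, 1 ≤ k → ∃ c : ℤ, (qExpansion 1 (G : ℍ → ℂ)).coeff k = (c : ℂ) ∧
      c ≡ ∑ d ∈ k.divisors.filter (fun d => ¬ p ∣ d), (d : ℤ) [ZMOD (n : ℤ)] := by
    intro k hk1
    obtain ⟨b, hb⟩ := hk k hk1
    have hk0 : k ≠ 0 := by omega
    set σ : ℤ := ∑ d ∈ k.divisors.filter (fun d => ¬ p ∣ d), (d : ℤ) with hσ
    have hσ' : (Fermat.Agent.S16.Eis.sigmaP p k : ℂ) = (σ : ℂ) := by
      unfold Fermat.Agent.S16.Eis.sigmaP
      rw [hσ]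
      push_cast
      rfl
    refine ⟨u * d' * σ - u * n * b, ?_, ?_⟩
    · rw [hqG]
      simp only [map_smul, map_sub, smul_eq_mul, hEk k hk0, hb, hσ']
      have hd'C : (d' : ℂ) * ((p : ℂ) - 1) = 12 * (n : ℂ) := by exact_mod_cast hd'
      show ((u * d' : ℤ) : ℂ) * ((σ : ℂ) - ((p : ℂ) - 1) / 24 * (2 * (b : ℂ))) = _
      push_cast
      have : (u : ℂ) * (d' : ℂ) * ((σ : ℂ) - ((p : ℂ) - 1) / 24 * (2 * (b : ℂ)))
          = (u : ℂ) * (d' : ℂ) * (σ : ℂ) - (u : ℂ) * ((d' : ℂ) * ((p : ℂ) - 1)) / 12 * (b : ℂ) := by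
        ring
      rw [this, hd'C]
      ring
    · -- `u d' σ - u n b ≡ σ`
      have e1 : u * d' * σ - u * n * b ≡ u * d' * σ - 0 [ZMOD (n : ℤ)] := by
        apply Int.ModEq.sub_left
        rw [Int.modEq_zero_iff_dvd]
        exact Dvd.intro_left _ (by ring : u * b * (n : ℤ) = u * n * b)
      have e2 : u * d' * σ ≡ 1 * σ [ZMOD (n : ℤ)] := by
        apply Int.ModEq.mul_right
        rw [mul_comm]
        exact hu
      calc u * d' * σ - u * n * b ≡ u * d' * σ - 0 [ZMOD (n : ℤ)] := e1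
        _ = u * d' * σ := by ring
        _ ≡ 1 * σ [ZMOD (n : ℤ)] := e2
        _ = σ := by ring
  -- `G` is a cusp form
  obtain ⟨s, hs⟩ := Form.exists_cuspForm_of_qExpansion_coeff_zero p G hG0
  have hqs : ∀ k, ModularFormClass.qCoeff s k = (qExpansion 1 (G : ℍ → ℂ)).coeff k := by
    intro k
    unfold ModularFormClass.qCoeff
    rw [hs]
  refine ⟨s, ?_, ?_⟩
  · apply Submodule.subset_span
    intro k
    rcases Nat.eq_zero_or_pos k with rfl | hkpos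
    · exact ⟨0, by rw [hqs, hG0]; simp⟩
    · obtain ⟨c, hc, _⟩ := hGk k hkpos
      exact ⟨c, by rw [hqs, hc]⟩
  · intro k hk1
    obtain ⟨c, hc, hcong⟩ := hGk k hk1
    exact ⟨c, by rw [hqs, hc], hcong⟩

end Fermat.Agent.S16.Theta.ThetaCong
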