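/-
T16 / LB-Θ / Θ-f FINAL (helper54): `exists_thetaForm` in the shape of `Skeleton.exists_thetaForm`,
unconditionally: for every odd prime `p` there is `Θ ∈ M₂(Γ₀(p))` with integral `q`-expansion,
`a₀ = 1` and `aₙ` even for `n ≥ 1` (the theta series of a maximal order of `B_{p,∞}`).

`ThetaForm.exists_thetaForm_of_weilDataExists` + `LatticeTheta.exists_weilData` (helper84, via the
Poisson summation formula of helper10).
-/
import Fermat.Agent.S16.Theta.ThetaForm
import Fermat.Agent.S16.Theta.LatticeTheta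
import Fermat.Agent.S16.Theta.ThetaCong

set_option autoImplicit false

open scoped MatrixGroups ModularForm UpperHalfPlane

namespace Fermat.Agent.S16.Theta

/-- **Θ-f** (= `Skeleton.exists_thetaForm`); named `exists_thetaForm_final` because helper3's
`Theta/Lower.lean` (landed first) already declares `Theta.exists_thetaForm` with the same statement:
the two files must never clash in one import closure. -/
theorem exists_thetaForm_final (p : ℕ) (hp : p.Prime) (hp2 : p ≠ 2) :
    ∃ Θ : ModularForm (CongruenceSubgroup.Gamma0 p) 2,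
      (UpperHalfPlane.qExpansion 1 (Θ : ℍ → ℂ)).coeff 0 = 1 ∧
      ∀ n : ℕ, 1 ≤ n → ∃ b : ℤ,
        (UpperHalfPlane.qExpansion 1 (Θ : ℍ → ℂ)).coeff n = 2 * (b : ℂ) :=
  exists_thetaForm_of_weilDataExists p hp hp2 (fun L => exists_weilData L hp)

/-- **LOWER (Θ route)**, for odd `p`, in the unfolded shape of `Cong p (eisensteinNumerator p)`:
a cusp form in the integral lattice congruent to `E' = Σ σ'(k) q^k` modulo
`eisensteinNumerator p`. -/
theorem lower_of_odd (p : ℕ) [Fact p.Prime] (hp2 : p ≠ 2) :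
    ∃ f ∈ CuspForm.intLattice p 2, ∀ k : ℕ, 1 ≤ k → ∃ c : ℤ,
      ModularFormClass.qCoeff f k = (c : ℂ) ∧
      c ≡ ∑ d ∈ k.divisors.filter (fun d => ¬ p ∣ d), (d : ℤ)
        [ZMOD ((ModularCurve.eisensteinNumerator p : ℕ) : ℤ)] := by
  obtain ⟨Θ, h0, hk⟩ := exists_thetaForm_final p Fact.out hp2
  exact ThetaCong.cong_of_thetaForm p Θ h0 hk

end Fermat.Agent.S16.Theta
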